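/-
S05 project (helper9, piece (F)): the two LOCAL contracts consumed by the final assembly.

Setting: `F₀` a field (`ℚ` in the application), `L` a field extension (`AlgebraicClosure ℚ`),
`v : Valuation L Γ₀` (the valuation of a valuation subring of `L` over the prime `q`),
`σ : L ≃ₐ[F₀] L` an "inertia-like" automorphism:
  `∀ x, v (σ x) = v x`   and   `∀ x, v x ≤ 1 → v (σ x - x) < 1`.
Curves are defined over `F₀`, points are those of the base change `W⁄L`, and `σ` acts on points by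
Mathlib's `Point.map σ.toAlgHom` (this is the action used in the frozen statement).
-/
import Mathlib

set_option autoImplicit false

namespace Fermat.Agent.Lib.S05

open WeierstrassCurve WeierstrassCurve.Affine WeierstrassCurve.Affine.Point

/-- GOOD CASE.  `W : Y² = X³ + a₂X² + a₄X + a₆` over `F₀`, integral coefficients, `v 2 = 1`,
`v Δ = 1`: an inertia-like `σ` fixes every point killed by an `n` with `v n = 1`. -/
def GoodCase : Prop :=
  ∀ {F₀ L Γ₀ : Type} [Field F₀] [Field L] [Algebra F₀ L] [DecidableEq L]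
    [LinearOrderedCommGroupWithZero Γ₀] (v : Valuation L Γ₀) (σ : L ≃ₐ[F₀] L),
    (∀ x, v (σ x) = v x) → (∀ x, v x ≤ 1 → v (σ x - x) < 1) →
    ∀ a₂ a₄ a₆ : F₀,
      v (algebraMap F₀ L a₂) ≤ 1 → v (algebraMap F₀ L a₄) ≤ 1 → v (algebraMap F₀ L a₆) ≤ 1 →
      v (2 : L) = 1 →
      v (algebraMap F₀ L (⟨0, a₂, 0, a₄, a₆⟩ : WeierstrassCurve F₀).Δ) = 1 →
      ∀ n : ℕ, v (n : L) = 1 →
      ∀ P : ((⟨0, a₂, 0, a₄, a₆⟩ : WeierstrassCurve F₀)⁄L).Point, n • P = 0 →
        Point.map σ.toAlgHom P = P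

/-- BAD (multiplicative) CASE.  `W_{a,b} : Y² = X³ + aX² + bX` over `F₀` with `v a = 1`,
`v b < 1`, `b ≠ 0`, `a² - 4b ≠ 0`, `v 2 = 1`; `p` an odd prime with `v p = 1`; and the value of `b`
is a `p`-th power of the value of an element `π` of the base field: `v b = (v π)^(p*e)`.
Then an inertia-like `σ` fixes every point killed by `p`. -/
def BadCase : Prop :=
  ∀ {F₀ L Γ₀ : Type} [Field F₀] [Field L] [Algebra F₀ L] [DecidableEq L] [IsAlgClosed L]
    [LinearOrderedCommGroupWithZero Γ₀] (v : Valuation L Γ₀) (σ : L ≃ₐ[F₀] L),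
    (∀ x, v (σ x) = v x) → (∀ x, v x ≤ 1 → v (σ x - x) < 1) →
    ∀ a b π : F₀, b ≠ 0 → a ^ 2 - 4 * b ≠ 0 →
      v (algebraMap F₀ L a) = 1 → v (algebraMap F₀ L b) < 1 → v (2 : L) = 1 →
      ∀ p : ℕ, p.Prime → p ≠ 2 → v (p : L) = 1 →
      (∃ e : ℕ, v (algebraMap F₀ L b) = v (algebraMap F₀ L π) ^ (p * e)) →
      ∀ P : ((⟨0, a, 0, b, 0⟩ : WeierstrassCurve F₀)⁄L).Point, p • P = 0 →
        Point.map σ.toAlgHom P = P

end Fermat.Agent.Lib.S05
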