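/-
S05 project: basic facts about the decomposition and inertia subgroups of a valuation subring `A`
of a field `L` (algebraic over a base field `K`), in the form used by the local analysis:

* an element `σ` of the decomposition group preserves the valuation, `v (σ x) = v x`;
* an element of the inertia group acts trivially on the residue field: `v (σ x - x) < 1`
  for `x ∈ A`;
* for `A` a valuation subring of a field of characteristic zero lying over the prime `q`,
  every integer prime to `q` is a unit: `v ℓ = 1`.
-/
import Mathlib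
import Fermat.Prelude.Def_FLTPrelim_Ramification

set_option autoImplicit false

open scoped Pointwise

namespace Fermat.Agent.Lib.S05

variable {K L : Type*} [Field K] [Field L] [Algebra K L] (A : ValuationSubring L)

/-- Membership in the decomposition group: `σ` maps `A` onto `A`. -/
theorem mem_iff_of_mem_decomposition {σ : L ≃ₐ[K] L} (hσ : σ ∈ A.decompositionSubgroup K) (x : L) :
    σ x ∈ A ↔ x ∈ A := by
  have h : σ • A = A := hσ
  constructor
  · intro hx
    have hx' : σ x ∈ σ • A := by rw [h]; exact hx
    rw [ValuationSubring.mem_smul_pointwise_iff_exists] at hx'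
    obtain ⟨y, hy, hyx⟩ := hx'
    have : y = x := σ.injective hyx
    rwa [← this]
  · intro hx
    rw [← h]
    exact ValuationSubring.smul_mem_pointwise_smul σ x A hx

/-- Elements of the decomposition group are monotone for the valuation. -/
theorem valuation_le_of_mem_decomposition {σ : L ≃ₐ[K] L} (hσ : σ ∈ A.decompositionSubgroup K)
    {x y : L} (hxy : A.valuation x ≤ A.valuation y) : A.valuation (σ x) ≤ A.valuation (σ y) := by
  rw [ValuationSubring.valuation_le_iff] at hxy ⊢
  obtain ⟨a, ha⟩ := hxy
  refine ⟨⟨σ a, (mem_iff_of_mem_decomposition A hσ _).mpr a.2⟩, ?_⟩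
  show σ (a : L) * σ y = σ x
  rw [← map_mul, ha]

theorem valuation_le_iff_of_mem_decomposition {σ : L ≃ₐ[K] L}
    (hσ : σ ∈ A.decompositionSubgroup K) {x y : L} :
    A.valuation (σ x) ≤ A.valuation (σ y) ↔ A.valuation x ≤ A.valuation y := by
  refine ⟨fun h => ?_, valuation_le_of_mem_decomposition A hσ⟩
  have h' := valuation_le_of_mem_decomposition A (inv_mem hσ) h
  have e : ∀ z : L, σ⁻¹ (σ z) = z := fun z => by
    show σ.symm (σ z) = z
    simp
  rwa [e, e] at h'

theorem valuation_lt_iff_of_mem_decomposition {σ : L ≃ₐ[K] L}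
    (hσ : σ ∈ A.decompositionSubgroup K) {x y : L} :
    A.valuation (σ x) < A.valuation (σ y) ↔ A.valuation x < A.valuation y := by
  rw [← not_le, ← not_le, valuation_le_iff_of_mem_decomposition A hσ]

/-- A power of `σ` fixes a given algebraic element. -/
theorem exists_pow_apply_eq [Algebra.IsAlgebraic K L] (σ : L ≃ₐ[K] L) (x : L) :
    ∃ n : ℕ, 0 < n ∧ (σ ^ n) x = x := by
  classical
  have hfin : (Set.range fun n : ℕ => (σ ^ n) x).Finite := by
    have hx : IsAlgebraic K x := Algebra.IsAlgebraic.isAlgebraic x
    have hne : minpoly K x ≠ 0 := minpoly.ne_zero hx.isIntegral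
    refine Set.Finite.subset ((minpoly K x).rootSet_finite L) ?_
    rintro _ ⟨n, rfl⟩
    rw [Polynomial.mem_rootSet]
    refine ⟨hne, ?_⟩
    show Polynomial.aeval ((σ ^ n : L ≃ₐ[K] L) x) (minpoly K x) = 0
    have := Polynomial.aeval_algHom_apply ((σ ^ n : L ≃ₐ[K] L) : L →ₐ[K] L) x (minpoly K x)
    rw [minpoly.aeval, map_zero] at this
    exact this
  obtain ⟨i, j, hij, h⟩ : ∃ i j : ℕ, i ≠ j ∧ (σ ^ i) x = (σ ^ j) x := by
    by_contra hcon
    push Not at hcon
    have hinj : Function.Injective fun n : ℕ => (σ ^ n) x := fun i j h => by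
      by_contra hne
      exact hcon i j hne h
    exact Set.infinite_range_of_injective hinj hfin
  wlog hlt : i < j generalizing i j
  · exact this j i hij.symm h.symm (lt_of_le_of_ne (not_lt.mp hlt) hij.symm)
  refine ⟨j - i, Nat.sub_pos_of_lt hlt, ?_⟩
  have hj : j = (j - i) + i := (Nat.sub_add_cancel hlt.le).symm
  rw [hj, pow_add, AlgEquiv.mul_apply] at h
  -- h : σ^i x = σ^(j-i) (σ^i x)... careful with order
  have h2 : (σ ^ i) x = (σ ^ i) ((σ ^ (j - i)) x) := by
    rw [h, ← AlgEquiv.mul_apply, ← AlgEquiv.mul_apply, ← pow_add, ← pow_add, add_comm]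
  exact ((σ ^ i).injective h2).symm

/-- Elements of the decomposition group preserve the valuation (for an algebraic extension). -/
theorem valuation_apply_of_mem_decomposition [Algebra.IsAlgebraic K L] {σ : L ≃ₐ[K] L}
    (hσ : σ ∈ A.decompositionSubgroup K) (x : L) : A.valuation (σ x) = A.valuation x := by
  obtain ⟨n, hn, hx⟩ := exists_pow_apply_eq (K := K) σ x
  have hpow : ∀ k : ℕ, (σ ^ (k + 1)) x = σ ((σ ^ k) x) := fun k => by
    rw [pow_succ', AlgEquiv.mul_apply]
  rcases lt_trichotomy (A.valuation (σ x)) (A.valuation x) with hlt | heq | hgt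
  · exfalso
    -- v (σ^(k+1) x) < v (σ^k x) for all k, hence v (σ^n x) < v x
    have hstep : ∀ k : ℕ, A.valuation ((σ ^ (k + 1)) x) < A.valuation ((σ ^ k) x) := by
      intro k
      induction k with
      | zero => simpa using hlt
      | succ k ih =>
        rw [hpow (k + 1), hpow k]
        exact (valuation_lt_iff_of_mem_decomposition A hσ).mpr (by rw [← hpow k]; exact ih)
    have hall : ∀ k : ℕ, 0 < k → A.valuation ((σ ^ k) x) < A.valuation x := by
      intro k hk
      induction k with
      | zero => omega
      | succ k ih =>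
        rcases Nat.eq_zero_or_pos k with rfl | hk'
        · simpa using hlt
        · exact lt_trans (hstep k) (ih hk')
    have := hall n hn
    rw [hx] at this
    exact lt_irrefl _ this
  · exact heq
  · exfalso
    have hstep : ∀ k : ℕ, A.valuation ((σ ^ k) x) < A.valuation ((σ ^ (k + 1)) x) := by
      intro k
      induction k with
      | zero => simpa using hgt
      | succ k ih =>
        rw [hpow (k + 1), hpow k]
        exact (valuation_lt_iff_of_mem_decomposition A hσ).mpr (by rw [← hpow k]; exact ih)
    have hall : ∀ k : ℕ, 0 < k → A.valuation x < A.valuation ((σ ^ k) x) := by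
      intro k hk
      induction k with
      | zero => omega
      | succ k ih =>
        rcases Nat.eq_zero_or_pos k with rfl | hk'
        · simpa using hgt
        · exact lt_trans (ih hk') (hstep k)
    have := hall n hn
    rw [hx] at this
    exact lt_irrefl _ this

/-- Elements of the inertia group act trivially on the residue field. -/
theorem valuation_sub_lt_one_of_mem_inertia {σ : L ≃ₐ[K] L} (hσ : σ ∈ A.inertiaSubgroupIn K)
    {x : L} (hx : x ∈ A) : A.valuation (σ x - x) < 1 := by
  obtain ⟨τ, hτ, rfl⟩ := hσ
  -- `τ : decompositionSubgroup`, in the kernel of the action on the residue field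
  have hker : MulSemiringAction.toRingAut (A.decompositionSubgroup K)
      (IsLocalRing.ResidueField A) τ = 1 := hτ
  have hres : τ • (IsLocalRing.residue A ⟨x, hx⟩) = IsLocalRing.residue A ⟨x, hx⟩ := by
    have := congrArg (fun f : RingAut (IsLocalRing.ResidueField A) =>
      f (IsLocalRing.residue A ⟨x, hx⟩)) hker
    simpa using this
  rw [← IsLocalRing.ResidueField.residue_smul] at hres
  have hmem : (τ • (⟨x, hx⟩ : A)) - ⟨x, hx⟩ ∈ IsLocalRing.maximalIdeal A := by
    rw [← Ideal.Quotient.eq_zero_iff_mem, map_sub, sub_eq_zero]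
    exact hres
  rw [ValuationSubring.valuation_lt_one_iff] at hmem
  exact hmem

theorem mem_decomposition_of_mem_inertia {σ : L ≃ₐ[K] L} (hσ : σ ∈ A.inertiaSubgroupIn K) :
    σ ∈ A.decompositionSubgroup K := by
  obtain ⟨τ, -, rfl⟩ := hσ
  exact τ.2

/-- Integers are integral for any valuation subring. -/
theorem valuation_intCast_le_one (n : ℤ) : A.valuation (n : L) ≤ 1 := by
  rw [ValuationSubring.valuation_le_one_iff]
  exact intCast_mem A n

/-- If `A` lies over the prime `q`, every integer prime to `q` is a unit of `A`. -/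
theorem valuation_intCast_eq_one_of_isCoprime {q : ℕ} (hq : A.LiesOverPrime q) {n : ℤ}
    (hn : IsCoprime n (q : ℤ)) : A.valuation (n : L) = 1 := by
  have hq' : A.valuation ((q : ℤ) : L) < 1 := by
    have : ((q : ℤ) : L) = (q : L) := by push_cast; rfl
    rw [this]
    exact (ValuationSubring.mem_nonunits_iff (A := A)).mp hq
  obtain ⟨a, b, hab⟩ := hn
  refine le_antisymm (valuation_intCast_le_one A n) ?_
  by_contra hlt
  push Not at hlt
  have h1 : A.valuation ((a : L) * (n : L)) < 1 := by
    rw [map_mul]
    calc A.valuation (a : L) * A.valuation (n : L) ≤ 1 * A.valuation (n : L) :=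
          mul_le_mul_left (valuation_intCast_le_one A a) _
      _ = A.valuation (n : L) := one_mul _
      _ < 1 := hlt
  have h2 : A.valuation ((b : L) * ((q : ℤ) : L)) < 1 := by
    rw [map_mul]
    calc A.valuation (b : L) * A.valuation ((q : ℤ) : L) ≤ 1 * A.valuation ((q : ℤ) : L) :=
          mul_le_mul_left (valuation_intCast_le_one A b) _
      _ = A.valuation ((q : ℤ) : L) := one_mul _
      _ < 1 := hq'
  have h3 : (1 : L) = (a : L) * (n : L) + (b : L) * ((q : ℤ) : L) := by
    have := congrArg (fun z : ℤ => (z : L)) hab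
    simp only [Int.cast_add, Int.cast_mul, Int.cast_one] at this
    exact this.symm
  have h4 : A.valuation (1 : L) < 1 := by
    rw [h3]
    exact lt_of_le_of_lt (A.valuation.map_add _ _) (max_lt h1 h2)
  rw [map_one] at h4
  exact lt_irrefl _ h4

theorem valuation_natCast_eq_one_of_prime_ne {q : ℕ} (hq : A.LiesOverPrime q) (hqp : q.Prime)
    {ℓ : ℕ} (hℓ : ℓ.Prime) (hne : ℓ ≠ q) : A.valuation (ℓ : L) = 1 := by
  have hcop : IsCoprime (ℓ : ℤ) (q : ℤ) := by
    rw [Nat.isCoprime_iff_coprime]
    exact (Nat.coprime_primes hℓ hqp).mpr hne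
  have := valuation_intCast_eq_one_of_isCoprime A hq hcop
  simpa using this

end Fermat.Agent.Lib.S05
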