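/-
S05 project (helper9, piece (F)): transfer of "σ fixes the n-torsion" along a variable change
defined over the base field.
-/
import Mathlib
import Fermat.Agent.Lib.S51.VarChangePoint

set_option autoImplicit false

namespace Fermat.Agent.Lib.S05

open WeierstrassCurve WeierstrassCurve.Affine WeierstrassCurve.Affine.Point
open Fermat.Agent.Lib.S51

section Congr

variable {L : Type*} [Field L] [DecidableEq L]

/-- Transport of points along an equality of curves. -/
def h9_pointCongr {W₁ W₂ : WeierstrassCurve L} (h : W₁ = W₂) :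
    W₁.toAffine.Point ≃+ W₂.toAffine.Point := by
  subst h
  exact AddEquiv.refl _

lemma h9_pointCongr_zero {W₁ W₂ : WeierstrassCurve L} (h : W₁ = W₂) :
    h9_pointCongr h (0 : W₁.toAffine.Point) = 0 := map_zero _

lemma h9_pointCongr_some {W₁ W₂ : WeierstrassCurve L} (h : W₁ = W₂) {x y : L}
    (hxy : W₁.toAffine.Nonsingular x y) :
    h9_pointCongr h (Point.some x y hxy) = Point.some x y (h ▸ hxy) := by
  subst h
  rfl

end Congr

/-- If `σ` fixes every point of `W⁄L` killed by `n`, the same holds for `(C • W)⁄L`, for a variable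
change `C` defined over the base field. -/
theorem h9_fixed_of_variableChange {F₀ L : Type*} [Field F₀] [Field L] [Algebra F₀ L]
    [DecidableEq L] (W : WeierstrassCurve F₀) (C : VariableChange F₀) (σ : L ≃ₐ[F₀] L) (n : ℕ)
    (h : ∀ P : (W⁄L).Point, n • P = 0 → Point.map σ.toAlgHom P = P) :
    ∀ P : ((C • W)⁄L).Point, n • P = 0 → Point.map σ.toAlgHom P = P := by
  intro P hP
  have heq : (C.map (algebraMap F₀ L)) • (W.baseChange L) = (C • W).baseChange L :=
    map_variableChange ..
  let Φ : ((C • W)⁄L).Point ≃+ (W⁄L).Point :=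
    (h9_pointCongr heq.symm).trans
      (vcPointEquiv (W.baseChange L) (C.map (algebraMap F₀ L)))
  have hCσ : (C.map (algebraMap F₀ L)).map (σ : L →+* L) = C.map (algebraMap F₀ L) := by
    rw [VariableChange.map_map]
    congr 1
    ext z
    exact σ.commutes z
  have hΦ_some : ∀ {x y : L} (hxy : ((C • W)⁄L).Nonsingular x y),
      ∃ h', Φ (Point.some x y hxy) =
        Point.some (vcX (C.map (algebraMap F₀ L)) x) (vcY (C.map (algebraMap F₀ L)) x y) h' := by
    intro x y hxy
    have hxy' : ((C.map (algebraMap F₀ L)) • (W.baseChange L)).toAffine.Nonsingular x y :=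
      heq.symm ▸ hxy
    refine ⟨(nonsingular_vc _ _ _ _).mp hxy', ?_⟩
    show vcPointEquiv _ _ (h9_pointCongr heq.symm (Point.some x y hxy)) = _
    rw [h9_pointCongr_some, vcPointEquiv_some]
  have hΦσ : ∀ Q : ((C • W)⁄L).Point,
      Φ (Point.map σ.toAlgHom Q) = Point.map σ.toAlgHom (Φ Q) := by
    rintro (_ | ⟨x, y, hxy⟩)
    · rw [show (Point.zero : ((C • W)⁄L).Point) = 0 from rfl, _root_.map_zero, _root_.map_zero,
        _root_.map_zero]
    · obtain ⟨h1, e1⟩ := hΦ_some hxy
      rw [e1, Point.map_some, Point.map_some]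
      obtain ⟨h2, e2⟩ := hΦ_some ((WeierstrassCurve.Affine.baseChange_nonsingular (C • W)
        σ.toAlgHom.injective x y).mpr hxy)
      rw [e2]
      have ex : vcX (C.map (algebraMap F₀ L)) (σ.toAlgHom x) =
          σ.toAlgHom (vcX (C.map (algebraMap F₀ L)) x) := by
        have := vcX_map (σ : L →+* L) (C.map (algebraMap F₀ L)) x
        rw [hCσ] at this
        exact this
      have ey : vcY (C.map (algebraMap F₀ L)) (σ.toAlgHom x) (σ.toAlgHom y) =
          σ.toAlgHom (vcY (C.map (algebraMap F₀ L)) x y) := by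
        have := vcY_map (σ : L →+* L) (C.map (algebraMap F₀ L)) x y
        rw [hCσ] at this
        exact this
      simp only [Point.some.injEq]
      exact ⟨ex, ey⟩
  have h1 : n • Φ P = 0 := by rw [← map_nsmul, hP, _root_.map_zero]
  have h2 := h (Φ P) h1
  rw [← hΦσ] at h2
  exact Φ.injective h2

end Fermat.Agent.Lib.S05
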