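/-
S05 project (helper9, piece (F)+(S0)): final assembly.
`h9_s05_of_contracts : GoodCase → BadCase → ∀ P q, ... → P.GaloisRepUnramifiedAt q`.
-/
import Mathlib
import Fermat.Prelude.Def_FLTPrelim_Ramification
import Fermat.Agent.Lib.S05.Contracts
import Fermat.Agent.Lib.S05.Inertia
import Fermat.Agent.Lib.S05.Transfer

set_option autoImplicit false

namespace Fermat.Agent.Lib.S05

open WeierstrassCurve WeierstrassCurve.Affine WeierstrassCurve.Affine.Point

/-! ### valuations of integers -/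

section Val

variable {L : Type*} [Field L] (A : ValuationSubring L) {q : ℕ}

theorem h9_val_q_lt_one (hq : A.LiesOverPrime q) : A.valuation (q : L) < 1 :=
  (ValuationSubring.mem_nonunits_iff (A := A)).mp hq

theorem h9_val_int_of_not_dvd (hq : A.LiesOverPrime q) (hqp : q.Prime) {m : ℤ}
    (h : ¬ (q : ℤ) ∣ m) : A.valuation (m : L) = 1 := by
  apply valuation_intCast_eq_one_of_isCoprime A hq
  have hp : Prime (q : ℤ) := Nat.prime_iff_prime_int.mp hqp
  exact (IsCoprime.symm ((Prime.coprime_iff_not_dvd hp).mpr h))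

theorem h9_val_int_pow (hq : A.LiesOverPrime q) (hqp : q.Prime) {m : ℤ} (hm : m ≠ 0) :
    ∃ e : ℕ, A.valuation (m : L) = A.valuation (q : L) ^ e := by
  have hfin : FiniteMultiplicity (q : ℤ) m := by
    rw [Int.finiteMultiplicity_iff]
    refine ⟨?_, hm⟩
    rw [Int.natAbs_natCast]
    exact hqp.ne_one
  obtain ⟨c, hc, hdvd⟩ := hfin.exists_eq_pow_mul_and_not_dvd
  refine ⟨multiplicity (q : ℤ) m, ?_⟩
  have h1 : (m : L) = (q : L) ^ multiplicity (q : ℤ) m * (c : L) := by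
    conv_lhs => rw [hc]
    push_cast
    ring
  rw [h1, map_mul, map_pow, h9_val_int_of_not_dvd A hq hqp hdvd, mul_one]

end Val

/-! ### models of the Frey curve -/

section Models

variable (P : FreyPackage)

/-- Legendre model `Y² = X(X - A)(X + B) = X³ + (B-A)X² - ABX`, `A = a^p`, `B = b^p`. -/
def h9_model1 : WeierstrassCurve ℚ :=
  ⟨0, ((P.b ^ P.p - P.a ^ P.p : ℤ) : ℚ), 0, ((-(P.a ^ P.p * P.b ^ P.p) : ℤ) : ℚ), 0⟩

/-- Translated model `Y² = X(X + A)(X + C) = X³ + (A+C)X² + ACX`, `C = c^p`. -/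
def h9_model2 : WeierstrassCurve ℚ :=
  ⟨0, ((P.a ^ P.p + P.c ^ P.p : ℤ) : ℚ), 0, ((P.a ^ P.p * P.c ^ P.p : ℤ) : ℚ), 0⟩

/-- `(X, Y) = (4x, 8y + 4x)`. -/
def h9_vc1 : VariableChange ℚ := ⟨Units.mk0 2 (by norm_num), 0, 1, 0⟩

/-- `(X, Y) = (4x - A, 8y + 4x)`. -/
def h9_vc2 : VariableChange ℚ := ⟨Units.mk0 2 (by norm_num), -((P.a ^ P.p : ℤ) : ℚ), 1, 0⟩

theorem h9_vc1_smul : h9_vc1 • h9_model1 P = P.freyCurve := by
  ext
  · rw [variableChange_a₁]
    simp only [h9_vc1, h9_model1, FreyPackage.freyCurve, Units.val_inv_eq_inv_val, Units.val_mk0]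
    norm_num
  · rw [variableChange_a₂]
    simp only [h9_vc1, h9_model1, FreyPackage.freyCurve, Units.val_inv_eq_inv_val, Units.val_mk0]
    push_cast
    ring
  · rw [variableChange_a₃]
    simp only [h9_vc1, h9_model1, FreyPackage.freyCurve, Units.val_inv_eq_inv_val, Units.val_mk0]
    norm_num
  · rw [variableChange_a₄]
    simp only [h9_vc1, h9_model1, FreyPackage.freyCurve, Units.val_inv_eq_inv_val, Units.val_mk0]
    push_cast
    ring
  · rw [variableChange_a₆]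
    simp only [h9_vc1, h9_model1, FreyPackage.freyCurve, Units.val_inv_eq_inv_val, Units.val_mk0]
    norm_num

theorem h9_vc2_smul : h9_vc2 P • h9_model2 P = P.freyCurve := by
  have hF : ((P.a : ℚ)) ^ P.p + (P.b : ℚ) ^ P.p = (P.c : ℚ) ^ P.p := by
    exact_mod_cast P.hFLT
  ext
  · rw [variableChange_a₁]
    simp only [h9_vc2, h9_model2, FreyPackage.freyCurve, Units.val_inv_eq_inv_val, Units.val_mk0]
    norm_num
  · rw [variableChange_a₂]
    simp only [h9_vc2, h9_model2, FreyPackage.freyCurve, Units.val_inv_eq_inv_val, Units.val_mk0]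
    push_cast
    linear_combination (-(1 / 4 : ℚ)) * hF
  · rw [variableChange_a₃]
    simp only [h9_vc2, h9_model2, FreyPackage.freyCurve, Units.val_inv_eq_inv_val, Units.val_mk0]
    norm_num
  · rw [variableChange_a₄]
    simp only [h9_vc2, h9_model2, FreyPackage.freyCurve, Units.val_inv_eq_inv_val, Units.val_mk0]
    push_cast
    linear_combination ((1 / 16 : ℚ) * (P.a : ℚ) ^ P.p) * hF
  · rw [variableChange_a₆]
    simp only [h9_vc2, h9_model2, FreyPackage.freyCurve, Units.val_inv_eq_inv_val, Units.val_mk0]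
    push_cast
    ring

theorem h9_model1_disc :
    ((P.b ^ P.p - P.a ^ P.p : ℤ) : ℚ) ^ 2 - 4 * ((-(P.a ^ P.p * P.b ^ P.p) : ℤ) : ℚ) ≠ 0 := by
  have hF : ((P.a : ℚ)) ^ P.p + (P.b : ℚ) ^ P.p = (P.c : ℚ) ^ P.p := by
    exact_mod_cast P.hFLT
  have hc : ((P.c : ℚ) ^ P.p) ^ 2 ≠ 0 := by
    have : (P.c : ℚ) ≠ 0 := by exact_mod_cast P.hc0
    positivity
  intro h
  apply hc
  push_cast at h
  linear_combination h - ((P.a : ℚ) ^ P.p + (P.b : ℚ) ^ P.p + (P.c : ℚ) ^ P.p) * hF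

theorem h9_model2_disc :
    ((P.a ^ P.p + P.c ^ P.p : ℤ) : ℚ) ^ 2 - 4 * ((P.a ^ P.p * P.c ^ P.p : ℤ) : ℚ) ≠ 0 := by
  have hF : ((P.a : ℚ)) ^ P.p + (P.b : ℚ) ^ P.p = (P.c : ℚ) ^ P.p := by
    exact_mod_cast P.hFLT
  have hb : ((P.b : ℚ) ^ P.p) ^ 2 ≠ 0 := by
    have : (P.b : ℚ) ≠ 0 := by exact_mod_cast P.hb0
    positivity
  intro h
  apply hb
  push_cast at h
  linear_combination h + ((P.b : ℚ) ^ P.p - (P.a : ℚ) ^ P.p + (P.c : ℚ) ^ P.p) * hF

theorem h9_model1_Δ :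
    (h9_model1 P).Δ =
      ((16 * (P.a ^ P.p) ^ 2 * (P.b ^ P.p) ^ 2 * (P.c ^ P.p) ^ 2 : ℤ) : ℚ) := by
  have hF : ((P.a : ℚ)) ^ P.p + (P.b : ℚ) ^ P.p = (P.c : ℚ) ^ P.p := by
    exact_mod_cast P.hFLT
  simp only [Δ, b₂, b₄, b₆, b₈, h9_model1]
  push_cast
  linear_combination (16 * ((P.a : ℚ) ^ P.p) ^ 2 * ((P.b : ℚ) ^ P.p) ^ 2 *
    ((P.a : ℚ) ^ P.p + (P.b : ℚ) ^ P.p + (P.c : ℚ) ^ P.p)) * hF

/-- A prime cannot divide both `a` and `b`. -/
theorem h9_not_dvd_both {q : ℕ} (hq : q.Prime) {a b : ℤ} (h : gcd a b = 1) (ha : (q : ℤ) ∣ a)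
    (hb : (q : ℤ) ∣ b) : False := by
  have hp : Prime (q : ℤ) := Nat.prime_iff_prime_int.mp hq
  have : (q : ℤ) ∣ gcd a b := dvd_gcd ha hb
  rw [h] at this
  exact hp.not_isUnit (isUnit_of_dvd_one this)

end Models

/-! ### the assembly -/

section Main

local notation "Qb" => AlgebraicClosure ℚ

theorem h9_isAlgebraic_Qbar : Algebra.IsAlgebraic ℚ Qb := by
  have h : (DivisionRing.toRatAlgebra : Algebra ℚ Qb) =
      AlgebraicClosure.instAlgebra (k := ℚ) (R := ℚ) := Subsingleton.elim _ _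
  rw [h]
  exact AlgebraicClosure.isAlgebraic ℚ

theorem h9_val_int_lt_one_of_dvd {L : Type*} [Field L] (A : ValuationSubring L) {q : ℕ}
    (hq : A.LiesOverPrime q) {m : ℤ} (h : (q : ℤ) ∣ m) : A.valuation (m : L) < 1 := by
  obtain ⟨k, rfl⟩ := h
  have h1 : (((q : ℤ) * k : ℤ) : L) = (q : L) * (k : L) := by push_cast; ring
  rw [h1, map_mul]
  calc A.valuation (q : L) * A.valuation (k : L) ≤ A.valuation (q : L) * 1 :=
        mul_le_mul_right (valuation_intCast_le_one A k) _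
    _ = A.valuation (q : L) := mul_one _
    _ < 1 := h9_val_q_lt_one A hq

theorem h9_s05_of_contracts (hG : GoodCase) (hB : BadCase) (P : FreyPackage) {q : ℕ}
    (hq : q.Prime) (hq2 : q ≠ 2) (hqp : q ≠ P.p) : P.GaloisRepUnramifiedAt q := by
  intro A hA σ hσ x
  have := h9_isAlgebraic_Qbar
  have hqZ : Prime (q : ℤ) := Nat.prime_iff_prime_int.mp hq
  have hσdec := mem_decomposition_of_mem_inertia A hσ
  have hv1 : ∀ z, A.valuation (σ z) = A.valuation z :=
    fun z => valuation_apply_of_mem_decomposition A hσdec z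
  have hv2 : ∀ z, A.valuation z ≤ 1 → A.valuation (σ z - z) < 1 :=
    fun z hz => valuation_sub_lt_one_of_mem_inertia A hσ ((A.valuation_le_one_iff z).mp hz)
  have hnat : ∀ n : ℕ, n.Prime → q ≠ n → A.valuation (n : Qb) = 1 := by
    intro n hn hne
    have h1 : ¬ (q : ℤ) ∣ (n : ℤ) := by
      rw [Int.natCast_dvd_natCast]
      intro hdvd
      exact hne ((Nat.prime_dvd_prime_iff_eq hq hn).mp hdvd)
    have := h9_val_int_of_not_dvd A hA hq h1
    simpa using this
  have h2 : A.valuation (2 : Qb) = 1 := by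
    have := hnat 2 Nat.prime_two hq2
    simpa using this
  have hp : A.valuation (P.p : Qb) = 1 := hnat P.p P.pp hqp
  have hp2 : P.p ≠ 2 := by have := P.hp5; omega
  -- reduce to a statement about points
  suffices key : ∀ Q : (P.freyCurve⁄Qb).Point, P.p • Q = 0 → Point.map σ.toAlgHom Q = Q by
    apply Subtype.ext
    have hx := x.2
    rw [Submodule.mem_torsionBy_iff, natCast_zsmul] at hx
    exact key x.1 hx
  by_cases hdiv : (q : ℤ) ∣ P.a * P.b * P.c
  · by_cases hab : (q : ℤ) ∣ P.a * P.b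
    · -- `q ∣ ab`: model 1 is in the bad case
      rw [← h9_vc1_smul P]
      apply h9_fixed_of_variableChange
      have hnd : ¬ (q : ℤ) ∣ (P.b ^ P.p - P.a ^ P.p) := by
        intro hd
        rcases hqZ.dvd_or_dvd hab with ha | hb
        · have hb' : (q : ℤ) ∣ P.b ^ P.p := by
            have : P.b ^ P.p = (P.b ^ P.p - P.a ^ P.p) + P.a ^ P.p := by ring
            rw [this]
            exact dvd_add hd (dvd_pow ha P.hp0)
          exact h9_not_dvd_both hq P.hgcdab ha (hqZ.dvd_of_dvd_pow hb')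
        · have ha' : (q : ℤ) ∣ P.a ^ P.p := by
            have : P.a ^ P.p = P.b ^ P.p - (P.b ^ P.p - P.a ^ P.p) := by ring
            rw [this]
            exact dvd_sub (dvd_pow hb P.hp0) hd
          exact h9_not_dvd_both hq P.hgcdab (hqZ.dvd_of_dvd_pow ha') hb
      have hdvdb : (q : ℤ) ∣ -(P.a ^ P.p * P.b ^ P.p) := by
        rw [dvd_neg, ← mul_pow]
        exact dvd_pow hab P.hp0
      obtain ⟨e₁, he₁⟩ := h9_val_int_pow A hA hq P.ha0
      obtain ⟨e₂, he₂⟩ := h9_val_int_pow A hA hq P.hb0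
      refine hB A.valuation σ hv1 hv2 _ _ (q : ℚ) ?_ (h9_model1_disc P) ?_ ?_ h2 P.p P.pp hp2 hp
        ⟨e₁ + e₂, ?_⟩
      · exact Int.cast_ne_zero.mpr
          (neg_ne_zero.mpr (mul_ne_zero (pow_ne_zero _ P.ha0) (pow_ne_zero _ P.hb0)))
      · rw [map_intCast]
        exact h9_val_int_of_not_dvd A hA hq hnd
      · rw [map_intCast]
        exact h9_val_int_lt_one_of_dvd A hA hdvdb
      · rw [map_intCast, map_natCast]
        push_cast
        rw [Valuation.map_neg, map_mul, map_pow, map_pow, he₁, he₂, ← pow_mul, ← pow_mul,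
          ← pow_add]
        congr 1
        ring
    · -- `q ∣ c`, `q ∤ ab`: model 2 is in the bad case
      have hc : (q : ℤ) ∣ P.c := (hqZ.dvd_or_dvd hdiv).resolve_left hab
      have ha : ¬ (q : ℤ) ∣ P.a := fun h => hab (dvd_mul_of_dvd_left h _)
      rw [← h9_vc2_smul P]
      apply h9_fixed_of_variableChange
      have hnd : ¬ (q : ℤ) ∣ (P.a ^ P.p + P.c ^ P.p) := by
        intro hd
        have ha' : (q : ℤ) ∣ P.a ^ P.p := by
          have : P.a ^ P.p = (P.a ^ P.p + P.c ^ P.p) - P.c ^ P.p := by ring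
          rw [this]
          exact dvd_sub hd (dvd_pow hc P.hp0)
        exact ha (hqZ.dvd_of_dvd_pow ha')
      have hdvdb : (q : ℤ) ∣ P.a ^ P.p * P.c ^ P.p :=
        dvd_mul_of_dvd_right (dvd_pow hc P.hp0) _
      obtain ⟨e₂, he₂⟩ := h9_val_int_pow A hA hq P.hc0
      have he₁ : A.valuation ((P.a : ℤ) : Qb) = 1 := h9_val_int_of_not_dvd A hA hq ha
      refine hB A.valuation σ hv1 hv2 _ _ (q : ℚ) ?_ (h9_model2_disc P) ?_ ?_ h2 P.p P.pp hp2 hp
        ⟨e₂, ?_⟩
      · exact Int.cast_ne_zero.mpr (mul_ne_zero (pow_ne_zero _ P.ha0) (pow_ne_zero _ P.hc0))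
      · rw [map_intCast]
        exact h9_val_int_of_not_dvd A hA hq hnd
      · rw [map_intCast]
        exact h9_val_int_lt_one_of_dvd A hA hdvdb
      · rw [map_intCast, map_natCast]
        push_cast
        rw [map_mul, map_pow, map_pow, he₁, he₂, one_pow, one_mul, ← pow_mul]
        congr 1
        ring
  · -- good reduction: model 1
    rw [← h9_vc1_smul P]
    apply h9_fixed_of_variableChange
    have ha : ¬ (q : ℤ) ∣ P.a := fun h => hdiv (dvd_mul_of_dvd_left (dvd_mul_of_dvd_left h _) _)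
    have hb : ¬ (q : ℤ) ∣ P.b := fun h => hdiv (dvd_mul_of_dvd_left (dvd_mul_of_dvd_right h _) _)
    have hc : ¬ (q : ℤ) ∣ P.c := fun h => hdiv (dvd_mul_of_dvd_right h _)
    have h16 : ¬ (q : ℤ) ∣ 16 := by
      intro h
      have h' : (q : ℤ) ∣ 2 ^ 4 := by norm_num; exact h
      have := hqZ.dvd_of_dvd_pow h'
      have h2' : (q : ℤ) ∣ ((2 : ℕ) : ℤ) := by simpa using this
      rw [Int.natCast_dvd_natCast] at h2'
      exact hq2 ((Nat.prime_dvd_prime_iff_eq hq Nat.prime_two).mp h2')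
    have hΔnd : ¬ (q : ℤ) ∣ 16 * (P.a ^ P.p) ^ 2 * (P.b ^ P.p) ^ 2 * (P.c ^ P.p) ^ 2 := by
      intro h
      rcases hqZ.dvd_or_dvd h with h | h
      · rcases hqZ.dvd_or_dvd h with h | h
        · rcases hqZ.dvd_or_dvd h with h | h
          · exact h16 h
          · exact ha (hqZ.dvd_of_dvd_pow (hqZ.dvd_of_dvd_pow h))
        · exact hb (hqZ.dvd_of_dvd_pow (hqZ.dvd_of_dvd_pow h))
      · exact hc (hqZ.dvd_of_dvd_pow (hqZ.dvd_of_dvd_pow h))
    refine hG A.valuation σ hv1 hv2 _ _ 0 ?_ ?_ ?_ h2 ?_ P.p hp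
    · rw [map_intCast]; exact valuation_intCast_le_one A _
    · rw [map_intCast]; exact valuation_intCast_le_one A _
    · rw [_root_.map_zero, _root_.map_zero]; exact zero_le_one
    · have hΔ := h9_model1_Δ P
      unfold h9_model1 at hΔ
      rw [hΔ, map_intCast]
      exact h9_val_int_of_not_dvd A hA hq hΔnd

end Main

end Fermat.Agent.Lib.S05
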