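/-
S05 project, piece (M1) "component homomorphism": shared definitions (helper2).

Setting: `(L, v)` a valued field, `Wab a b : Y² = X³ + a X² + b X` with `v a = 1`, `0 < v b < 1`,
`v 2 = 1`, `α² = a`.  The reduction of `Wab a b` is a nodal cubic with node `(0,0)` and tangent
directions `Y = ± α X`.  An affine point `(x, y)` is

* of *identity type* if `1 ≤ v x` (nonsingular reduction; kernel of reduction if `1 < v x`),
* *intermediate* if `v b < v x < 1`; then exactly one of `v (y - α x) < v x` (*plus*),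
  `v (y + α x) < v x` (*minus*) holds,
* *near `T = (0,0)`* if `v x ≤ v b`.

The component map sends identity type (and `0`) to `1`, plus-points to `v x`, minus-points to
`(v x)⁻¹` and points near `T` to `v b`, modulo powers of `(v b)²`.
-/
import Mathlib

set_option autoImplicit false

namespace Fermat.Agent.Lib.S05

open WeierstrassCurve

/-- The curve `Y² = X³ + a X² + b X`. -/
def Wab {L : Type*} [CommRing L] (a b : L) : WeierstrassCurve L := ⟨0, a, 0, b, 0⟩

section

variable {L : Type*} [Field L] {Γ₀ : Type*} [LinearOrderedCommGroupWithZero Γ₀]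

/-- The standing hypotheses of the component analysis. -/
structure CompSetting (v : Valuation L Γ₀) (a b α : L) : Prop where
  v2 : v 2 = 1
  va : v a = 1
  hα : α ^ 2 = a
  vb : v b < 1
  b0 : b ≠ 0

variable (v : Valuation L Γ₀) (a b α : L)

/-- `(x, y)` is an intermediate point on the branch `Y ≈ α X`. -/
def IsIntPlus (x y : L) : Prop := v b < v x ∧ v x < 1 ∧ v (y - α * x) < v x

/-- `(x, y)` is an intermediate point on the branch `Y ≈ -α X`. -/
def IsIntMinus (x y : L) : Prop := v b < v x ∧ v x < 1 ∧ v (y + α * x) < v x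

/-- The point `P` is `0` or has `1 ≤ v x` (identity component). -/
def PtIdent (P : (Wab a b).toAffine.Point) : Prop :=
  P = 0 ∨ ∃ (x y : L) (h : (Wab a b).toAffine.Nonsingular x y), P = .some x y h ∧ 1 ≤ v x

/-- The point `P` is intermediate, on the plus branch, with `v x = g`. -/
def PtIntPlus (P : (Wab a b).toAffine.Point) (g : Γ₀) : Prop :=
  ∃ (x y : L) (h : (Wab a b).toAffine.Nonsingular x y),
    P = .some x y h ∧ IsIntPlus v b α x y ∧ v x = g

/-- The point `P` is intermediate, on the minus branch, with `v x = g`. -/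
def PtIntMinus (P : (Wab a b).toAffine.Point) (g : Γ₀) : Prop :=
  ∃ (x y : L) (h : (Wab a b).toAffine.Nonsingular x y),
    P = .some x y h ∧ IsIntMinus v b α x y ∧ v x = g

/-- The point `P` is affine with `v x ≤ v b` (this includes `T = (0, 0)`). -/
def PtNearT (P : (Wab a b).toAffine.Point) : Prop :=
  ∃ (x y : L) (h : (Wab a b).toAffine.Nonsingular x y), P = .some x y h ∧ v x ≤ v b

variable [DecidableEq L]

/-- Interface (M1c): plus + plus. -/
def CompPlusPlus : Prop :=
  ∀ (P Q : (Wab a b).toAffine.Point) (g₁ g₂ : Γ₀), PtIntPlus v a b α P g₁ → PtIntPlus v a b α Q g₂ →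
    (v b < g₁ * g₂ → PtIntPlus v a b α (P + Q) (g₁ * g₂)) ∧
    (g₁ * g₂ < v b → PtIntMinus v a b α (P + Q) (v b ^ 2 / (g₁ * g₂))) ∧
    (g₁ * g₂ = v b → PtNearT v a b (P + Q))

/-- Interface (M1d): minus + plus. -/
def CompMinusPlus : Prop :=
  ∀ (P Q : (Wab a b).toAffine.Point) (g₁ g₂ : Γ₀), PtIntMinus v a b α P g₁ → PtIntPlus v a b α Q g₂ →
    (g₂ < g₁ → PtIntPlus v a b α (P + Q) (g₂ / g₁)) ∧
    (g₁ < g₂ → PtIntMinus v a b α (P + Q) (g₁ / g₂)) ∧
    (g₁ = g₂ → PtIdent v a b (P + Q))

/-- Interface (M1e): identity type + plus. -/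
def CompIdentPlus : Prop :=
  ∀ (P Q : (Wab a b).toAffine.Point) (g : Γ₀), PtIdent v a b P → PtIntPlus v a b α Q g →
    PtIntPlus v a b α (P + Q) g

end

end Fermat.Agent.Lib.S05
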