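/-
S05, piece (M1d): component homomorphism, the case `P` intermediate with sign `-`,
`Q` intermediate with sign `+`, on the curve `Y^2 = X^3 + a X^2 + b X`.
Everything is stated on raw coordinates so that it can be used with any packaging of the
point types.
-/
import Mathlib
import Fermat.Agent.Lib.S05.CompDefs

namespace Fermat.Agent.Lib.S05

open WeierstrassCurve WeierstrassCurve.Affine

section Algebra

variable {L : Type*} [Field L]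

/-- Secant algebra on `Y^2 = X^3 + a X^2 + b X`: with `D = x₁ - x₂`, the third `x`-coordinate
`x₃ = ℓ^2 - a - x₁ - x₂` satisfies `x₁ x₂ x₃ D^2 = (y₂ x₁ - y₁ x₂)^2`. -/
theorem h4_secant_X {a b x₁ y₁ x₂ y₂ : L}
    (h₁ : y₁ ^ 2 = x₁ ^ 3 + a * x₁ ^ 2 + b * x₁) (h₂ : y₂ ^ 2 = x₂ ^ 3 + a * x₂ ^ 2 + b * x₂)
    (hx : x₁ ≠ x₂) :
    x₁ * x₂ * (((y₁ - y₂) / (x₁ - x₂)) ^ 2 - a - x₁ - x₂) * (x₁ - x₂) ^ 2
      = (y₂ * x₁ - y₁ * x₂) ^ 2 := by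
  have hD : x₁ - x₂ ≠ 0 := sub_ne_zero.mpr hx
  field_simp
  linear_combination (x₂ * (x₁ - x₂)) * h₁ - (x₁ * (x₁ - x₂)) * h₂

/-- The equation of `Y^2 = X^3 + a X^2 + b X` in Mathlib's form. -/
theorem h4_equation_iff (a b x y : L) :
    (⟨0, a, 0, b, 0⟩ : WeierstrassCurve L).toAffine.Equation x y ↔
      y ^ 2 = x ^ 3 + a * x ^ 2 + b * x := by
  rw [Affine.equation_iff]
  simp

end Algebra

section Valuation

variable {L : Type*} [Field L] {Γ₀ : Type*} [LinearOrderedCommGroupWithZero Γ₀]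
  (v : Valuation L Γ₀)

/-- `v α = 1` from `α^2 = a`, `v a = 1`. -/
theorem h4_val_alpha {a α : L} (hα : α ^ 2 = a) (ha : v a = 1) : v α = 1 := by
  have : v α ^ 2 = 1 := by rw [← map_pow, hα, ha]
  exact sq_eq_one.mp this

/-- The cross term `N = y₂ x₁ - y₁ x₂` has valuation `v x₁ * v x₂` when `P` has sign `-` and
`Q` has sign `+`. -/
theorem h4_val_cross {α x₁ y₁ x₂ y₂ : L} (h2 : v 2 = 1) (hα : v α = 1)
    (hm : v (y₁ + α * x₁) < v x₁) (hp : v (y₂ - α * x₂) < v x₂) :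
    v (y₂ * x₁ - y₁ * x₂) = v x₁ * v x₂ := by
  have e : y₂ * x₁ - y₁ * x₂
      = ((y₂ - α * x₂) * x₁ - (y₁ + α * x₁) * x₂) + 2 * α * x₁ * x₂ := by ring
  have hmain : v (2 * α * x₁ * x₂) = v x₁ * v x₂ := by
    rw [map_mul, map_mul, map_mul, h2, hα, one_mul, one_mul]
  have hx₁ : 0 < v x₁ := lt_of_le_of_lt zero_le hm
  have hx₂ : 0 < v x₂ := lt_of_le_of_lt zero_le hp
  have hsmall : v ((y₂ - α * x₂) * x₁ - (y₁ + α * x₁) * x₂) < v x₁ * v x₂ := by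
    apply Valuation.map_sub_lt
    · rw [map_mul, mul_comm]
      exact mul_lt_mul_of_pos_left hp hx₁
    · rw [map_mul]
      exact mul_lt_mul_of_pos_right hm hx₂
  rw [e, Valuation.map_add_eq_of_lt_right, hmain]
  rw [hmain]
  exact hsmall


/-- The `x`-coordinate of the sum of `(x₁, y₁)` and `(x₂, y₂)` (secant case) on
`Y^2 = X^3 + a X^2 + b X`. -/
noncomputable def h4X3 (a x₁ y₁ x₂ y₂ : L) : L :=
  ((y₁ - y₂) / (x₁ - x₂)) ^ 2 - a - x₁ - x₂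

/-- The `y`-coordinate of the sum of `(x₁, y₁)` and `(x₂, y₂)` (secant case) on
`Y^2 = X^3 + a X^2 + b X`. -/
noncomputable def h4Y3 (a x₁ y₁ x₂ y₂ : L) : L :=
  -(((y₁ - y₂) / (x₁ - x₂)) * (h4X3 a x₁ y₁ x₂ y₂ - x₁) + y₁)

theorem h4X3_symm (a x₁ y₁ x₂ y₂ : L) : h4X3 a x₂ y₂ x₁ y₁ = h4X3 a x₁ y₁ x₂ y₂ := by
  unfold h4X3
  rw [← neg_sub y₁ y₂, ← neg_sub x₁ x₂, neg_div_neg_eq]
  ring

theorem h4Y3_symm {a x₁ y₁ x₂ y₂ : L} (hx : x₁ ≠ x₂) :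
    h4Y3 a x₂ y₂ x₁ y₁ = h4Y3 a x₁ y₁ x₂ y₂ := by
  have hD : x₁ - x₂ ≠ 0 := sub_ne_zero.mpr hx
  unfold h4Y3
  rw [h4X3_symm, ← neg_sub y₁ y₂, ← neg_sub x₁ x₂, neg_div_neg_eq]
  field_simp
  ring

/-- (M1d), valuation of the third `x`-coordinate in general (secant case). -/
theorem h4_val_X3 {a b α x₁ y₁ x₂ y₂ : L} (h2 : v 2 = 1) (hα : v α = 1)
    (h₁ : y₁ ^ 2 = x₁ ^ 3 + a * x₁ ^ 2 + b * x₁) (h₂ : y₂ ^ 2 = x₂ ^ 3 + a * x₂ ^ 2 + b * x₂)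
    (hm : v (y₁ + α * x₁) < v x₁) (hp : v (y₂ - α * x₂) < v x₂) (hx : x₁ ≠ x₂) :
    v (h4X3 a x₁ y₁ x₂ y₂) * v (x₁ - x₂) ^ 2 = v x₁ * v x₂ := by
  have hx₁ : v x₁ ≠ 0 := (lt_of_le_of_lt zero_le hm).ne'
  have hx₂ : v x₂ ≠ 0 := (lt_of_le_of_lt zero_le hp).ne'
  have key := congrArg v (h4_secant_X h₁ h₂ hx)
  rw [map_pow, h4_val_cross v h2 hα hm hp, map_mul, map_mul, map_mul, map_pow] at key
  have h12 : v x₁ * v x₂ ≠ 0 := mul_ne_zero hx₁ hx₂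
  apply mul_left_cancel₀ h12
  rw [← mul_assoc, ← sq (v x₁ * v x₂), ← key]
  rfl

/-- (M1d), case `v x₂ < v x₁` (secant case automatically): the sum is intermediate with sign `+`
and `v x₃ = v x₂ / v x₁`. -/
theorem h4_minus_plus_lt {a b α x₁ y₁ x₂ y₂ : L} (h2 : v 2 = 1) (hα : v α = 1)
    (h₁ : y₁ ^ 2 = x₁ ^ 3 + a * x₁ ^ 2 + b * x₁) (h₂ : y₂ ^ 2 = x₂ ^ 3 + a * x₂ ^ 2 + b * x₂)
    (hm : v (y₁ + α * x₁) < v x₁) (hp : v (y₂ - α * x₂) < v x₂)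
    (hx1 : v x₁ < 1) (hlt : v x₂ < v x₁) :
    v (h4X3 a x₁ y₁ x₂ y₂) * v x₁ = v x₂ ∧
      v (h4Y3 a x₁ y₁ x₂ y₂ - α * h4X3 a x₁ y₁ x₂ y₂) < v (h4X3 a x₁ y₁ x₂ y₂) := by
  have hx : x₁ ≠ x₂ := fun h => by rw [h] at hlt; exact lt_irrefl _ hlt
  have hD : x₁ - x₂ ≠ 0 := sub_ne_zero.mpr hx
  have hx₁ : 0 < v x₁ := lt_of_le_of_lt zero_le hm
  have hx₂ : 0 < v x₂ := lt_of_le_of_lt zero_le hp
  have hvD : v (x₁ - x₂) = v x₁ := Valuation.map_sub_eq_of_lt_left v hlt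
  have h3 := h4_val_X3 v h2 hα h₁ h₂ hm hp hx
  rw [hvD] at h3
  have hX : v (h4X3 a x₁ y₁ x₂ y₂) * v x₁ = v x₂ := by
    apply mul_right_cancel₀ hx₁.ne'
    rw [mul_assoc, ← sq, h3, mul_comm]
  refine ⟨hX, ?_⟩
  have hx₃ : 0 < v (h4X3 a x₁ y₁ x₂ y₂) := by
    rcases (zero_le (a := v (h4X3 a x₁ y₁ x₂ y₂))).eq_or_lt with h | h
    · rw [← h, zero_mul] at hX; exact absurd hX.symm hx₂.ne'
    · exact h
  -- the slope is congruent to `-α`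
  have hslope : v ((y₁ - y₂) / (x₁ - x₂) + α) < 1 := by
    have e : (y₁ - y₂) / (x₁ - x₂) + α
        = ((y₁ + α * x₁) - (y₂ - α * x₂) - 2 * α * x₂) / (x₁ - x₂) := by
      field_simp
      ring
    rw [e, map_div₀, hvD, div_lt_one₀ hx₁]
    apply Valuation.map_sub_lt
    · exact Valuation.map_sub_lt v hm (hp.trans hlt)
    · rw [map_mul, map_mul, h2, hα, one_mul, one_mul]; exact hlt
  -- the intercept has valuation `v x₂`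
  have hnu : v (y₁ - (y₁ - y₂) / (x₁ - x₂) * x₁) = v x₂ := by
    have e : y₁ - (y₁ - y₂) / (x₁ - x₂) * x₁ = (y₂ * x₁ - y₁ * x₂) / (x₁ - x₂) := by
      field_simp
      ring
    rw [e, map_div₀, hvD, h4_val_cross v h2 hα hm hp, mul_comm, mul_div_assoc, div_self hx₁.ne',
      mul_one]
  have e3 : h4Y3 a x₁ y₁ x₂ y₂ - α * h4X3 a x₁ y₁ x₂ y₂
      = -((((y₁ - y₂) / (x₁ - x₂) + α) * h4X3 a x₁ y₁ x₂ y₂)
          + (y₁ - (y₁ - y₂) / (x₁ - x₂) * x₁)) := by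
    unfold h4Y3
    ring
  rw [e3, Valuation.map_neg]
  apply Valuation.map_add_lt
  · rw [map_mul]
    calc v ((y₁ - y₂) / (x₁ - x₂) + α) * v (h4X3 a x₁ y₁ x₂ y₂)
        < 1 * v (h4X3 a x₁ y₁ x₂ y₂) := mul_lt_mul_of_pos_right hslope hx₃
      _ = v (h4X3 a x₁ y₁ x₂ y₂) := one_mul _
  · rw [hnu, ← hX]
    calc v (h4X3 a x₁ y₁ x₂ y₂) * v x₁ < v (h4X3 a x₁ y₁ x₂ y₂) * 1 :=
          mul_lt_mul_of_pos_left hx1 hx₃
      _ = v (h4X3 a x₁ y₁ x₂ y₂) := mul_one _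


/-- (M1d), case `v x₁ < v x₂`: the sum is intermediate with sign `-` and `v x₃ = v x₁ / v x₂`. -/
theorem h4_minus_plus_gt {a b α x₁ y₁ x₂ y₂ : L} (h2 : v 2 = 1) (hα : v α = 1)
    (h₁ : y₁ ^ 2 = x₁ ^ 3 + a * x₁ ^ 2 + b * x₁) (h₂ : y₂ ^ 2 = x₂ ^ 3 + a * x₂ ^ 2 + b * x₂)
    (hm : v (y₁ + α * x₁) < v x₁) (hp : v (y₂ - α * x₂) < v x₂)
    (hx2 : v x₂ < 1) (hlt : v x₁ < v x₂) :
    v (h4X3 a x₁ y₁ x₂ y₂) * v x₂ = v x₁ ∧
      v (h4Y3 a x₁ y₁ x₂ y₂ + α * h4X3 a x₁ y₁ x₂ y₂) < v (h4X3 a x₁ y₁ x₂ y₂) := by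
  have hx : x₁ ≠ x₂ := fun h => by rw [h] at hlt; exact lt_irrefl _ hlt
  have hα' : v (-α) = 1 := by rw [Valuation.map_neg, hα]
  have hm' : v (y₂ + (-α) * x₂) < v x₂ := by
    have : y₂ + (-α) * x₂ = y₂ - α * x₂ := by ring
    rw [this]; exact hp
  have hp' : v (y₁ - (-α) * x₁) < v x₁ := by
    have : y₁ - (-α) * x₁ = y₁ + α * x₁ := by ring
    rw [this]; exact hm
  have := h4_minus_plus_lt v h2 hα' h₂ h₁ hm' hp' hx2 hlt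
  rw [h4X3_symm, h4Y3_symm hx] at this
  refine ⟨this.1, ?_⟩
  have e : h4Y3 a x₁ y₁ x₂ y₂ + α * h4X3 a x₁ y₁ x₂ y₂
      = h4Y3 a x₁ y₁ x₂ y₂ - -α * h4X3 a x₁ y₁ x₂ y₂ := by ring
  rw [e]; exact this.2

/-- (M1d), case `v x₁ = v x₂`, `x₁ ≠ x₂`: the sum has `1 ≤ v x₃`. -/
theorem h4_minus_plus_eq {a b α x₁ y₁ x₂ y₂ : L} (h2 : v 2 = 1) (hα : v α = 1)
    (h₁ : y₁ ^ 2 = x₁ ^ 3 + a * x₁ ^ 2 + b * x₁) (h₂ : y₂ ^ 2 = x₂ ^ 3 + a * x₂ ^ 2 + b * x₂)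
    (hm : v (y₁ + α * x₁) < v x₁) (hp : v (y₂ - α * x₂) < v x₂)
    (heq : v x₁ = v x₂) (hx : x₁ ≠ x₂) :
    1 ≤ v (h4X3 a x₁ y₁ x₂ y₂) := by
  have hD : x₁ - x₂ ≠ 0 := sub_ne_zero.mpr hx
  have hvD0 : 0 < v (x₁ - x₂) := by
    rcases (zero_le (a := v (x₁ - x₂))).eq_or_lt with h | h
    · exact absurd ((Valuation.zero_iff v).mp h.symm) hD
    · exact h
  have hvD : v (x₁ - x₂) ≤ v x₁ := Valuation.map_sub_le v le_rfl heq.ge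
  have h3 := h4_val_X3 v h2 hα h₁ h₂ hm hp hx
  rw [← heq, ← sq] at h3
  by_contra hlt
  rw [not_le] at hlt
  have hsq : v (x₁ - x₂) ^ 2 ≤ v x₁ ^ 2 := pow_le_pow_left₀ zero_le hvD 2
  have : v (h4X3 a x₁ y₁ x₂ y₂) * v (x₁ - x₂) ^ 2 < 1 * v (x₁ - x₂) ^ 2 :=
    mul_lt_mul_of_pos_right hlt (pow_pos hvD0 2)
  rw [h3, one_mul] at this
  exact absurd hsq (not_le.mpr this)

/-- (M1d), case `x₁ = x₂`: the two points are opposite. -/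
theorem h4_minus_plus_same {a b α x₁ y₁ x₂ y₂ : L} (h2 : v 2 = 1) (hα : v α = 1)
    (h₁ : y₁ ^ 2 = x₁ ^ 3 + a * x₁ ^ 2 + b * x₁) (h₂ : y₂ ^ 2 = x₂ ^ 3 + a * x₂ ^ 2 + b * x₂)
    (hm : v (y₁ + α * x₁) < v x₁) (hp : v (y₂ - α * x₂) < v x₂)
    (hx : x₁ = x₂) : y₁ = -y₂ := by
  subst hx
  have hsq : y₁ ^ 2 = y₂ ^ 2 := by rw [h₁, h₂]
  rcases sq_eq_sq_iff_eq_or_eq_neg.mp hsq with h | h
  · exfalso
    subst h
    have e : 2 * α * x₁ = (y₁ + α * x₁) - (y₁ - α * x₁) := by ring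
    have h1 : v (2 * α * x₁) = v x₁ := by rw [map_mul, map_mul, h2, hα, one_mul, one_mul]
    have h2' : v (2 * α * x₁) < v x₁ := by
      rw [e]; exact Valuation.map_sub_lt v hm hp
    rw [h1] at h2'
    exact lt_irrefl _ h2'
  · exact h


section Points

variable [DecidableEq L]

theorem h4_addX_eq {a b x₁ y₁ x₂ y₂ : L} (hx : x₁ ≠ x₂) :
    (Wab a b).toAffine.addX x₁ x₂ ((Wab a b).toAffine.slope x₁ x₂ y₁ y₂)
      = h4X3 a x₁ y₁ x₂ y₂ := by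
  rw [Affine.slope_of_X_ne hx]
  simp [Affine.addX, Wab, h4X3]

theorem h4_addY_eq {a b x₁ y₁ x₂ y₂ : L} (hx : x₁ ≠ x₂) :
    (Wab a b).toAffine.addY x₁ x₂ y₁ ((Wab a b).toAffine.slope x₁ x₂ y₁ y₂)
      = h4Y3 a x₁ y₁ x₂ y₂ := by
  rw [Affine.slope_of_X_ne hx]
  simp [Affine.addY, Affine.negAddY, Affine.negY, Affine.addX, Wab, h4Y3, h4X3]

omit [DecidableEq L] in
theorem h4_equation {a b x y : L} (h : (Wab a b).toAffine.Nonsingular x y) :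
    y ^ 2 = x ^ 3 + a * x ^ 2 + b * x :=
  (h4_equation_iff a b x y).mp h.1

/-- (M1d): minus + plus. -/
theorem h4_compMinusPlus {a b α : L} (hS : CompSetting v a b α) : CompMinusPlus v a b α := by
  have hα : v α = 1 := h4_val_alpha v hS.hα hS.va
  have h2 := hS.v2
  rintro P Q g₁ g₂ ⟨x₁, y₁, h₁, rfl, ⟨hb1, hx1, hm⟩, rfl⟩ ⟨x₂, y₂, h₂, rfl, ⟨hb2, hx2, hp⟩, rfl⟩
  have e₁ := h4_equation h₁
  have e₂ := h4_equation h₂
  have hx₁ : 0 < v x₁ := lt_of_le_of_lt zero_le hm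
  have hx₂ : 0 < v x₂ := lt_of_le_of_lt zero_le hp
  refine ⟨fun hlt => ?_, fun hlt => ?_, fun heq => ?_⟩
  · have hx : x₁ ≠ x₂ := fun h => by rw [h] at hlt; exact lt_irrefl _ hlt
    obtain ⟨hX, hY⟩ := h4_minus_plus_lt v h2 hα e₁ e₂ hm hp hx1 hlt
    refine ⟨_, _, _, Affine.Point.add_of_X_ne hx, ?_, ?_⟩
    · rw [h4_addX_eq hx, h4_addY_eq hx]
      have hx₃ : 0 < v (h4X3 a x₁ y₁ x₂ y₂) := by
        rcases (zero_le (a := v (h4X3 a x₁ y₁ x₂ y₂))).eq_or_lt with h | h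
        · rw [← h, zero_mul] at hX; exact absurd hX.symm hx₂.ne'
        · exact h
      refine ⟨?_, ?_, hY⟩
      · refine hb2.trans ?_
        rw [← hX]
        calc v (h4X3 a x₁ y₁ x₂ y₂) * v x₁ < v (h4X3 a x₁ y₁ x₂ y₂) * 1 :=
              mul_lt_mul_of_pos_left hx1 hx₃
          _ = v (h4X3 a x₁ y₁ x₂ y₂) := mul_one _
      · by_contra hge
        rw [not_lt] at hge
        have : v x₁ ≤ v (h4X3 a x₁ y₁ x₂ y₂) * v x₁ := by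
          calc v x₁ = 1 * v x₁ := (one_mul _).symm
            _ ≤ v (h4X3 a x₁ y₁ x₂ y₂) * v x₁ := mul_le_mul_of_nonneg_right hge zero_le
        rw [hX] at this
        exact absurd hlt (not_lt.mpr this)
    · rw [h4_addX_eq hx, eq_div_iff hx₁.ne']
      exact hX
  · have hx : x₁ ≠ x₂ := fun h => by rw [h] at hlt; exact lt_irrefl _ hlt
    obtain ⟨hX, hY⟩ := h4_minus_plus_gt v h2 hα e₁ e₂ hm hp hx2 hlt
    refine ⟨_, _, _, Affine.Point.add_of_X_ne hx, ?_, ?_⟩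
    · rw [h4_addX_eq hx, h4_addY_eq hx]
      have hx₃ : 0 < v (h4X3 a x₁ y₁ x₂ y₂) := by
        rcases (zero_le (a := v (h4X3 a x₁ y₁ x₂ y₂))).eq_or_lt with h | h
        · rw [← h, zero_mul] at hX; exact absurd hX.symm hx₁.ne'
        · exact h
      refine ⟨?_, ?_, hY⟩
      · refine hb1.trans ?_
        rw [← hX]
        calc v (h4X3 a x₁ y₁ x₂ y₂) * v x₂ < v (h4X3 a x₁ y₁ x₂ y₂) * 1 :=
              mul_lt_mul_of_pos_left hx2 hx₃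
          _ = v (h4X3 a x₁ y₁ x₂ y₂) := mul_one _
      · by_contra hge
        rw [not_lt] at hge
        have : v x₂ ≤ v (h4X3 a x₁ y₁ x₂ y₂) * v x₂ := by
          calc v x₂ = 1 * v x₂ := (one_mul _).symm
            _ ≤ v (h4X3 a x₁ y₁ x₂ y₂) * v x₂ := mul_le_mul_of_nonneg_right hge zero_le
        rw [hX] at this
        exact absurd hlt (not_lt.mpr this)
    · rw [h4_addX_eq hx, eq_div_iff hx₂.ne']
      exact hX
  · by_cases hx : x₁ = x₂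
    · left
      have hy := h4_minus_plus_same v h2 hα e₁ e₂ hm hp hx
      exact Affine.Point.add_of_Y_eq hx (by simpa [Affine.negY, Wab] using hy)
    · right
      refine ⟨_, _, _, Affine.Point.add_of_X_ne hx, ?_⟩
      rw [h4_addX_eq hx]
      exact h4_minus_plus_eq v h2 hα e₁ e₂ hm hp heq hx

end Points

end Valuation

end Fermat.Agent.Lib.S05
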