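/-
S05 project, piece (M1c) (helper6): on `Y² = X³ + a X² + b X` over a valued field with `v a = 1`,
`v b < 1`, `v 2 = 1`, `α² = a`: the sum of two "intermediate plus" points.

A point `(x, y)` is intermediate plus if `v b < v x < 1` and `v (y - α x) < v x`, intermediate
minus if `v b < v x < 1` and `v (y + α x) < v x`.
-/
import Mathlib
import Fermat.Agent.Lib.S05.CompDefs

set_option autoImplicit false

noncomputable section

namespace Fermat.Agent.Lib.S05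

open WeierstrassCurve WeierstrassCurve.Affine

variable {L : Type*} [Field L] {Γ₀ : Type*} [LinearOrderedCommGroupWithZero Γ₀]
  (v : Valuation L Γ₀)

variable {v}

lemma h6_val_alpha {a α : L} (va : v a = 1) (hα : α ^ 2 = a) : v α = 1 := by
  have h : v α ^ 2 = 1 := by rw [← map_pow, hα, va]
  by_contra hne
  rcases lt_or_gt_of_ne hne with h1 | h1
  · have : v α ^ 2 < 1 := pow_lt_one' h1 two_ne_zero
    rw [h] at this
    exact lt_irrefl _ this
  · have : 1 < v α ^ 2 := one_lt_pow' h1 two_ne_zero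
    rw [h] at this
    exact lt_irrefl _ this

/-- the field-level computation for the sum of two intermediate plus points:
`m₁ = y₁/x₁`, `m₂ = y₂/x₂`, `S = m₁ + m₂`, `N = b - x₁ x₂`, `ν = N / S`, `x₃ = ν² / (x₁ x₂)`,
`lam = m₁ + (x₂ - b / x₁) / S`, `y₃ = -(lam x₃ + ν)`. -/
theorem h6_plus_plus_core {a b α : L} (v2 : v 2 = 1) (va : v a = 1) (b0 : b ≠ 0)
    (hα : α ^ 2 = a) {x₁ y₁ x₂ y₂ x₃ y₃ ν lam : L}
    (hP : IsIntPlus v b α x₁ y₁) (hQ : IsIntPlus v b α x₂ y₂)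
    (hν : ν * (y₁ / x₁ + y₂ / x₂) = b - x₁ * x₂)
    (hx₃ : x₃ * (x₁ * x₂) = ν ^ 2)
    (hlam : (lam - y₁ / x₁) * (y₁ / x₁ + y₂ / x₂) = x₂ - b / x₁)
    (hy₃ : y₃ = -(lam * x₃ + ν)) :
    (v b < v (x₁ * x₂) → IsIntPlus v b α x₃ y₃ ∧ v x₃ = v x₁ * v x₂) ∧
    (v (x₁ * x₂) < v b → IsIntMinus v b α x₃ y₃ ∧ v x₃ * (v x₁ * v x₂) = v b ^ 2) ∧
    (v (x₁ * x₂) = v b → v x₃ ≤ v b) := by
  obtain ⟨hb1, h11, hm1⟩ := hP
  obtain ⟨hb2, h21, hm2⟩ := hQ
  have vb0 : 0 < v b := by rw [Valuation.pos_iff]; exact b0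
  have vx1 : 0 < v x₁ := lt_trans vb0 hb1
  have vx2 : 0 < v x₂ := lt_trans vb0 hb2
  have x10 : x₁ ≠ 0 := (Valuation.pos_iff v).mp vx1
  have x20 : x₂ ≠ 0 := (Valuation.pos_iff v).mp vx2
  have vα : v α = 1 := h6_val_alpha va hα
  -- the slopes `m₁`, `m₂` are congruent to `α`
  have hm1' : v (y₁ / x₁ - α) < 1 := by
    have : y₁ / x₁ - α = (y₁ - α * x₁) / x₁ := by field_simp
    rw [this, map_div₀, div_lt_one₀ vx1]
    exact hm1
  have hm2' : v (y₂ / x₂ - α) < 1 := by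
    have : y₂ / x₂ - α = (y₂ - α * x₂) / x₂ := by field_simp
    rw [this, map_div₀, div_lt_one₀ vx2]
    exact hm2
  have v2α : v (2 * α) = 1 := by rw [map_mul, v2, vα, one_mul]
  -- `S` is a unit
  have hS : v (y₁ / x₁ + y₂ / x₂) = 1 := by
    have : y₁ / x₁ + y₂ / x₂ = 2 * α + ((y₁ / x₁ - α) + (y₂ / x₂ - α)) := by ring
    rw [this, Valuation.map_add_eq_of_lt_left, v2α]
    rw [v2α]
    exact lt_of_le_of_lt (v.map_add _ _) (max_lt hm1' hm2')
  have hS0 : y₁ / x₁ + y₂ / x₂ ≠ 0 := by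
    intro h; rw [h, map_zero] at hS; exact zero_ne_one hS
  have hvν : v ν = v (b - x₁ * x₂) := by
    rw [← hν, map_mul, hS, mul_one]
  have hx12 : v (x₁ * x₂) = v x₁ * v x₂ := map_mul _ _ _
  have hx12pos : 0 < v (x₁ * x₂) := by rw [hx12]; exact mul_pos vx1 vx2
  have hvx₃ : v x₃ * v (x₁ * x₂) = v ν ^ 2 := by rw [← map_mul, hx₃, map_pow]
  -- `lam` is congruent to `α`
  have hlam' : v (lam - α) < 1 := by
    have e : lam - α = (y₁ / x₁ - α) + (x₂ - b / x₁) / (y₁ / x₁ + y₂ / x₂) := by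
      have : lam - y₁ / x₁ = (x₂ - b / x₁) / (y₁ / x₁ + y₂ / x₂) := by
        rw [eq_div_iff hS0]; exact hlam
      linear_combination this
    rw [e]
    refine lt_of_le_of_lt (v.map_add _ _) (max_lt hm1' ?_)
    rw [map_div₀, hS, div_one]
    refine lt_of_le_of_lt (v.map_sub _ _) (max_lt h21 ?_)
    rw [map_div₀, div_lt_one₀ vx1]
    exact hb1
  refine ⟨fun hlt => ?_, fun hlt => ?_, fun heq => ?_⟩
  · -- `v b < v (x₁ x₂)`
    have hN : v (b - x₁ * x₂) = v (x₁ * x₂) := by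
      rw [Valuation.map_sub_eq_of_lt_right _ hlt]
    have hν0 : ν ≠ 0 := by
      intro h
      rw [h, map_zero, hN] at hvν
      exact hx12pos.ne hvν
    have hvx₃' : v x₃ = v (x₁ * x₂) := by
      rw [hvν, hN, sq] at hvx₃
      exact mul_right_cancel₀ hx12pos.ne' hvx₃
    have hx₃0 : x₃ ≠ 0 := by
      intro h; rw [h, map_zero] at hvx₃'; exact hx12pos.ne hvx₃'
    refine ⟨⟨?_, ?_, ?_⟩, by rw [hvx₃', hx12]⟩
    · rw [hvx₃']; exact hlt
    · rw [hvx₃', hx12]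
      calc v x₁ * v x₂ < 1 * 1 := mul_lt_mul'' h11 h21 zero_le zero_le
        _ = 1 := one_mul 1
    · -- `y₃ - α x₃ = -x₃ ((lam - α) + (2 α + ν / x₃))`
      have hνx : ν / x₃ = x₁ * x₂ * (y₁ / x₁ + y₂ / x₂) / (b - x₁ * x₂) := by
        have hN0 : b - x₁ * x₂ ≠ 0 := by
          intro h; rw [h, map_zero] at hN; exact hx12pos.ne hN
        rw [div_eq_div_iff hx₃0 hN0, ← hν]
        have : x₃ * (x₁ * x₂) * (y₁ / x₁ + y₂ / x₂) = ν ^ 2 * (y₁ / x₁ + y₂ / x₂) := by rw [hx₃]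
        linear_combination -this
      have e : y₃ - α * x₃ = -x₃ * ((lam - α) + (2 * α + ν / x₃)) := by
        rw [hy₃]; field_simp; ring
      have hN0 : b - x₁ * x₂ ≠ 0 := by
        intro h; rw [h, map_zero] at hN; exact hx12pos.ne hN
      have e2 : 2 * α + ν / x₃ =
          2 * α * b / (b - x₁ * x₂) +
            x₁ * x₂ * ((y₁ / x₁ - α) + (y₂ / x₂ - α)) / (b - x₁ * x₂) := by
        rw [hνx]; field_simp; ring
      have h3 : v (2 * α + ν / x₃) < 1 := by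
        rw [e2]
        refine lt_of_le_of_lt (v.map_add _ _) (max_lt ?_ ?_)
        · rw [map_div₀, map_mul, v2α, one_mul, hN, div_lt_one₀ hx12pos]
          exact hlt
        · rw [map_div₀, map_mul, hN, mul_comm, mul_div_assoc, div_self hx12pos.ne', mul_one]
          exact lt_of_le_of_lt (v.map_add _ _) (max_lt hm1' hm2')
      rw [e, map_mul, Valuation.map_neg]
      have : v ((lam - α) + (2 * α + ν / x₃)) < 1 :=
        lt_of_le_of_lt (v.map_add _ _) (max_lt hlam' h3)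
      calc v x₃ * v ((lam - α) + (2 * α + ν / x₃)) < v x₃ * 1 := by
            apply mul_lt_mul_of_pos_left this
            rw [Valuation.pos_iff]; exact hx₃0
        _ = v x₃ := mul_one _
  · -- `v (x₁ x₂) < v b`
    have hN : v (b - x₁ * x₂) = v b := by
      rw [Valuation.map_sub_eq_of_lt_left _ hlt]
    have hN0 : b - x₁ * x₂ ≠ 0 := by
      intro h; rw [h, map_zero] at hN; exact vb0.ne hN
    have hν0 : ν ≠ 0 := by
      intro h
      rw [h, map_zero, hN] at hvν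
      exact vb0.ne hvν
    have hvx₃' : v x₃ * (v x₁ * v x₂) = v b ^ 2 := by
      rw [← hx12, hvx₃, hvν, hN]
    have hx₃pos : 0 < v x₃ := by
      rcases (zero_le (a := v x₃)).lt_or_eq with h | h
      · exact h
      · rw [← h, zero_mul] at hvx₃'
        exact absurd hvx₃'.symm (pow_ne_zero 2 vb0.ne')
    have hx₃0 : x₃ ≠ 0 := (Valuation.pos_iff v).mp hx₃pos
    refine ⟨⟨?_, ?_, ?_⟩, hvx₃'⟩
    · -- `v b < v x₃`
      by_contra hcon
      have hle : v x₃ ≤ v b := not_lt.mp hcon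
      have : v x₃ * (v x₁ * v x₂) < v b * v b := by
        calc v x₃ * (v x₁ * v x₂) ≤ v b * (v x₁ * v x₂) :=
              mul_le_mul_of_nonneg_right hle zero_le
          _ < v b * v b := by
              apply mul_lt_mul_of_pos_left _ vb0
              rw [← hx12]; exact hlt
      rw [hvx₃', sq] at this
      exact lt_irrefl _ this
    · -- `v x₃ < 1`
      by_contra hcon
      have hle : 1 ≤ v x₃ := not_lt.mp hcon
      have h1 : v b * v b < v x₁ * v x₂ := mul_lt_mul'' hb1 hb2 zero_le zero_le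
      have : v x₁ * v x₂ ≤ v x₃ * (v x₁ * v x₂) := by
        calc v x₁ * v x₂ = 1 * (v x₁ * v x₂) := (one_mul _).symm
          _ ≤ v x₃ * (v x₁ * v x₂) := mul_le_mul_of_nonneg_right hle zero_le
      rw [hvx₃', sq] at this
      exact lt_irrefl _ (lt_of_lt_of_le h1 this)
    · have hνx : ν / x₃ = x₁ * x₂ * (y₁ / x₁ + y₂ / x₂) / (b - x₁ * x₂) := by
        rw [div_eq_div_iff hx₃0 hN0, ← hν]
        have : x₃ * (x₁ * x₂) * (y₁ / x₁ + y₂ / x₂) = ν ^ 2 * (y₁ / x₁ + y₂ / x₂) := by rw [hx₃]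
        linear_combination -this
      have e : y₃ + α * x₃ = -x₃ * ((lam - α) + ν / x₃) := by
        rw [hy₃]; field_simp; ring
      have h3 : v (ν / x₃) < 1 := by
        rw [hνx, map_div₀, map_mul, hS, mul_one, hN, div_lt_one₀ vb0]
        exact hlt
      rw [e, map_mul, Valuation.map_neg]
      have : v ((lam - α) + ν / x₃) < 1 :=
        lt_of_le_of_lt (v.map_add _ _) (max_lt hlam' h3)
      calc v x₃ * v ((lam - α) + ν / x₃) < v x₃ * 1 := mul_lt_mul_of_pos_left this hx₃pos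
        _ = v x₃ := mul_one _
  · -- `v (x₁ x₂) = v b`
    have hN : v (b - x₁ * x₂) ≤ v b := by
      refine le_trans (v.map_sub _ _) ?_
      rw [heq, max_self]
    have h1 : v x₃ * v b = v ν ^ 2 := by rw [← heq]; exact hvx₃
    have h2 : v ν ^ 2 ≤ v b ^ 2 := by
      rw [hvν]; exact pow_le_pow_left₀ zero_le hN 2
    by_contra hcon
    have hlt : v b < v x₃ := not_le.mp hcon
    have : v b * v b < v x₃ * v b := mul_lt_mul_of_pos_right hlt vb0
    rw [h1, ← sq] at this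
    exact lt_irrefl _ (lt_of_lt_of_le this h2)

/-! ### chord and tangent identities on `Wab a b` -/

section Chord

variable [DecidableEq L] (a b : L)

omit [DecidableEq L] in
lemma h6_equation {x y : L} (h : (Wab a b).toAffine.Equation x y) :
    y ^ 2 = x ^ 3 + a * x ^ 2 + b * x := by
  rw [equation_iff] at h
  simp only [Wab] at h
  linear_combination h

omit [DecidableEq L] in
lemma h6_negY (x y : L) : (Wab a b).toAffine.negY x y = -y := by
  simp [negY, Wab]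

/-- the intercept `ν = y₁ - ℓ x₁` of the chord or tangent also satisfies `y₂ = ℓ x₂ + ν` -/
lemma h6_line_second {x₁ y₁ x₂ y₂ : L} (h₁ : (Wab a b).toAffine.Equation x₁ y₁)
    (h₂ : (Wab a b).toAffine.Equation x₂ y₂) (hxy : ¬(x₁ = x₂ ∧ y₁ = (Wab a b).toAffine.negY x₂ y₂)) :
    y₂ = (Wab a b).toAffine.slope x₁ x₂ y₁ y₂ * x₂ +
      (y₁ - (Wab a b).toAffine.slope x₁ x₂ y₁ y₂ * x₁) := by
  by_cases hx : x₁ = x₂
  · subst hx
    have hy : y₁ ≠ (Wab a b).toAffine.negY x₁ y₂ := fun h => hxy ⟨rfl, h⟩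
    have := Y_eq_of_Y_ne h₁ h₂ rfl hy
    subst this
    ring
  · rw [slope_of_X_ne hx]
    have : x₁ - x₂ ≠ 0 := sub_ne_zero.mpr hx
    field_simp
    ring

/-- `x₁ x₂ x₃ = ν²` -/
lemma h6_chord_x3 {x₁ y₁ x₂ y₂ : L} (h₁ : (Wab a b).toAffine.Equation x₁ y₁)
    (h₂ : (Wab a b).toAffine.Equation x₂ y₂) (hxy : ¬(x₁ = x₂ ∧ y₁ = (Wab a b).toAffine.negY x₂ y₂)) :
    (Wab a b).toAffine.addX x₁ x₂ ((Wab a b).toAffine.slope x₁ x₂ y₁ y₂) * (x₁ * x₂) =
      (y₁ - (Wab a b).toAffine.slope x₁ x₂ y₁ y₂ * x₁) ^ 2 := by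
  have e₁ := h6_equation a b h₁
  have e₂ := h6_equation a b h₂
  by_cases hx : x₁ = x₂
  · subst hx
    have hy : y₁ ≠ (Wab a b).toAffine.negY x₁ y₂ := fun h => hxy ⟨rfl, h⟩
    have := Y_eq_of_Y_ne h₁ h₂ rfl hy
    subst this
    rw [slope_of_Y_ne rfl hy]
    have hd : y₁ - (Wab a b).toAffine.negY x₁ y₁ ≠ 0 := sub_ne_zero.mpr hy
    rw [h6_negY] at hd ⊢
    have h2y : y₁ - -y₁ = 2 * y₁ := by ring
    rw [h2y] at hd ⊢
    have h20 : (2 : L) ≠ 0 := left_ne_zero_of_mul hd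
    have hy0 : y₁ ≠ 0 := right_ne_zero_of_mul hd
    simp only [addX, Wab]
    field_simp
    linear_combination (-4 * y₁ ^ 2) * e₁
  · have hl := h6_line_second a b h₁ h₂ hxy
    set ℓ := (Wab a b).toAffine.slope x₁ x₂ y₁ y₂ with hℓ
    have hd : x₁ - x₂ ≠ 0 := sub_ne_zero.mpr hx
    simp only [addX, Wab]
    have key : (x₁ - x₂) * ((ℓ ^ 2 + 0 * ℓ - a - x₁ - x₂) * (x₁ * x₂) - (y₁ - ℓ * x₁) ^ 2) = 0 := by
      have e₂' : (ℓ * x₂ + (y₁ - ℓ * x₁)) ^ 2 = x₂ ^ 3 + a * x₂ ^ 2 + b * x₂ := by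
        rw [← hl]; exact e₂
      linear_combination x₂ * e₁ - x₁ * e₂'
    rcases mul_eq_zero.mp key with h | h
    · exact absurd h hd
    · linear_combination h

/-- `ν (μ₁ + μ₂) = b - x₁ x₂` -/
lemma h6_chord_nu {x₁ y₁ x₂ y₂ : L} (h₁ : (Wab a b).toAffine.Equation x₁ y₁)
    (h₂ : (Wab a b).toAffine.Equation x₂ y₂) (hxy : ¬(x₁ = x₂ ∧ y₁ = (Wab a b).toAffine.negY x₂ y₂))
    (hx₁ : x₁ ≠ 0) (hx₂ : x₂ ≠ 0) :
    (y₁ - (Wab a b).toAffine.slope x₁ x₂ y₁ y₂ * x₁) * (y₁ / x₁ + y₂ / x₂) = b - x₁ * x₂ := by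
  have e₁ := h6_equation a b h₁
  have e₂ := h6_equation a b h₂
  by_cases hx : x₁ = x₂
  · subst hx
    have hy : y₁ ≠ (Wab a b).toAffine.negY x₁ y₂ := fun h => hxy ⟨rfl, h⟩
    have := Y_eq_of_Y_ne h₁ h₂ rfl hy
    subst this
    rw [slope_of_Y_ne rfl hy]
    have hd : y₁ - (Wab a b).toAffine.negY x₁ y₁ ≠ 0 := sub_ne_zero.mpr hy
    rw [h6_negY] at hd ⊢
    have h2y : y₁ - -y₁ = 2 * y₁ := by ring
    rw [h2y] at hd ⊢
    have h20 : (2 : L) ≠ 0 := left_ne_zero_of_mul hd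
    have hy0 : y₁ ≠ 0 := right_ne_zero_of_mul hd
    simp only [Wab]
    field_simp
    linear_combination (4 : L) * e₁
  · rw [slope_of_X_ne hx]
    have hd : x₁ - x₂ ≠ 0 := sub_ne_zero.mpr hx
    field_simp
    linear_combination (-x₂ ^ 2) * e₁ + x₁ ^ 2 * e₂

omit [DecidableEq L] in
lemma h6_addY_eq (x₁ x₂ y₁ ℓ : L) :
    (Wab a b).toAffine.addY x₁ x₂ y₁ ℓ =
      -(ℓ * (Wab a b).toAffine.addX x₁ x₂ ℓ + (y₁ - ℓ * x₁)) := by
  simp only [addY, negAddY, negY, addX, Wab]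
  ring

end Chord

/-! ### the point-level statement (M1c) -/

section Main

variable [DecidableEq L] {a b α : L}

omit [DecidableEq L] in
/-- two intermediate plus points are never opposite -/
lemma h6_not_opposite (hS : CompSetting v a b α) {x₁ y₁ x₂ y₂ : L}
    (hP : IsIntPlus v b α x₁ y₁) (hQ : IsIntPlus v b α x₂ y₂) :
    ¬(x₁ = x₂ ∧ y₁ = (Wab a b).toAffine.negY x₂ y₂) := by
  rintro ⟨hx, hy⟩
  subst hx
  rw [h6_negY] at hy
  obtain ⟨hb1, -, hm1⟩ := hP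
  obtain ⟨-, -, hm2⟩ := hQ
  have vα : v α = 1 := h6_val_alpha hS.va hS.hα
  have e : (y₁ - α * x₁) + (y₂ - α * x₁) = -(2 * α * x₁) := by rw [hy]; ring
  have h1 : v ((y₁ - α * x₁) + (y₂ - α * x₁)) < v x₁ :=
    lt_of_le_of_lt (v.map_add _ _) (max_lt hm1 hm2)
  rw [e, Valuation.map_neg, map_mul, map_mul, hS.v2, vα, one_mul, one_mul] at h1
  exact lt_irrefl _ h1

theorem h6_compPlusPlus (hS : CompSetting v a b α) : CompPlusPlus v a b α := by
  rintro P Q g₁ g₂ ⟨x₁, y₁, h₁, rfl, hP, rfl⟩ ⟨x₂, y₂, h₂, rfl, hQ, rfl⟩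
  have hxy := h6_not_opposite hS hP hQ
  have vb0 : 0 < v b := by rw [Valuation.pos_iff]; exact hS.b0
  have x10 : x₁ ≠ 0 := (Valuation.pos_iff v).mp (lt_trans vb0 hP.1)
  have x20 : x₂ ≠ 0 := (Valuation.pos_iff v).mp (lt_trans vb0 hQ.1)
  set ℓ := (Wab a b).toAffine.slope x₁ x₂ y₁ y₂ with hℓ
  have hsum : Point.some x₁ y₁ h₁ + Point.some x₂ y₂ h₂ =
      Point.some ((Wab a b).toAffine.addX x₁ x₂ ℓ) ((Wab a b).toAffine.addY x₁ x₂ y₁ ℓ)
        (nonsingular_add h₁ h₂ hxy) := Point.add_some hxy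
  have hν := h6_chord_nu a b h₁.1 h₂.1 hxy x10 x20
  have hx₃ := h6_chord_x3 a b h₁.1 h₂.1 hxy
  have hlam : (ℓ - y₁ / x₁) * (y₁ / x₁ + y₂ / x₂) = x₂ - b / x₁ := by
    have : ℓ - y₁ / x₁ = -(y₁ - ℓ * x₁) / x₁ := by field_simp; ring
    rw [this, neg_div, neg_mul, div_mul_eq_mul_div, hν]
    field_simp
    ring
  have core := h6_plus_plus_core hS.v2 hS.va hS.b0 hS.hα hP hQ hν hx₃ hlam
    (h6_addY_eq a b x₁ x₂ y₁ ℓ)
  rw [hsum, ← map_mul]
  refine ⟨fun hlt => ?_, fun hlt => ?_, fun heq => ?_⟩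
  · obtain ⟨h3, h4⟩ := core.1 hlt
    exact ⟨_, _, _, rfl, h3, by rw [h4, map_mul]⟩
  · obtain ⟨h3, h4⟩ := core.2.1 hlt
    refine ⟨_, _, _, rfl, h3, ?_⟩
    have hpos : 0 < v x₁ * v x₂ := by
      rw [← map_mul, Valuation.pos_iff]; exact mul_ne_zero x10 x20
    rw [map_mul, eq_div_iff hpos.ne']
    exact h4
  · exact ⟨_, _, _, rfl, core.2.2 heq⟩

end Main

end Fermat.Agent.Lib.S05
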