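/-
S05 project, piece (M1e) (helper5): identity type + plus-point = plus-point with the same `v x`.
Field-level chord identities on `Y² = X³ + a X² + b X`, the ultrametric estimate, and the point-level
statement `h5_compIdentPlus : CompSetting v a b α → CompIdentPlus v a b α`.
-/
import Fermat.Agent.Lib.S05.CompDefs

set_option autoImplicit false

namespace Fermat.Agent.Lib.S05

open WeierstrassCurve

section

variable {L : Type*} [Field L] {Γ₀ : Type*} [LinearOrderedCommGroupWithZero Γ₀]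

/-- chord identity: `x₁ x₂ x₃ = ν²`. -/
theorem h5u_chord_I1 (a b X₁ Y₁ X₂ Y₂ : L) (hne : X₁ ≠ X₂)
    (E₁ : Y₁ ^ 2 = X₁ ^ 3 + a * X₁ ^ 2 + b * X₁) (E₂ : Y₂ ^ 2 = X₂ ^ 3 + a * X₂ ^ 2 + b * X₂) :
    X₁ * X₂ * (((Y₁ - Y₂) / (X₁ - X₂)) ^ 2 - a - X₁ - X₂)
      = (Y₁ - (Y₁ - Y₂) / (X₁ - X₂) * X₁) ^ 2 := by
  have h : X₁ - X₂ ≠ 0 := sub_ne_zero.mpr hne
  field_simp
  linear_combination (X₂ * (X₁ - X₂)) * E₁ - (X₁ * (X₁ - X₂)) * E₂

/-- chord identity: `ν (y₁ x₂ + y₂ x₁) = x₁ x₂ (b - x₁ x₂)`. -/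
theorem h5u_chord_I2 (a b X₁ Y₁ X₂ Y₂ : L) (hne : X₁ ≠ X₂)
    (E₁ : Y₁ ^ 2 = X₁ ^ 3 + a * X₁ ^ 2 + b * X₁) (E₂ : Y₂ ^ 2 = X₂ ^ 3 + a * X₂ ^ 2 + b * X₂) :
    (Y₁ - (Y₁ - Y₂) / (X₁ - X₂) * X₁) * (Y₁ * X₂ + Y₂ * X₁) = X₁ * X₂ * (b - X₁ * X₂) := by
  have h : X₁ - X₂ ≠ 0 := sub_ne_zero.mpr hne
  field_simp
  linear_combination (- X₂ ^ 2) * E₁ + (X₁ ^ 2) * E₂

/-- The two consequences used for the estimate. -/
theorem h5u_chord_K (a b α x₁ y₁ x₂ y₂ ℓ x₃ y₃ : L) (hne : x₁ ≠ x₂) (hx₁ : x₁ ≠ 0) (hx₂ : x₂ ≠ 0)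
    (E₁ : y₁ ^ 2 = x₁ ^ 3 + a * x₁ ^ 2 + b * x₁) (E₂ : y₂ ^ 2 = x₂ ^ 3 + a * x₂ ^ 2 + b * x₂)
    (hℓ : ℓ = (y₁ - y₂) / (x₁ - x₂)) (hx₃ : x₃ = ℓ ^ 2 - a - x₁ - x₂)
    (hy₃ : y₃ = -(ℓ * (x₃ - x₁) + y₁)) :
    x₃ * (y₁ * x₂ + y₂ * x₁) ^ 2 = x₁ * x₂ * (b - x₁ * x₂) ^ 2 ∧
    (y₃ - α * x₃) * ((x₁ - x₂) * (b - x₁ * x₂)) =
      -x₃ * (y₁ * (b - x₂ ^ 2) + (y₂ - α * x₂) * x₁ ^ 2 - y₂ * b + α * x₁ * b - α * x₂ * b
        + α * x₁ * x₂ ^ 2) := by
  have hI1 := h5u_chord_I1 a b x₁ y₁ x₂ y₂ hne E₁ E₂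
  have hI2 := h5u_chord_I2 a b x₁ y₁ x₂ y₂ hne E₁ E₂
  rw [← hℓ] at hI1 hI2
  rw [← hx₃] at hI1
  have h12 : x₁ * x₂ ≠ 0 := mul_ne_zero hx₁ hx₂
  have hd : x₁ - x₂ ≠ 0 := sub_ne_zero.mpr hne
  have hℓ' : ℓ * (x₁ - x₂) = y₁ - y₂ := by rw [hℓ]; field_simp
  set ν := y₁ - ℓ * x₁ with hν
  set S := y₁ * x₂ + y₂ * x₁ with hS
  have hK : ν * (b - x₁ * x₂) = x₃ * S := by
    apply mul_left_cancel₀ h12
    linear_combination (-ν) * hI2 - S * hI1
  constructor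
  · apply mul_left_cancel₀ h12
    linear_combination (-(S ^ 2)) * (-hI1) + (ν * S + x₁ * x₂ * (b - x₁ * x₂)) * hI2
  · have hy : y₃ - α * x₃ = -((ℓ + α) * x₃ + ν) := by rw [hy₃, hν]; ring
    rw [hy]
    linear_combination (-(x₁ - x₂)) * hK - (x₃ * (b - x₁ * x₂)) * hℓ'

/-- The valuation estimate for (M1e), from the two chord consequences. -/
theorem h5u_estimate (v : Valuation L Γ₀) {a b α x₁ y₁ x₂ y₂ x₃ y₃ : L}
    (hS : CompSetting v a b α)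
    (E₁ : y₁ ^ 2 = x₁ ^ 3 + a * x₁ ^ 2 + b * x₁)
    (h1 : 1 ≤ v x₁) (hQ : IsIntPlus v b α x₂ y₂)
    (K1 : x₃ * (y₁ * x₂ + y₂ * x₁) ^ 2 = x₁ * x₂ * (b - x₁ * x₂) ^ 2)
    (K2 : (y₃ - α * x₃) * ((x₁ - x₂) * (b - x₁ * x₂)) =
      -x₃ * (y₁ * (b - x₂ ^ 2) + (y₂ - α * x₂) * x₁ ^ 2 - y₂ * b + α * x₁ * b - α * x₂ * b
        + α * x₁ * x₂ ^ 2)) :
    IsIntPlus v b α x₃ y₃ ∧ v x₃ = v x₂ := by
  obtain ⟨hbx₂, hx₂1, hδ⟩ := hQ
  have hv2 := hS.v2
  have hvb := hS.vb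
  -- v α = 1
  have hvα : v α = 1 := by
    have h : v α ^ 2 = 1 := by rw [← map_pow, hS.hα, hS.va]
    exact (pow_eq_one_iff.mp h).resolve_right two_ne_zero
  set X1 := v x₁ with hX1
  set X2 := v x₂ with hX2
  have hX1pos : 0 < X1 := lt_of_lt_of_le zero_lt_one h1
  have hX2pos : 0 < X2 := lt_of_le_of_lt zero_le hbx₂
  have hX1ne : X1 ≠ 0 := ne_of_gt hX1pos
  have hX2ne : X2 ≠ 0 := ne_of_gt hX2pos
  have hX1sq : X1 ≤ X1 * X1 := by
    calc X1 = 1 * X1 := (one_mul _).symm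
      _ ≤ X1 * X1 := mul_le_mul_of_nonneg_right h1 zero_le
  have h1X1sq : 1 ≤ X1 * X1 := le_trans h1 hX1sq
  have hX2X1X2 : X2 ≤ X1 * X2 := by
    calc X2 = 1 * X2 := (one_mul _).symm
      _ ≤ X1 * X2 := mul_le_mul_of_nonneg_right h1 zero_le
  -- v (x₁ - x₂) = X1
  have hx12 : v (x₁ - x₂) = X1 :=
    Valuation.map_sub_eq_of_lt_left v (lt_of_lt_of_le hx₂1 h1)
  -- v (b - x₁ x₂) = X1 X2
  have hbx : v (b - x₁ * x₂) = X1 * X2 := by
    rw [Valuation.map_sub_eq_of_lt_right, map_mul]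
    rw [map_mul]; exact lt_of_lt_of_le hbx₂ hX2X1X2
  -- Step 1: A, B
  set A := y₁ + α * x₁ with hA
  set B := y₁ - α * x₁ with hB
  have hABeq : A * B = x₁ * (x₁ ^ 2 + b) := by
    rw [hA, hB]; linear_combination E₁ - x₁ ^ 2 * hS.hα
  have hx1b : v (x₁ ^ 2 + b) = X1 * X1 := by
    rw [Valuation.map_add_eq_of_lt_left, map_pow, pow_two]
    rw [map_pow, pow_two]; exact lt_of_lt_of_le hvb h1X1sq
  have hAB : v A * v B = X1 * (X1 * X1) := by
    rw [← map_mul, hABeq, map_mul, hx1b]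
  have hAmB : v (A - B) = X1 := by
    have : A - B = 2 * α * x₁ := by rw [hA, hB]; ring
    rw [this, map_mul, map_mul, hv2, hvα, one_mul, one_mul]
  have hvAB : v A = v B := by
    rcases lt_trichotomy (v A) (v B) with h | h | h
    · exfalso
      have h3 : v (A - B) = v B := Valuation.map_sub_eq_of_lt_right v h
      rw [hAmB] at h3
      rw [← h3] at hAB h
      have h4 : v A = X1 * X1 := by
        apply mul_right_cancel₀ hX1ne
        rw [hAB]; ac_rfl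
      rw [h4] at h
      exact absurd hX1sq (not_le.mpr h)
    · exact h
    · exfalso
      have h3 : v (A - B) = v A := Valuation.map_sub_eq_of_lt_left v h
      rw [hAmB] at h3
      rw [← h3] at hAB h
      have h4 : v B = X1 * X1 := by
        apply mul_left_cancel₀ hX1ne
        rw [hAB]
      rw [h4] at h
      exact absurd hX1sq (not_le.mpr h)
  have hAA : v A * v A = X1 * (X1 * X1) := by
    have := hAB
    rw [← hvAB] at this
    exact this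
  have hA_ge : X1 ≤ v A := by
    by_contra hcon
    have hcon := not_le.mp hcon
    have h3 : v A * v A < X1 * X1 := mul_lt_mul'' hcon hcon zero_le zero_le
    rw [hAA] at h3
    have h4 : X1 * X1 ≤ X1 * (X1 * X1) := by
      calc X1 * X1 = 1 * (X1 * X1) := (one_mul _).symm
        _ ≤ X1 * (X1 * X1) := mul_le_mul_of_nonneg_right h1 zero_le
    exact absurd h4 (not_le.mpr h3)
  have hA_le : v A ≤ X1 * X1 := by
    by_contra hcon
    have hcon := not_le.mp hcon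
    have h3 : (X1 * X1) * (X1 * X1) < v A * v A := mul_lt_mul'' hcon hcon zero_le zero_le
    rw [hAA] at h3
    have h4 : X1 * (X1 * X1) ≤ (X1 * X1) * (X1 * X1) :=
      mul_le_mul_of_nonneg_right hX1sq zero_le
    exact absurd h4 (not_le.mpr h3)
  have hy₁ : v y₁ ≤ X1 * X1 := by
    have h2y : 2 * y₁ = A + B := by rw [hA, hB]; ring
    have h3 : v (2 * y₁) ≤ v A :=
      h2y ▸ Valuation.map_add_le v le_rfl (le_of_eq hvAB.symm)
    rw [map_mul, hv2, one_mul] at h3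
    exact le_trans h3 hA_le
  -- Step 2: S
  have hSval : v (y₁ * x₂ + y₂ * x₁) = X2 * v A := by
    have e : y₁ * x₂ + y₂ * x₁ = x₂ * A + (y₂ - α * x₂) * x₁ := by rw [hA]; ring
    rw [e, Valuation.map_add_eq_of_lt_left, map_mul]
    rw [map_mul, map_mul]
    calc v (y₂ - α * x₂) * X1 < X2 * X1 := mul_lt_mul_of_pos_right hδ hX1pos
      _ ≤ X2 * v A := mul_le_mul_of_nonneg_left hA_ge zero_le
  -- Step 4: v x₃ = X2
  have hvx₃ : v x₃ = X2 := by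
    have := congrArg v K1
    rw [map_mul, map_pow, hSval, map_mul, map_mul, map_pow, hbx, pow_two, pow_two] at this
    have e1 : X2 * v A * (X2 * v A) = X2 * X2 * (v A * v A) := by ac_rfl
    rw [e1, hAA] at this
    have e2 : X1 * X2 * (X1 * X2 * (X1 * X2)) = X2 * (X2 * X2 * (X1 * (X1 * X1))) := by ac_rfl
    rw [e2] at this
    have hne : X2 * X2 * (X1 * (X1 * X1)) ≠ 0 :=
      mul_ne_zero (mul_ne_zero hX2ne hX2ne) (mul_ne_zero hX1ne (mul_ne_zero hX1ne hX1ne))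
    exact mul_right_cancel₀ hne this
  -- Step 5: the sign
  have hy₂ : v y₂ ≤ X2 := by
    have e : y₂ = (y₂ - α * x₂) + α * x₂ := by ring
    rw [e]
    refine Valuation.map_add_le v (le_of_lt hδ) ?_
    rw [map_mul, hvα, one_mul]
  have hbx2 : v (b - x₂ ^ 2) < X2 := by
    refine Valuation.map_sub_lt v hbx₂ ?_
    rw [map_pow, pow_two]
    calc X2 * X2 < 1 * X2 := mul_lt_mul_of_pos_right hx₂1 hX2pos
      _ = X2 := one_mul _
  set D := X1 * (X1 * X2) with hD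
  have hDpos : 0 < D := mul_pos hX1pos (mul_pos hX1pos hX2pos)
  have hX2D : X2 ≤ D := by
    calc X2 ≤ X1 * X2 := hX2X1X2
      _ = 1 * (X1 * X2) := (one_mul _).symm
      _ ≤ X1 * (X1 * X2) := mul_le_mul_of_nonneg_right h1 zero_le
  have hX1X2D : X1 * X2 ≤ D := by
    calc X1 * X2 = 1 * (X1 * X2) := (one_mul _).symm
      _ ≤ X1 * (X1 * X2) := mul_le_mul_of_nonneg_right h1 zero_le
  have hN : v (y₁ * (b - x₂ ^ 2) + (y₂ - α * x₂) * x₁ ^ 2 - y₂ * b + α * x₁ * b - α * x₂ * b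
        + α * x₁ * x₂ ^ 2) < D := by
    have t1 : v (y₁ * (b - x₂ ^ 2)) < D := by
      rw [map_mul]
      calc v y₁ * v (b - x₂ ^ 2) ≤ X1 * X1 * v (b - x₂ ^ 2) :=
            mul_le_mul_of_nonneg_right hy₁ zero_le
        _ < X1 * X1 * X2 := mul_lt_mul_of_pos_left hbx2 (mul_pos hX1pos hX1pos)
        _ = D := by rw [hD, mul_assoc]
    have t2 : v ((y₂ - α * x₂) * x₁ ^ 2) < D := by
      rw [map_mul, map_pow, pow_two]
      calc v (y₂ - α * x₂) * (X1 * X1) < X2 * (X1 * X1) :=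
            mul_lt_mul_of_pos_right hδ (mul_pos hX1pos hX1pos)
        _ = D := by rw [hD]; ac_rfl
    have t3 : v (y₂ * b) < D := by
      rw [map_mul]
      calc v y₂ * v b ≤ X2 * v b := mul_le_mul_of_nonneg_right hy₂ zero_le
        _ < X2 * 1 := mul_lt_mul_of_pos_left hvb hX2pos
        _ = X2 := mul_one _
        _ ≤ D := hX2D
    have t4 : v (α * x₁ * b) < D := by
      rw [map_mul, map_mul, hvα, one_mul]
      calc X1 * v b < X1 * X2 := mul_lt_mul_of_pos_left hbx₂ hX1pos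
        _ ≤ D := hX1X2D
    have t5 : v (α * x₂ * b) < D := by
      rw [map_mul, map_mul, hvα, one_mul]
      calc X2 * v b < X2 * 1 := mul_lt_mul_of_pos_left hvb hX2pos
        _ = X2 := mul_one _
        _ ≤ D := hX2D
    have t6 : v (α * x₁ * x₂ ^ 2) < D := by
      rw [map_mul, map_mul, hvα, one_mul, map_pow, pow_two]
      calc X1 * (X2 * X2) < X1 * (1 * X2) :=
            mul_lt_mul_of_pos_left (mul_lt_mul_of_pos_right hx₂1 hX2pos) hX1pos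
        _ = X1 * X2 := by rw [one_mul]
        _ ≤ D := hX1X2D
    exact Valuation.map_add_lt v (Valuation.map_sub_lt v (Valuation.map_add_lt v
      (Valuation.map_sub_lt v (Valuation.map_add_lt v t1 t2) t3) t4) t5) t6
  have hsign : v (y₃ - α * x₃) < X2 := by
    have := congrArg v K2
    rw [map_mul, map_mul, hx12, hbx, map_mul, Valuation.map_neg, hvx₃, ← hD] at this
    by_contra hcon
    have hcon := not_lt.mp hcon
    have h3 : X2 * D ≤ v (y₃ - α * x₃) * D := mul_le_mul_of_nonneg_right hcon zero_le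
    rw [this] at h3
    have h4 := mul_lt_mul_of_pos_left hN hX2pos
    exact absurd h3 (not_le.mpr h4)
  refine ⟨⟨?_, ?_, ?_⟩, hvx₃⟩
  · rw [hvx₃]; exact hbx₂
  · rw [hvx₃]; exact hx₂1
  · rw [hvx₃]; exact hsign

/-- The equation of `Wab a b` in plain form. -/
theorem h5u_equation (a b x y : L) :
    (Wab a b).toAffine.Equation x y ↔ y ^ 2 = x ^ 3 + a * x ^ 2 + b * x := by
  rw [Affine.equation_iff]
  simp [Wab]

variable [DecidableEq L]

/-- **(M1e)**: identity type + plus = plus with the same `v x`. -/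
theorem h5_compIdentPlus (v : Valuation L Γ₀) {a b α : L} (hS : CompSetting v a b α) :
    CompIdentPlus v a b α := by
  intro P Q g hP hQ
  obtain ⟨x₂, y₂, h₂, rfl, hQ2, hg⟩ := hQ
  rcases hP with rfl | ⟨x₁, y₁, h₁, rfl, hx₁⟩
  · rw [zero_add]; exact ⟨x₂, y₂, h₂, rfl, hQ2, hg⟩
  · have hlt : v x₂ < v x₁ := lt_of_lt_of_le hQ2.2.1 hx₁
    have hne : x₁ ≠ x₂ := fun h => by rw [h] at hlt; exact lt_irrefl _ hlt
    have hx₁0 : x₁ ≠ 0 := by
      intro h; rw [h, map_zero] at hx₁; exact absurd hx₁ (not_le.mpr zero_lt_one)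
    have hx₂0 : x₂ ≠ 0 := by
      intro h
      have := hQ2.1
      rw [h, map_zero] at this
      exact absurd this (not_lt.mpr zero_le)
    have E₁ := (h5u_equation a b x₁ y₁).mp h₁.1
    have E₂ := (h5u_equation a b x₂ y₂).mp h₂.1
    rw [Affine.Point.add_of_X_ne hne]
    refine ⟨_, _, _, rfl, ?_⟩
    have hK := h5u_chord_K a b α x₁ y₁ x₂ y₂ ((y₁ - y₂) / (x₁ - x₂))
      ((Wab a b).toAffine.addX x₁ x₂ ((Wab a b).toAffine.slope x₁ x₂ y₁ y₂))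
      ((Wab a b).toAffine.addY x₁ x₂ y₁ ((Wab a b).toAffine.slope x₁ x₂ y₁ y₂))
      hne hx₁0 hx₂0 E₁ E₂ rfl
      (by rw [Affine.slope_of_X_ne hne]; simp [Affine.addX, Wab])
      (by rw [Affine.slope_of_X_ne hne]; simp [Affine.addY, Affine.negAddY, Affine.negY, Wab])
    obtain ⟨hI, hv⟩ := h5u_estimate v hS E₁ hx₁ hQ2 hK.1 hK.2
    exact ⟨hI, hv.trans hg⟩

end

end Fermat.Agent.Lib.S05
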