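/-
S05 project, piece (M1): the component map is multiplicative along the multiples of an
intermediate point, hence `(v x)ⁿ ∈ ⟨(v b)²⟩` for an intermediate `n`-torsion point (helper2).

Inputs: the three case lemmas `CompPlusPlus`, `CompMinusPlus`, `CompIdentPlus` (interfaces of
`CompDefs.lean`).  Proven here: exhaustivity of the four types, negation, translation by
`T = (0, 0)`, and the walk `j ↦ j • P`.
-/
import Mathlib
import Fermat.Agent.Lib.S05.CompDefs
import Fermat.Agent.Lib.S05.CompChord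

set_option autoImplicit false

namespace Fermat.Agent.Lib.S05

open WeierstrassCurve WeierstrassCurve.Affine

variable {L : Type*} [Field L] {Γ₀ : Type*} [LinearOrderedCommGroupWithZero Γ₀]
  {v : Valuation L Γ₀} {a b α : L}

/-- `v α = 1`. -/
theorem h2w_v_alpha (hS : CompSetting v a b α) : v α = 1 := by
  have h : v α ^ 2 = 1 := by rw [← map_pow, hS.hα, hS.va]
  exact (pow_eq_one_iff_of_nonneg zero_le two_ne_zero).mp h

/-- An intermediate affine point lies on exactly one of the two branches (existence part). -/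
theorem h2w_int_cases (hS : CompSetting v a b α) {x y : L}
    (h : y ^ 2 = x ^ 3 + a * x ^ 2 + b * x) (hb : v b < v x) (h1 : v x < 1) :
    IsIntPlus v b α x y ∨ IsIntMinus v b α x y := by
  have hx0 : v x ≠ 0 := fun h0 => by rw [h0] at hb; exact not_lt_zero hb
  have hprod : (y - α * x) * (y + α * x) = x * (x ^ 2 + b) := by
    have := hS.hα
    linear_combination h - x ^ 2 * this
  have hlt : v (x ^ 2 + b) < v x := by
    apply Valuation.map_add_lt _ _ hb
    rw [map_pow, pow_two]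
    calc v x * v x < 1 * v x := mul_lt_mul_of_pos_right h1 (zero_lt_iff.mpr hx0)
      _ = v x := one_mul _
  have hv : v (y - α * x) * v (y + α * x) < v x * v x := by
    rw [← map_mul, hprod, map_mul]
    exact mul_lt_mul_of_pos_left hlt (zero_lt_iff.mpr hx0)
  by_contra hcon
  simp only [IsIntPlus, IsIntMinus, not_or, not_and, not_lt] at hcon
  have h1' := hcon.1 hb h1
  have h2' := hcon.2 hb h1
  exact absurd hv (not_lt.mpr (mul_le_mul' h1' h2'))

/-- Every point is of one of the four types. -/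
theorem h2w_exhaustive (hS : CompSetting v a b α) (P : (Wab a b).toAffine.Point) :
    PtIdent v a b P ∨ PtNearT v a b P ∨ (∃ g, PtIntPlus v a b α P g) ∨
      ∃ g, PtIntMinus v a b α P g := by
  rcases P with _ | ⟨x, y, h⟩
  · exact Or.inl (Or.inl rfl)
  · by_cases h1 : 1 ≤ v x
    · exact Or.inl (Or.inr ⟨x, y, h, rfl, h1⟩)
    · by_cases hb : v x ≤ v b
      · exact Or.inr (Or.inl ⟨x, y, h, rfl, hb⟩)
      · rcases h2w_int_cases hS ((h2c_equation_iff a b x y).mp h.1) (not_le.mp hb) (not_le.mp h1)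
          with hp | hm
        · exact Or.inr (Or.inr (Or.inl ⟨v x, x, y, h, rfl, hp, rfl⟩))
        · exact Or.inr (Or.inr (Or.inr ⟨v x, x, y, h, rfl, hm, rfl⟩))

/-- Negation exchanges the two branches. -/
theorem h2w_neg_intMinus {P : (Wab a b).toAffine.Point} {g : Γ₀}
    (hP : PtIntMinus v a b α P g) : PtIntPlus v a b α (-P) g := by
  obtain ⟨x, y, h, rfl, ⟨h1, h2, h3⟩, hg⟩ := hP
  refine ⟨x, -y, ?_, ?_, ⟨h1, h2, ?_⟩, hg⟩
  · have := (Affine.nonsingular_neg (W' := (Wab a b).toAffine) x y).mpr h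
    rwa [h2c_negY] at this
  · rw [Affine.Point.neg_some]
    congr 1
    exact h2c_negY a b x y
  · have : -y - α * x = -(y + α * x) := by ring
    rw [this, Valuation.map_neg]; exact h3

variable [DecidableEq L]

/-- The `2`-torsion point `T = (0, 0)`. -/
noncomputable def ptT (a b : L) (hb : b ≠ 0) : (Wab a b).toAffine.Point :=
  Affine.Point.some 0 0 (h2c_nonsingular_T a b hb)

theorem h2w_T_add_T (hb : b ≠ 0) : ptT a b hb + ptT a b hb = 0 :=
  h2c_add_eq_zero _ _ rfl (by simp)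

theorem h2w_add_T_add_T (hb : b ≠ 0) (P : (Wab a b).toAffine.Point) :
    P + ptT a b hb + ptT a b hb = P := by
  rw [add_assoc, h2w_T_add_T, add_zero]

/-- A point near `T` becomes of identity type after translation by `T`. -/
theorem h2w_nearT_add_T (hS : CompSetting v a b α) {P : (Wab a b).toAffine.Point}
    (hP : PtNearT v a b P) : PtIdent v a b (P + ptT a b hS.b0) := by
  obtain ⟨x, y, h, rfl, hx⟩ := hP
  by_cases hx0 : x = 0
  · left
    have hy0 : y = 0 := by
      have := (h2c_equation_iff a b x y).mp h.1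
      rw [hx0] at this
      simpa using this
    subst hx0; subst hy0
    exact h2w_T_add_T hS.b0
  · right
    obtain ⟨x₃, y₃, h₃, hadd, hx₃, -⟩ := h2c_add_T hS.b0 h hx0
    refine ⟨x₃, y₃, h₃, hadd, ?_⟩
    have hvx : v x ≠ 0 := (Valuation.ne_zero_iff v).mpr hx0
    rw [hx₃, map_div₀, le_div_iff₀ (zero_lt_iff.mpr hvx), one_mul]
    exact hx

/-- Translation by `T` maps the plus branch to the minus branch, `v x ↦ v b / v x`. -/
theorem h2w_intPlus_add_T (hS : CompSetting v a b α) {P : (Wab a b).toAffine.Point} {g : Γ₀}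
    (hP : PtIntPlus v a b α P g) : PtIntMinus v a b α (P + ptT a b hS.b0) (v b / g) := by
  obtain ⟨x, y, h, rfl, ⟨h1, h2, h3⟩, hg⟩ := hP
  have hvx : v x ≠ 0 := fun h0 => by rw [h0] at h1; exact not_lt_zero h1
  have hx0 : x ≠ 0 := (Valuation.ne_zero_iff v).mp hvx
  have hvb : v b ≠ 0 := (Valuation.ne_zero_iff v).mpr hS.b0
  obtain ⟨x₃, y₃, h₃, hadd, hx₃, hy₃⟩ := h2c_add_T hS.b0 h hx0
  have hvx₃ : v x₃ = v b / v x := by rw [hx₃, map_div₀]
  refine ⟨x₃, y₃, h₃, hadd, ⟨?_, ?_, ?_⟩, by rw [hvx₃, hg]⟩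
  · rw [hvx₃, lt_div_iff₀ (zero_lt_iff.mpr hvx)]
    calc v b * v x < v b * 1 := mul_lt_mul_of_pos_left h2 (zero_lt_iff.mpr hvb)
      _ = v b := mul_one _
  · rw [hvx₃, div_lt_one₀ (zero_lt_iff.mpr hvx)]; exact h1
  · have e : y₃ + α * x₃ = -(b / x ^ 2) * (y - α * x) := by
      rw [hy₃, hx₃]; field_simp; ring
    rw [e, map_mul, Valuation.map_neg, map_div₀, map_pow, hvx₃]
    have : v b / v x ^ 2 * v (y - α * x) < v b / v x ^ 2 * v x :=
      mul_lt_mul_of_pos_left h3 (div_pos (zero_lt_iff.mpr hvb) (pow_pos (zero_lt_iff.mpr hvx) 2))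
    calc v b / v x ^ 2 * v (y - α * x) < v b / v x ^ 2 * v x := this
      _ = v b / v x := by field_simp

/-- `g` represents the value of the component map at `P` (modulo powers of `(v b)²`). -/
def CompRel (v : Valuation L Γ₀) (a b α : L) (P : (Wab a b).toAffine.Point) (g : Γ₀) : Prop :=
  (PtIdent v a b P ∧ g = 1) ∨ (PtNearT v a b P ∧ g = v b) ∨ PtIntPlus v a b α P g ∨
    ∃ g', PtIntMinus v a b α P g' ∧ g = g'⁻¹

omit [DecidableEq L] in
theorem h2w_compRel_zero {g : Γ₀} (h : CompRel v a b α 0 g) : g = 1 := by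
  rcases h with ⟨-, hg⟩ | ⟨⟨x, y, h, h0, -⟩, -⟩ | ⟨x, y, h, h0, -⟩ | ⟨g', ⟨x, y, h, h0, -⟩, -⟩
  · exact hg
  · exact absurd h0.symm (Affine.Point.some_ne_zero h)
  · exact absurd h0.symm (Affine.Point.some_ne_zero h)
  · exact absurd h0.symm (Affine.Point.some_ne_zero h)

/-- The multiplicativity step: adding a plus-point multiplies the component value. -/
theorem h2w_compRel_add (hS : CompSetting v a b α) (hPP : CompPlusPlus v a b α)
    (hMP : CompMinusPlus v a b α) (hIP : CompIdentPlus v a b α)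
    {P Q : (Wab a b).toAffine.Point} {g h : Γ₀} (hP : CompRel v a b α P g)
    (hQ : PtIntPlus v a b α Q h) :
    ∃ k : ℤ, CompRel v a b α (P + Q) (g * h * (v b ^ 2) ^ k) := by
  have hvb : v b ≠ 0 := (Valuation.ne_zero_iff v).mpr hS.b0
  have hh0 : h ≠ 0 := by
    obtain ⟨x, y, _, -, ⟨h1, -, -⟩, hg⟩ := hQ
    rw [← hg]; intro h0; rw [h0] at h1; exact not_lt_zero h1
  rcases hP with ⟨hI, rfl⟩ | ⟨hN, rfl⟩ | hPl | ⟨g', hMi, rfl⟩
  · -- identity type
    refine ⟨0, Or.inr (Or.inr (Or.inl ?_))⟩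
    have := hIP P Q h hI hQ
    simpa using this
  · -- near `T`
    have hI := h2w_nearT_add_T hS hN
    have h1 := hIP _ Q h hI hQ
    have h2 := h2w_intPlus_add_T hS h1
    have e : P + ptT a b hS.b0 + Q + ptT a b hS.b0 = P + Q := by
      rw [add_right_comm P _ Q, h2w_add_T_add_T]
    rw [e] at h2
    refine ⟨-1, Or.inr (Or.inr (Or.inr ⟨_, h2, ?_⟩))⟩
    rw [zpow_neg, zpow_one]
    field_simp
  · -- plus branch
    have hg0 : g ≠ 0 := by
      obtain ⟨x, y, _, -, ⟨h1, -, -⟩, hg⟩ := hPl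
      rw [← hg]; intro h0; rw [h0] at h1; exact not_lt_zero h1
    obtain ⟨c1, c2, c3⟩ := hPP P Q g h hPl hQ
    rcases lt_trichotomy (g * h) (v b) with hlt | heq | hgt
    · refine ⟨-1, Or.inr (Or.inr (Or.inr ⟨_, c2 hlt, ?_⟩))⟩
      rw [zpow_neg, zpow_one]
      field_simp
    · refine ⟨0, Or.inr (Or.inl ⟨c3 heq, ?_⟩)⟩
      simp [heq]
    · refine ⟨0, Or.inr (Or.inr (Or.inl ?_))⟩
      simpa using c1 hgt
  · -- minus branch
    have hg0 : g' ≠ 0 := by
      obtain ⟨x, y, _, -, ⟨h1, -, -⟩, hg⟩ := hMi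
      rw [← hg]; intro h0; rw [h0] at h1; exact not_lt_zero h1
    obtain ⟨c1, c2, c3⟩ := hMP P Q g' h hMi hQ
    rcases lt_trichotomy g' h with hlt | heq | hgt
    · refine ⟨0, Or.inr (Or.inr (Or.inr ⟨_, c2 hlt, ?_⟩))⟩
      rw [zpow_zero, mul_one, inv_div, div_eq_mul_inv, mul_comm]
    · refine ⟨0, Or.inl ⟨c3 heq, ?_⟩⟩
      rw [zpow_zero, mul_one, heq, inv_mul_cancel₀ hh0]
    · refine ⟨0, Or.inr (Or.inr (Or.inl ?_))⟩
      have := c1 hgt
      rwa [zpow_zero, mul_one, mul_comm, ← div_eq_mul_inv]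

/-- The walk: `j • P` has component value `g ^ j` for a plus-point `P` with `v x = g`. -/
theorem h2w_compRel_nsmul (hS : CompSetting v a b α) (hPP : CompPlusPlus v a b α)
    (hMP : CompMinusPlus v a b α) (hIP : CompIdentPlus v a b α)
    {P : (Wab a b).toAffine.Point} {g : Γ₀} (hP : PtIntPlus v a b α P g) (j : ℕ) :
    ∃ k : ℤ, CompRel v a b α (j • P) (g ^ j * (v b ^ 2) ^ k) := by
  have hvb : v b ^ 2 ≠ 0 := pow_ne_zero 2 ((Valuation.ne_zero_iff v).mpr hS.b0)
  induction j with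
  | zero =>
    refine ⟨0, Or.inl ⟨Or.inl (zero_nsmul P), ?_⟩⟩
    simp
  | succ j ih =>
    obtain ⟨k, hk⟩ := ih
    obtain ⟨k', hk'⟩ := h2w_compRel_add hS hPP hMP hIP hk hP
    refine ⟨k + k', ?_⟩
    rw [succ_nsmul]
    have e : g ^ (j + 1) * (v b ^ 2) ^ (k + k') = g ^ j * (v b ^ 2) ^ k * g * (v b ^ 2) ^ k' := by
      rw [zpow_add₀ hvb, pow_succ]; ac_rfl
    rw [e]; exact hk'

/-- **(M1)**: for an intermediate point `P = (x, y)` with `n • P = 0`, `(v x) ^ n` is a power of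
`(v b) ^ 2`. -/
theorem h2w_component_torsion (hS : CompSetting v a b α) (hPP : CompPlusPlus v a b α)
    (hMP : CompMinusPlus v a b α) (hIP : CompIdentPlus v a b α)
    {P : (Wab a b).toAffine.Point} {g : Γ₀}
    (hP : PtIntPlus v a b α P g ∨ PtIntMinus v a b α P g) (n : ℕ) (hn : n • P = 0) :
    ∃ k : ℤ, g ^ n = (v b ^ 2) ^ k := by
  have hvb : v b ^ 2 ≠ 0 := pow_ne_zero 2 ((Valuation.ne_zero_iff v).mpr hS.b0)
  have main : ∀ {P : (Wab a b).toAffine.Point}, PtIntPlus v a b α P g → n • P = 0 →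
      ∃ k : ℤ, g ^ n = (v b ^ 2) ^ k := by
    intro P hP hn
    obtain ⟨k, hk⟩ := h2w_compRel_nsmul hS hPP hMP hIP hP n
    rw [hn] at hk
    have h1 := h2w_compRel_zero hk
    refine ⟨-k, ?_⟩
    rw [zpow_neg]
    exact eq_inv_of_mul_eq_one_left h1
  rcases hP with hP | hP
  · exact main hP hn
  · exact main (h2w_neg_intMinus hP) (by rw [smul_neg, hn, neg_zero])

end Fermat.Agent.Lib.S05
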