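/-
S05 project, piece (M1) closed: an intermediate `n`-torsion point `(x, y)` of `Y² = X³ + aX² + bX`
has `(v x)ⁿ ∈ ⟨(v b)²⟩`; assembled from the case lemmas of helper4, helper5, helper6 (helper2).
-/
import Mathlib
import Fermat.Agent.Lib.S05.CompWalk
import Fermat.Agent.Lib.S05.CompPlusPlus
import Fermat.Agent.Lib.S05.CompMinusPlus
import Fermat.Agent.Lib.S05.CompUnitPlus

set_option autoImplicit false

namespace Fermat.Agent.Lib.S05

open WeierstrassCurve WeierstrassCurve.Affine

/-- **(M1)** for `Wab a b`. -/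
theorem h2_componentTorsion_Wab {K : Type*} [Field K] [DecidableEq K] {Γ₀ : Type*}
    [LinearOrderedCommGroupWithZero Γ₀] (v : Valuation K Γ₀) (a b α : K)
    (hS : CompSetting v a b α)
    (x y : K) (h : (Wab a b).toAffine.Nonsingular x y) (n : ℕ)
    (hn : n • (Affine.Point.some x y h : (Wab a b).toAffine.Point) = 0)
    (hb : v b < v x) (h1 : v x < 1) : ∃ k : ℤ, v x ^ n = v b ^ (2 * k) := by
  have hty := h2w_int_cases hS ((h2c_equation_iff a b x y).mp h.1) hb h1
  have hP : PtIntPlus v a b α (Affine.Point.some x y h) (v x) ∨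
      PtIntMinus v a b α (Affine.Point.some x y h) (v x) := by
    rcases hty with hp | hm
    · exact Or.inl ⟨x, y, h, rfl, hp, rfl⟩
    · exact Or.inr ⟨x, y, h, rfl, hm, rfl⟩
  obtain ⟨k, hk⟩ := h2w_component_torsion hS (h6_compPlusPlus hS) (h4_compMinusPlus v hS) (h5_compIdentPlus v hS) hP n hn
  refine ⟨k, ?_⟩
  rw [hk, zpow_mul, zpow_ofNat]

/-- (M1) for a general curve with `a₁ = a₃ = a₆ = 0`. -/
theorem h2_componentTorsion_of_eq {K : Type*} [Field K] [DecidableEq K] {Γ₀ : Type*}
    [LinearOrderedCommGroupWithZero Γ₀] (v : Valuation K Γ₀) (a b α : K)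
    (hS : CompSetting v a b α)
    (W : WeierstrassCurve K) (hW : W = Wab a b)
    (x y : K) (h : W.toAffine.Nonsingular x y) (n : ℕ)
    (hn : n • (Affine.Point.some x y h : W.toAffine.Point) = 0)
    (hb : v b < v x) (h1 : v x < 1) : ∃ k : ℤ, v x ^ n = v b ^ (2 * k) := by
  subst hW
  exact h2_componentTorsion_Wab v a b α hS x y h n hn hb h1

end Fermat.Agent.Lib.S05
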