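import Mathlib

set_option autoImplicit false

open WeierstrassCurve WeierstrassCurve.Affine

namespace Fermat.Agent.Lib.S05

variable {L : Type*} [Field L] {Γ₀ : Type*} [LinearOrderedCommGroupWithZero Γ₀]
  (v : Valuation L Γ₀) (W : WeierstrassCurve L)

/-- If `1 < v ℓ` and `a, x₁, x₂` are integral then `ℓ² - a - x₁ - x₂` is not integral. -/
theorem one_lt_v_addX {ℓ a x₁ x₂ : L} (hℓ : 1 < v ℓ) (ha : v a ≤ 1) (hx₁ : v x₁ ≤ 1)
    (hx₂ : v x₂ ≤ 1) : 1 < v (ℓ ^ 2 - a - x₁ - x₂) := by
  have h1 : 1 < v (ℓ ^ 2) := by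
    rw [map_pow]; exact one_lt_pow₀ hℓ (by norm_num)
  have h2 : v (a + x₁ + x₂) ≤ 1 := v.map_add_le (v.map_add_le ha hx₁) hx₂
  have e : ℓ ^ 2 - a - x₁ - x₂ = ℓ ^ 2 - (a + x₁ + x₂) := by ring
  rw [e, v.map_sub_eq_of_lt_left (lt_of_le_of_lt h2 h1)]
  exact h1

variable [DecidableEq L]

/-- **(K)** Two integral points with the same nonsingular reduction differ by a point of the
kernel of reduction. -/
theorem sub_mem_kernel_of_reduction_eq (h1 : W.a₁ = 0) (h3 : W.a₃ = 0) (h2 : v W.a₂ ≤ 1)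
    (h4 : v W.a₄ ≤ 1) {x₁ y₁ x₂ y₂ : L} (hP : W.toAffine.Nonsingular x₁ y₁)
    (hQ : W.toAffine.Nonsingular x₂ y₂) (hx₁ : v x₁ ≤ 1) (hx₂ : v x₂ ≤ 1)
    (hx : v (x₁ - x₂) < 1) (hy : v (y₁ - y₂) < 1)
    (hns : v (2 * y₁) = 1 ∨ v (3 * x₁ ^ 2 + 2 * W.a₂ * x₁ + W.a₄) = 1) :
    Point.some x₁ y₁ hP = Point.some x₂ y₂ hQ ∨
      ∃ (x₃ y₃ : L) (h₃ : W.toAffine.Nonsingular x₃ y₃),
        Point.some x₁ y₁ hP - Point.some x₂ y₂ hQ = Point.some x₃ y₃ h₃ ∧ 1 < v x₃ := by
  have hnegY : ∀ x y : L, W.toAffine.negY x y = -y := by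
    intro x y; simp [Affine.negY, h1, h3]
  have hQ' : W.toAffine.Nonsingular x₂ (-y₂) := by
    have := (Affine.nonsingular_neg (W' := W.toAffine) x₂ y₂).mpr hQ
    rwa [hnegY] at this
  have hnegQ : -Point.some x₂ y₂ hQ = Point.some x₂ (-y₂) hQ' := by
    rw [Point.neg_some]
    congr 1
    exact hnegY _ _
  have eqP := (Affine.equation_iff _ _).mp hP.1
  have eqQ := (Affine.equation_iff _ _).mp hQ.1
  rw [h1, h3] at eqP eqQ
  by_cases hxx : x₁ = x₂
  · by_cases hyy : y₁ = y₂
    · left; subst hxx; subst hyy; rfl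
    · right
      subst hxx
      have hy1 : y₁ = -y₂ := by
        rcases Affine.Y_eq_of_X_eq hP.1 hQ.1 rfl with h | h
        · exact absurd h hyy
        · rwa [hnegY] at h
      have hy2 : y₂ = -y₁ := by rw [hy1, neg_neg]
      subst hy2
      have h2y : v (2 * y₁) < 1 := by
        have : y₁ - -y₁ = 2 * y₁ := by ring
        rwa [this] at hy
      have hf' : v (3 * x₁ ^ 2 + 2 * W.a₂ * x₁ + W.a₄) = 1 := by
        rcases hns with h | h
        · exact absurd h (ne_of_lt h2y)
        · exact h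
      have hne : y₁ ≠ W.toAffine.negY x₁ y₁ := by
        rw [hnegY]
        exact hyy
      have h2y0 : 2 * y₁ ≠ 0 := by
        intro h
        apply hyy
        linear_combination h
      refine ⟨_, _, Affine.nonsingular_add hP hP fun hxy => hne hxy.right, ?_, ?_⟩
      · rw [sub_eq_add_neg, hnegQ]
        have : Point.some x₁ (- -y₁) hQ' = Point.some x₁ y₁ hP := by
          congr 1; exact neg_neg y₁
        rw [this]
        exact Point.add_self_of_Y_ne hne
      · have hsl : W.toAffine.slope x₁ x₁ y₁ y₁ =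
            (3 * x₁ ^ 2 + 2 * W.a₂ * x₁ + W.a₄) / (2 * y₁) := by
          rw [Affine.slope_of_Y_ne rfl hne, hnegY, h1]
          congr 1 <;> ring
        have hℓ : 1 < v (W.toAffine.slope x₁ x₁ y₁ y₁) := by
          rw [hsl, map_div₀, hf', one_div]
          have hpos : 0 < v (2 * y₁) := v.pos_iff.mpr h2y0
          exact (one_lt_inv₀ hpos).mpr h2y
        have := one_lt_v_addX v hℓ h2 hx₁ hx₁
        simp only [Affine.addX, h1, zero_mul, add_zero]
        exact this
  · right
    have hxy : ¬ (x₁ = x₂ ∧ y₁ = W.toAffine.negY x₂ (-y₂)) := fun h => hxx h.1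
    refine ⟨_, _, Affine.nonsingular_add hP hQ' hxy, ?_, ?_⟩
    · rw [sub_eq_add_neg, hnegQ]
      exact Point.add_of_X_ne hxx
    · have hsl : W.toAffine.slope x₁ x₂ y₁ (-y₂) = (y₁ + y₂) / (x₁ - x₂) := by
        rw [Affine.slope_of_X_ne hxx, sub_neg_eq_add]
      have hx0 : x₁ - x₂ ≠ 0 := sub_ne_zero.mpr hxx
      have hxpos : 0 < v (x₁ - x₂) := v.pos_iff.mpr hx0
      have hℓ : 1 < v (W.toAffine.slope x₁ x₂ y₁ (-y₂)) := by
        rw [hsl, map_div₀, one_lt_div₀ hxpos]
        rcases hns with h | h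
        · -- v (2 y₁) = 1
          have e : y₁ + y₂ = 2 * y₁ - (y₁ - y₂) := by ring
          have hlt : v (y₁ - y₂) < v (2 * y₁) := by rw [h]; exact hy
          have hv : v (2 * y₁ - (y₁ - y₂)) = v (2 * y₁) := v.map_sub_eq_of_lt_left hlt
          rw [e, hv, h]
          exact hx
        · -- v (f'(x₁)) = 1
          set g := x₁ ^ 2 + x₁ * x₂ + x₂ ^ 2 + W.a₂ * (x₁ + x₂) + W.a₄ with hg
          have hgv : v g = 1 := by
            have e : g = (3 * x₁ ^ 2 + 2 * W.a₂ * x₁ + W.a₄) -
                (x₁ - x₂) * (x₂ + 2 * x₁ + W.a₂) := by rw [hg]; ring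
            have hsmall : v ((x₁ - x₂) * (x₂ + 2 * x₁ + W.a₂)) < 1 := by
              rw [map_mul]
              have h2x : v (2 * x₁) ≤ 1 := by
                rw [map_mul]
                calc v 2 * v x₁ ≤ 1 * 1 := by
                      apply mul_le_mul' _ hx₁
                      have : (2 : L) = 1 + 1 := by norm_num
                      rw [this]
                      exact v.map_add_le (le_of_eq v.map_one) (le_of_eq v.map_one)
                  _ = 1 := one_mul 1
              have : v (x₂ + 2 * x₁ + W.a₂) ≤ 1 := v.map_add_le (v.map_add_le hx₂ h2x) h2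
              calc v (x₁ - x₂) * v (x₂ + 2 * x₁ + W.a₂) ≤ v (x₁ - x₂) * 1 := by
                    gcongr
                _ < 1 := by rw [mul_one]; exact hx
            have hlt : v ((x₁ - x₂) * (x₂ + 2 * x₁ + W.a₂)) <
                v (3 * x₁ ^ 2 + 2 * W.a₂ * x₁ + W.a₄) := by rw [h]; exact hsmall
            rw [e, v.map_sub_eq_of_lt_left hlt, h]
          have hprod : (y₁ - y₂) * (y₁ + y₂) = (x₁ - x₂) * g := by
            rw [hg]; linear_combination eqP - eqQ
          have hvprod : v (y₁ - y₂) * v (y₁ + y₂) = v (x₁ - x₂) := by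
            rw [← map_mul, hprod, map_mul, hgv, mul_one]
          have hypos : 0 < v (y₁ - y₂) := by
            rcases (zero_le' : 0 ≤ v (y₁ - y₂)).eq_or_lt with h0 | h0
            · rw [← h0, zero_mul] at hvprod
              exact absurd hvprod.symm (ne_of_gt hxpos)
            · exact h0
          calc v (x₁ - x₂) = v (y₁ - y₂) * v (y₁ + y₂) := hvprod.symm
            _ < 1 * v (y₁ + y₂) := by
                have hpos2 : 0 < v (y₁ + y₂) := by
                  rcases (zero_le' : 0 ≤ v (y₁ + y₂)).eq_or_lt with h0 | h0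
                  · rw [← h0, mul_zero] at hvprod
                    exact absurd hvprod.symm (ne_of_gt hxpos)
                  · exact h0
                exact mul_lt_mul_of_pos_right hy hpos2
            _ = v (y₁ + y₂) := one_mul _
      have := one_lt_v_addX v hℓ h2 hx₁ hx₂
      simp only [Affine.addX, h1, zero_mul, add_zero]
      exact this

end Fermat.Agent.Lib.S05
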