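import Mathlib
import Fermat.Prelude.Def_FLTPrelim_GaloisRep
import Fermat.Agent.Lib.S05.ReductionK

set_option autoImplicit false

open WeierstrassCurve WeierstrassCurve.Affine
open scoped WeierstrassCurve.Affine

namespace Fermat.Agent.Lib.S05

variable {L : Type*} [Field L] [DecidableEq L] {Γ₀ : Type*} [LinearOrderedCommGroupWithZero Γ₀]
  (v : Valuation L Γ₀)

/-- **(T)** as a property: the kernel of reduction has no torsion of order prime to the residue
characteristic. -/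
def KernelTorsionFree (W : WeierstrassCurve L) : Prop :=
  ∀ (x y : L) (h : W.toAffine.Nonsingular x y), 1 < v x → ∀ n : ℕ, v (n : L) = 1 →
    n • (Point.some x y h) ≠ 0

omit [DecidableEq L] in
theorem v_two_mul_le {x : L} (hx : v x ≤ 1) : v (2 * x) ≤ 1 := by
  have : (2 : L) * x = x + x := by ring
  rw [this]
  exact v.map_add_le hx hx

omit [DecidableEq L] in
theorem v_natCast_mul_le (n : ℕ) {x : L} (hx : v x ≤ 1) : v ((n : L) * x) ≤ 1 := by
  induction n with
  | zero => simp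
  | succ k ih =>
    have : ((k + 1 : ℕ) : L) * x = (k : L) * x + x := by push_cast; ring
    rw [this]
    exact v.map_add_le ih hx

omit [DecidableEq L] in
/-- `y` is integral if `x` and the coefficients are. -/
theorem v_y_le_one {W : WeierstrassCurve L} (h1 : W.a₁ = 0) (h3 : W.a₃ = 0) (h2 : v W.a₂ ≤ 1)
    (h4 : v W.a₄ ≤ 1) (h6 : v W.a₆ ≤ 1) {x y : L} (h : W.toAffine.Equation x y)
    (hx : v x ≤ 1) : v y ≤ 1 := by
  have eq := (Affine.equation_iff _ _).mp h
  rw [h1, h3] at eq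
  have hy2 : y ^ 2 = x ^ 3 + W.a₂ * x ^ 2 + W.a₄ * x + W.a₆ := by linear_combination eq
  have hle : v (y ^ 2) ≤ 1 := by
    rw [hy2]
    refine v.map_add_le (v.map_add_le (v.map_add_le ?_ ?_) ?_) h6
    · rw [map_pow]; exact pow_le_one₀ zero_le' hx
    · rw [map_mul, map_pow]; exact mul_le_one₀ h2 zero_le' (pow_le_one₀ zero_le' hx)
    · rw [map_mul]; exact mul_le_one₀ h4 zero_le' hx
  rw [map_pow] at hle
  by_contra hlt
  push Not at hlt
  exact absurd hle (not_le.mpr (one_lt_pow₀ hlt (by norm_num)))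

omit [DecidableEq L] in
/-- Bezout identity between `f` and `f'` (`a₁ = a₃ = 0`): if `Δ` is a unit then the reduction of
an integral point is nonsingular. -/
theorem nonsingular_reduction_of_v_Δ {W : WeierstrassCurve L} (h1 : W.a₁ = 0) (h3 : W.a₃ = 0)
    (h2 : v W.a₂ ≤ 1) (h4 : v W.a₄ ≤ 1) (h6 : v W.a₆ ≤ 1) (hΔ : v W.Δ = 1)
    {x y : L} (h : W.toAffine.Equation x y) (hx : v x ≤ 1) :
    v (2 * y) = 1 ∨ v (3 * x ^ 2 + 2 * W.a₂ * x + W.a₄) = 1 := by
  have eq := (Affine.equation_iff _ _).mp h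
  rw [h1, h3] at eq
  have hy2 : y ^ 2 = x ^ 3 + W.a₂ * x ^ 2 + W.a₄ * x + W.a₆ := by linear_combination eq
  have hy := v_y_le_one v h1 h3 h2 h4 h6 h hx
  set f' := 3 * x ^ 2 + 2 * W.a₂ * x + W.a₄ with hf'
  -- integrality of everything
  have hint : ∀ n : ℕ, v ((n : L)) ≤ 1 := fun n => by
    have := v_natCast_mul_le v n (le_of_eq v.map_one); rwa [mul_one] at this
  have hf'le : v f' ≤ 1 := by
    rw [hf']
    refine v.map_add_le (v.map_add_le ?_ ?_) h4
    · rw [map_mul, map_pow]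
      exact mul_le_one₀ (by exact_mod_cast hint 3) zero_le' (pow_le_one₀ zero_le' hx)
    · rw [map_mul, map_mul]
      exact mul_le_one₀ (mul_le_one₀ (by exact_mod_cast hint 2) zero_le' h2) zero_le' hx
  by_contra hcon
  push Not at hcon
  obtain ⟨hc1, hc2⟩ := hcon
  have h2y : v (2 * y) < 1 := lt_of_le_of_ne (v_two_mul_le v hy) hc1
  have hf'lt : v f' < 1 := lt_of_le_of_ne hf'le hc2
  -- Δ = -16 (U f + V f') with f = y², 16 y² = 4 (2y)²
  set U := 6 * (W.a₂ ^ 2 - 3 * W.a₄) * x + (4 * W.a₂ ^ 3 - 15 * W.a₂ * W.a₄ + 27 * W.a₆) with hU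
  set V := -2 * (W.a₂ ^ 2 - 3 * W.a₄) * x ^ 2 - (2 * W.a₂ ^ 3 - 7 * W.a₂ * W.a₄ + 9 * W.a₆) * x
    + (-W.a₂ ^ 2 * W.a₄ + 4 * W.a₄ ^ 2 - 3 * W.a₂ * W.a₆) with hV
  have hΔeq : W.Δ = -(4 * U * (2 * y) ^ 2 + 16 * V * f') := by
    simp only [WeierstrassCurve.Δ, WeierstrassCurve.b₂, WeierstrassCurve.b₄, WeierstrassCurve.b₆,
      WeierstrassCurve.b₈, h1, h3, hU, hV, hf']
    linear_combination (16 * (6 * (W.a₂ ^ 2 - 3 * W.a₄) * x +
      (4 * W.a₂ ^ 3 - 15 * W.a₂ * W.a₄ + 27 * W.a₆))) * hy2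
  have hx' : x ∈ v.integer := hx
  have h2' : W.a₂ ∈ v.integer := h2
  have h4' : W.a₄ ∈ v.integer := h4
  have h6' : W.a₆ ∈ v.integer := h6
  have hUle : v (4 * U) ≤ 1 := by
    change _ ∈ v.integer
    rw [hU]
    apply_rules [Subring.add_mem, Subring.sub_mem, Subring.mul_mem, Subring.pow_mem,
      Subring.neg_mem, ofNat_mem, Subring.one_mem, Subring.zero_mem]
  have hVle : v (16 * V) ≤ 1 := by
    change _ ∈ v.integer
    rw [hV]
    apply_rules [Subring.add_mem, Subring.sub_mem, Subring.mul_mem, Subring.pow_mem,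
      Subring.neg_mem, ofNat_mem, Subring.one_mem, Subring.zero_mem]
  have hlt : v W.Δ < 1 := by
    rw [hΔeq, Valuation.map_neg]
    apply v.map_add_lt
    · rw [map_mul, map_pow]
      calc v (4 * U) * v (2 * y) ^ 2 ≤ 1 * v (2 * y) ^ 2 := by gcongr
        _ = v (2 * y) ^ 2 := one_mul _
        _ < 1 := pow_lt_one₀ zero_le' h2y (by norm_num)
    · rw [map_mul]
      calc v (16 * V) * v f' ≤ 1 * v f' := by gcongr
        _ = v f' := one_mul _
        _ < 1 := hf'lt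
  exact absurd hΔ (ne_of_lt hlt)

end Fermat.Agent.Lib.S05
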