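import Mathlib
import Fermat.Prelude.Def_FLTPrelim_GaloisRep
import Fermat.Agent.Lib.S05.ReductionK
import Fermat.Agent.Lib.S05.ReductionB

set_option autoImplicit false

open WeierstrassCurve WeierstrassCurve.Affine
open scoped WeierstrassCurve.Affine

namespace Fermat.Agent.Lib.S05

variable {F L : Type*} [Field F] [Field L] [Algebra F L] [DecidableEq L] {Γ₀ : Type*}
  [LinearOrderedCommGroupWithZero Γ₀] (v : Valuation L Γ₀) (W₀ : WeierstrassCurve F)
  (σ : L ≃ₐ[F] L)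

theorem smul_some_eq {x y : L} (h : (W₀⁄L).Nonsingular x y) :
    ∃ h' : (W₀⁄L).Nonsingular (σ x) (σ y),
      σ • (Point.some x y h : (W₀⁄L).Point) = Point.some (σ x) (σ y) h' :=
  ⟨_, rfl⟩

theorem smul_nsmul (n : ℕ) (P : (W₀⁄L).Point) : σ • (n • P) = n • (σ • P) :=
  map_nsmul (Point.map (W' := W₀) σ.toAlgHom) n P

/-- **(G')** A torsion point (of order prime to the residue characteristic) with integral
`x`-coordinate and nonsingular reduction is fixed by any "inertia-like" automorphism. -/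
theorem smul_eq_self_of_nonsingular_reduction
    (hσv : ∀ x, v (σ x) = v x) (hσm : ∀ x, v x ≤ 1 → v (σ x - x) < 1)
    (h1 : W₀.a₁ = 0) (h3 : W₀.a₃ = 0) (h2 : v (algebraMap F L W₀.a₂) ≤ 1)
    (h4 : v (algebraMap F L W₀.a₄) ≤ 1) (h6 : v (algebraMap F L W₀.a₆) ≤ 1)
    (hT : KernelTorsionFree v (W₀.map (algebraMap F L)))
    {x y : L} (h : (W₀⁄L).Nonsingular x y) (hx : v x ≤ 1)
    (hns : v (2 * y) = 1 ∨
      v (3 * x ^ 2 + 2 * algebraMap F L W₀.a₂ * x + algebraMap F L W₀.a₄) = 1)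
    (n : ℕ) (hn : v (n : L) = 1) (hP : n • (Point.some x y h : (W₀⁄L).Point) = 0) :
    σ • (Point.some x y h : (W₀⁄L).Point) = Point.some x y h := by
  set W : WeierstrassCurve L := W₀.map (algebraMap F L) with hW
  have hW1 : W.a₁ = 0 := by rw [hW, WeierstrassCurve.map_a₁, h1, map_zero]
  have hW3 : W.a₃ = 0 := by rw [hW, WeierstrassCurve.map_a₃, h3, map_zero]
  have hW2 : W.a₂ = algebraMap F L W₀.a₂ := by rw [hW, WeierstrassCurve.map_a₂]
  have hW4 : W.a₄ = algebraMap F L W₀.a₄ := by rw [hW, WeierstrassCurve.map_a₄]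
  have hW6 : W.a₆ = algebraMap F L W₀.a₆ := by rw [hW, WeierstrassCurve.map_a₆]
  obtain ⟨h', hσP⟩ := smul_some_eq W₀ σ h
  have hy : v y ≤ 1 :=
    v_y_le_one v hW1 hW3 (by rw [hW2]; exact h2) (by rw [hW4]; exact h4) (by rw [hW6]; exact h6)
      h.1 hx
  have hxσ : v (x - σ x) < 1 := by rw [Valuation.map_sub_swap]; exact hσm x hx
  have hyσ : v (y - σ y) < 1 := by rw [Valuation.map_sub_swap]; exact hσm y hy
  have hK := sub_mem_kernel_of_reduction_eq v W hW1 hW3 (by rw [hW2]; exact h2)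
    (by rw [hW4]; exact h4) (x₁ := x) (y₁ := y) (x₂ := σ x) (y₂ := σ y) h h' hx
    (by rw [hσv]; exact hx) hxσ hyσ (by rw [hW2, hW4]; exact hns)
  rcases hK with hK | ⟨x₃, y₃, h₃, hsub, hx₃⟩
  · rw [hσP]; exact hK.symm
  · exfalso
    apply hT x₃ y₃ h₃ hx₃ n hn
    have hQ : n • (σ • (Point.some x y h : (W₀⁄L).Point)) = 0 := by
      rw [← smul_nsmul, hP, smul_zero]
    rw [hσP] at hQ
    have hsub' : n • ((Point.some x y h : (W₀⁄L).Point) - Point.some (σ x) (σ y) h') = 0 := by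
      rw [nsmul_sub, hP, hQ, sub_zero]
    rw [← hsub]
    exact hsub'

end Fermat.Agent.Lib.S05
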