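import Mathlib
import Fermat.Prelude.Def_FLTPrelim_GaloisRep
import Fermat.Agent.Lib.S05.ReductionK
import Fermat.Agent.Lib.S05.ReductionB
import Fermat.Agent.Lib.S05.ReductionG

set_option autoImplicit false

open WeierstrassCurve WeierstrassCurve.Affine
open scoped WeierstrassCurve.Affine

namespace Fermat.Agent.Lib.S05

variable {F L : Type*} [Field F] [Field L] [Algebra F L] [DecidableEq L] {Γ₀ : Type*}
  [LinearOrderedCommGroupWithZero Γ₀] (v : Valuation L Γ₀) (W₀ : WeierstrassCurve F)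
  (σ : L ≃ₐ[F] L)

/-- **(G)** Good reduction: an "inertia-like" automorphism fixes all torsion points of order
prime to the residue characteristic. -/
theorem smul_eq_self_of_good_reduction
    (hσv : ∀ x, v (σ x) = v x) (hσm : ∀ x, v x ≤ 1 → v (σ x - x) < 1)
    (h1 : W₀.a₁ = 0) (h3 : W₀.a₃ = 0) (h2 : v (algebraMap F L W₀.a₂) ≤ 1)
    (h4 : v (algebraMap F L W₀.a₄) ≤ 1) (h6 : v (algebraMap F L W₀.a₆) ≤ 1)
    (hΔ : v (algebraMap F L W₀.Δ) = 1)
    (hT : KernelTorsionFree v (W₀.map (algebraMap F L)))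
    (n : ℕ) (hn : v (n : L) = 1) (P : (W₀⁄L).Point) (hP : n • P = 0) : σ • P = P := by
  rcases P with _ | ⟨x, y, h⟩
  · rfl
  · have hx : v x ≤ 1 := by
      by_contra hlt
      push Not at hlt
      exact hT x y h hlt n hn hP
    set W : WeierstrassCurve L := W₀.map (algebraMap F L) with hW
    have hW1 : W.a₁ = 0 := by rw [hW, WeierstrassCurve.map_a₁, h1, map_zero]
    have hW3 : W.a₃ = 0 := by rw [hW, WeierstrassCurve.map_a₃, h3, map_zero]
    have hW2 : W.a₂ = algebraMap F L W₀.a₂ := by rw [hW, WeierstrassCurve.map_a₂]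
    have hW4 : W.a₄ = algebraMap F L W₀.a₄ := by rw [hW, WeierstrassCurve.map_a₄]
    have hW6 : W.a₆ = algebraMap F L W₀.a₆ := by rw [hW, WeierstrassCurve.map_a₆]
    have hWΔ : v W.Δ = 1 := by rw [hW, WeierstrassCurve.map_Δ]; exact hΔ
    have hns := nonsingular_reduction_of_v_Δ v hW1 hW3 (by rw [hW2]; exact h2)
      (by rw [hW4]; exact h4) (by rw [hW6]; exact h6) hWΔ h.1 hx
    rw [hW2, hW4] at hns
    exact smul_eq_self_of_nonsingular_reduction v W₀ σ hσv hσm h1 h3 h2 h4 h6 hT h hx hns n hn hP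

end Fermat.Agent.Lib.S05
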