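import Mathlib
import Fermat.Prelude.Def_FLTPrelim_GaloisRep
import Fermat.Agent.Lib.S05.Contracts
import Fermat.Agent.Lib.S05.ReductionGood

set_option autoImplicit false

open WeierstrassCurve WeierstrassCurve.Affine
open scoped WeierstrassCurve.Affine

namespace Fermat.Agent.Lib.S05

/-- The statement (T) for all curves `Y² = X³ + a₂X² + a₄X + a₆` with integral coefficients. -/
def KernelTorsionStatement : Prop :=
  ∀ {L Γ₀ : Type} [Field L] [DecidableEq L] [LinearOrderedCommGroupWithZero Γ₀]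
    (v : Valuation L Γ₀) (W : WeierstrassCurve L), W.a₁ = 0 → W.a₃ = 0 → v W.a₂ ≤ 1 →
    v W.a₄ ≤ 1 → v W.a₆ ≤ 1 → v (2 : L) = 1 → KernelTorsionFree v W

theorem goodCase_of_kernelTorsion (hT : KernelTorsionStatement) : GoodCase := by
  intro F₀ L Γ₀ _ _ _ _ _ v σ hσv hσm a₂ a₄ a₆ h2 h4 h6 hv2 hΔ n hn P hP
  exact smul_eq_self_of_good_reduction v (⟨0, a₂, 0, a₄, a₆⟩ : WeierstrassCurve F₀) σ hσv hσm
    rfl rfl h2 h4 h6 hΔ
    (hT v _ (by simp) (by simp) (by simpa using h2) (by simpa using h4) (by simpa using h6) hv2)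
    n hn P hP

end Fermat.Agent.Lib.S05
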