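/-
S05 project (helper3): the bad (multiplicative) case `Y² = X³ + aX² + bX`, `v a = 1`, `v b < 1`:
* (ii)  points with `v x = 1` have nonsingular reduction, hence torsion points of that type are
        fixed by an inertia-like `σ`;
* (iv)  points with `v x ≤ v b` are handled by translating by `T = (0, 0)`;
* (M2)  two intermediate points (`v b < v x < 1`) with `x₁/x₂ ≡ 1`, `y₁/x₁ ≡ y₂/x₂` are equal or
        differ by a point of the kernel of reduction; hence an intermediate torsion point with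
        `σ x / x ≡ 1` is fixed.
All statements are modulo `KernelTorsionFree` (statement (T)).
-/
import Mathlib
import Fermat.Prelude.Def_FLTPrelim_GaloisRep
import Fermat.Agent.Lib.S05.ReductionK
import Fermat.Agent.Lib.S05.ReductionB
import Fermat.Agent.Lib.S05.ReductionG

set_option autoImplicit false

open WeierstrassCurve WeierstrassCurve.Affine
open scoped WeierstrassCurve.Affine

namespace Fermat.Agent.Lib.S05

section bad1

variable {L : Type*} [Field L] {Γ₀ : Type*} [LinearOrderedCommGroupWithZero Γ₀]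
  (v : Valuation L Γ₀)

/-- `y² = x³ + a₂x² + a₄x` on a curve with `a₁ = a₃ = a₆ = 0`. -/
theorem hb_equation {W : WeierstrassCurve L} (h1 : W.a₁ = 0) (h3 : W.a₃ = 0) (h6 : W.a₆ = 0)
    {x y : L} (h : W.toAffine.Equation x y) : y ^ 2 = x ^ 3 + W.a₂ * x ^ 2 + W.a₄ * x := by
  have eq := (Affine.equation_iff _ _).mp h
  rw [h1, h3, h6] at eq
  linear_combination eq

/-- **(ii)** On `Y² = X³ + aX² + bX` with `v a = 1`, `v b < 1`, `v 2 = 1`, a point with `v x = 1`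
has nonsingular reduction. -/
theorem nonsingular_reduction_of_v_x_eq_one {W : WeierstrassCurve L} (h1 : W.a₁ = 0)
    (h3 : W.a₃ = 0) (h6 : W.a₆ = 0) (ha : v W.a₂ = 1) (hb : v W.a₄ < 1) (hv2 : v (2 : L) = 1)
    {x y : L} (h : W.toAffine.Equation x y) (hx : v x = 1) :
    v (2 * y) = 1 ∨ v (3 * x ^ 2 + 2 * W.a₂ * x + W.a₄) = 1 := by
  have hy2 := hb_equation h1 h3 h6 h
  have h6' : v W.a₆ ≤ 1 := by rw [h6, map_zero]; exact zero_le_one
  have hns_le : v (3 * x ^ 2 + 2 * W.a₂ * x + W.a₄) ≤ 1 := by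
    have h3' : v (3 : L) ≤ 1 := by
      have : (3 : L) = 2 + 1 := by norm_num
      rw [this]; exact v.map_add_le hv2.le v.map_one.le
    refine v.map_add_le (v.map_add_le ?_ ?_) hb.le
    · rw [map_mul, map_pow, hx, one_pow, mul_one]; exact h3'
    · rw [map_mul, map_mul, hv2, ha, hx, one_mul, one_mul]
  have hy := v_y_le_one v h1 h3 ha.le hb.le h6' h hx.le
  by_contra hcon
  push Not at hcon
  obtain ⟨hc1, hc2⟩ := hcon
  have h2y : v y < 1 := by
    have := lt_of_le_of_ne (v_two_mul_le v hy) hc1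
    rwa [map_mul, hv2, one_mul] at this
  have hf' : v (3 * x ^ 2 + 2 * W.a₂ * x + W.a₄) < 1 := lt_of_le_of_ne hns_le hc2
  -- v (x² + a x + b) < 1
  have hq : v (x ^ 2 + W.a₂ * x + W.a₄) < 1 := by
    have e : y ^ 2 = x * (x ^ 2 + W.a₂ * x + W.a₄) := by rw [hy2]; ring
    have : v (y ^ 2) < 1 := by rw [map_pow]; exact pow_lt_one₀ zero_le' h2y (by norm_num)
    rwa [e, map_mul, hx, one_mul] at this
  -- v (x + a) < 1
  have hxa : v (x + W.a₂) < 1 := by
    have e : x * (x + W.a₂) = (x ^ 2 + W.a₂ * x + W.a₄) - W.a₄ := by ring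
    have : v (x * (x + W.a₂)) < 1 := by rw [e]; exact v.map_sub_lt hq hb
    rwa [map_mul, hx, one_mul] at this
  -- v (3x + 2a) < 1
  have h3x : v (3 * x + 2 * W.a₂) < 1 := by
    have e : x * (3 * x + 2 * W.a₂) = (3 * x ^ 2 + 2 * W.a₂ * x + W.a₄) - W.a₄ := by ring
    have : v (x * (3 * x + 2 * W.a₂)) < 1 := by rw [e]; exact v.map_sub_lt hf' hb
    rwa [map_mul, hx, one_mul] at this
  have e : x = (3 * x + 2 * W.a₂) - 2 * (x + W.a₂) := by ring
  have : v x < 1 := by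
    rw [e]
    apply v.map_sub_lt h3x
    rw [map_mul, hv2, one_mul]; exact hxa
  exact absurd hx (ne_of_lt this)

end bad1

section bad2

variable {L : Type*} [Field L] [DecidableEq L]

omit [DecidableEq L] in
/-- `(0, 0)` is a nonsingular point of `Y² = X³ + a₂X² + a₄X` when `a₄ ≠ 0`. -/
theorem hb_nonsingular_T {W : WeierstrassCurve L} (h6 : W.a₆ = 0)
    (hb : W.a₄ ≠ 0) : W.toAffine.Nonsingular 0 0 := by
  rw [Affine.nonsingular_zero]
  exact ⟨h6, Or.inr hb⟩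

/-- `T = (0,0)` has order two. -/
theorem hb_two_nsmul_T {W : WeierstrassCurve L} (h3 : W.a₃ = 0) (h6 : W.a₆ = 0)
    (hb : W.a₄ ≠ 0) : 2 • Point.some 0 0 (hb_nonsingular_T h6 hb) = 0 := by
  rw [two_nsmul]
  exact Point.add_of_Y_eq rfl (by simp [Affine.negY, h3])

/-- Translation by `T = (0,0)`: the `x`-coordinate of `P + T` is `a₄ / x`. -/
theorem hb_add_T {W : WeierstrassCurve L} (h1 : W.a₁ = 0) (h3 : W.a₃ = 0) (h6 : W.a₆ = 0)
    (hb : W.a₄ ≠ 0) {x y : L} (h : W.toAffine.Nonsingular x y) (hx : x ≠ 0) :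
    ∃ (y₃ : L) (h₃ : W.toAffine.Nonsingular (W.a₄ / x) y₃),
      Point.some x y h + Point.some 0 0 (hb_nonsingular_T h6 hb) =
        Point.some (W.a₄ / x) y₃ h₃ := by
  have hxy : ¬(x = 0 ∧ y = W.toAffine.negY 0 0) := fun hh => hx hh.1
  have hadd := Point.add_some (h₁ := h) (h₂ := hb_nonsingular_T h6 hb) hxy
  have hy2 := hb_equation h1 h3 h6 h.1
  have hsl : W.toAffine.slope x 0 y 0 = y / x := by
    rw [Affine.slope_of_X_ne hx, sub_zero, sub_zero]
  have hX : W.toAffine.addX x 0 (W.toAffine.slope x 0 y 0) = W.a₄ / x := by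
    rw [hsl]
    simp only [Affine.addX, h1]
    field_simp
    linear_combination hy2
  have key : ∀ (x₃ : L) (hx₃ : W.toAffine.addX x 0 (W.toAffine.slope x 0 y 0) = x₃)
      (y₃ : L) (h₃ : W.toAffine.Nonsingular
        (W.toAffine.addX x 0 (W.toAffine.slope x 0 y 0)) y₃),
      ∃ (y₃' : L) (h₃' : W.toAffine.Nonsingular x₃ y₃'),
        Point.some (W.toAffine.addX x 0 (W.toAffine.slope x 0 y 0)) y₃ h₃ =
          Point.some x₃ y₃' h₃' := by
    intro x₃ hx₃ y₃ h₃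
    subst hx₃
    exact ⟨y₃, h₃, rfl⟩
  obtain ⟨y₃', h₃', he⟩ := key _ hX _ (Affine.nonsingular_add h (hb_nonsingular_T h6 hb) hxy)
  exact ⟨y₃', h₃', hadd.trans he⟩

end bad2

section bad4

variable {L : Type*} [Field L] {Γ₀ : Type*} [LinearOrderedCommGroupWithZero Γ₀]
  (v : Valuation L Γ₀)

/-- For an intermediate point (`v b < v x < 1`), `μ = y / x` is a unit (`μ² = x + a + b/x`). -/
theorem v_mu_eq_one {W : WeierstrassCurve L} (h1 : W.a₁ = 0) (h3 : W.a₃ = 0) (h6 : W.a₆ = 0)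
    (ha : v W.a₂ = 1) {x y : L} (h : W.toAffine.Equation x y) (hxb : v W.a₄ < v x)
    (hx : v x < 1) : v (y / x) = 1 := by
  have hy2 := hb_equation h1 h3 h6 h
  have hxpos : 0 < v x := lt_of_le_of_lt zero_le' hxb
  have hx0 : x ≠ 0 := v.pos_iff.mp hxpos
  have e : (y / x) ^ 2 = W.a₂ + (x + W.a₄ / x) := by
    rw [div_pow, hy2]; field_simp; ring
  have hbx : v (W.a₄ / x) < 1 := by rw [map_div₀, div_lt_one₀ hxpos]; exact hxb
  have hsmall : v (x + W.a₄ / x) < v W.a₂ := by rw [ha]; exact v.map_add_lt hx hbx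
  have h2 : v ((y / x) ^ 2) = 1 := by rw [e, v.map_add_eq_of_lt_left hsmall, ha]
  rw [map_pow] at h2
  exact (pow_eq_one_iff_of_nonneg zero_le' (by norm_num)).mp h2

variable [DecidableEq L]

/-- **(M2)** Two intermediate points with `x₁/x₂ ≡ 1` and `y₁/x₁ ≡ y₂/x₂` modulo the maximal
ideal are equal or differ by a point of the kernel of reduction. -/
theorem sub_mem_kernel_of_intermediate {W : WeierstrassCurve L} (h1 : W.a₁ = 0) (h3 : W.a₃ = 0)
    (h6 : W.a₆ = 0) (ha : v W.a₂ = 1) (hv2 : v (2 : L) = 1)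
    {x₁ y₁ x₂ y₂ : L} (hP : W.toAffine.Nonsingular x₁ y₁)
    (hQ : W.toAffine.Nonsingular x₂ y₂) (hxb : v W.a₄ < v x₁) (hx₁ : v x₁ < 1)
    (hx : v (x₁ - x₂) < v x₁) (hμ : v (y₁ / x₁ - y₂ / x₂) < 1) :
    Point.some x₁ y₁ hP = Point.some x₂ y₂ hQ ∨
      ∃ (x₃ y₃ : L) (h₃ : W.toAffine.Nonsingular x₃ y₃),
        Point.some x₁ y₁ hP - Point.some x₂ y₂ hQ = Point.some x₃ y₃ h₃ ∧ 1 < v x₃ := by
  have hnegY : ∀ x y : L, W.toAffine.negY x y = -y := by
    intro x y; simp [Affine.negY, h1, h3]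
  have hQ' : W.toAffine.Nonsingular x₂ (-y₂) := by
    have := (Affine.nonsingular_neg (W' := W.toAffine) x₂ y₂).mpr hQ
    rwa [hnegY] at this
  have hnegQ : -Point.some x₂ y₂ hQ = Point.some x₂ (-y₂) hQ' := by
    rw [Point.neg_some]
    congr 1
    exact hnegY _ _
  have hx₁pos : 0 < v x₁ := lt_of_le_of_lt zero_le' hxb
  have hx₁0 : x₁ ≠ 0 := v.pos_iff.mp hx₁pos
  have hvx₂ : v x₂ = v x₁ := by
    have e : x₂ = x₁ - (x₁ - x₂) := by ring
    rw [e, v.map_sub_eq_of_lt_left hx]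
  have hx₂0 : x₂ ≠ 0 := v.pos_iff.mp (by rw [hvx₂]; exact hx₁pos)
  have hμ₁ : v (y₁ / x₁) = 1 := v_mu_eq_one v h1 h3 h6 ha hP.1 hxb hx₁
  by_cases hxx : x₁ = x₂
  · left
    subst hxx
    rcases Affine.Y_eq_of_X_eq hP.1 hQ.1 rfl with h | h
    · subst h; rfl
    · exfalso
      rw [hnegY] at h
      have e : y₁ / x₁ - y₂ / x₁ = 2 * (y₁ / x₁) := by rw [h]; field_simp; ring
      rw [e, map_mul, hv2, hμ₁, one_mul] at hμ
      exact lt_irrefl _ hμ
  · right
    have hxy : ¬ (x₁ = x₂ ∧ y₁ = W.toAffine.negY x₂ (-y₂)) := fun h => hxx h.1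
    refine ⟨_, _, Affine.nonsingular_add hP hQ' hxy, ?_, ?_⟩
    · rw [sub_eq_add_neg, hnegQ]
      exact Point.add_of_X_ne hxx
    · have hsl : W.toAffine.slope x₁ x₂ y₁ (-y₂) = (y₁ + y₂) / (x₁ - x₂) := by
        rw [Affine.slope_of_X_ne hxx, sub_neg_eq_add]
      have hxd0 : x₁ - x₂ ≠ 0 := sub_ne_zero.mpr hxx
      have hxdpos : 0 < v (x₁ - x₂) := v.pos_iff.mpr hxd0
      have hysum : v (y₁ + y₂) = v x₁ := by
        have e : y₁ + y₂ = 2 * (y₁ / x₁) * x₁ -
            ((y₁ / x₁) * (x₁ - x₂) + (y₁ / x₁ - y₂ / x₂) * x₂) := by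
          field_simp; ring
        have hmain : v (2 * (y₁ / x₁) * x₁) = v x₁ := by
          rw [map_mul, map_mul, hv2, hμ₁, one_mul, one_mul]
        have hs1 : v ((y₁ / x₁) * (x₁ - x₂)) < v x₁ := by
          rw [map_mul, hμ₁, one_mul]; exact hx
        have hs2 : v ((y₁ / x₁ - y₂ / x₂) * x₂) < v x₁ := by
          rw [map_mul, hvx₂]
          calc v (y₁ / x₁ - y₂ / x₂) * v x₁ < 1 * v x₁ := mul_lt_mul_of_pos_right hμ hx₁pos
            _ = v x₁ := one_mul _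
        have hs : v ((y₁ / x₁) * (x₁ - x₂) + (y₁ / x₁ - y₂ / x₂) * x₂) < v (2 * (y₁ / x₁) * x₁) := by
          rw [hmain]; exact v.map_add_lt hs1 hs2
        rw [e, v.map_sub_eq_of_lt_left hs, hmain]
      have hℓ : 1 < v (W.toAffine.slope x₁ x₂ y₁ (-y₂)) := by
        rw [hsl, map_div₀, one_lt_div₀ hxdpos, hysum]; exact hx
      have := one_lt_v_addX v hℓ ha.le hx₁.le (by rw [hvx₂]; exact hx₁.le)
      simp only [Affine.addX, h1, zero_mul, add_zero]
      exact this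

end bad4

section bad3

variable {F L : Type*} [Field F] [Field L] [Algebra F L] [DecidableEq L] {Γ₀ : Type*}
  [LinearOrderedCommGroupWithZero Γ₀] (v : Valuation L Γ₀) (W₀ : WeierstrassCurve F)
  (σ : L ≃ₐ[F] L)

theorem hb_smul_add (P Q : (W₀⁄L).Point) : σ • (P + Q) = σ • P + σ • Q :=
  map_add (Point.map (W' := W₀) σ.toAlgHom) P Q

/-- **(ii)** bad case, unit type: a torsion point with `v x = 1` is fixed. -/
theorem smul_eq_self_of_v_x_eq_one
    (hσv : ∀ x, v (σ x) = v x) (hσm : ∀ x, v x ≤ 1 → v (σ x - x) < 1)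
    (h1 : W₀.a₁ = 0) (h3 : W₀.a₃ = 0) (h6 : W₀.a₆ = 0) (ha : v (algebraMap F L W₀.a₂) = 1)
    (hb : v (algebraMap F L W₀.a₄) < 1) (hv2 : v (2 : L) = 1)
    (hT : KernelTorsionFree v (W₀.map (algebraMap F L)))
    {x y : L} (h : (W₀⁄L).Nonsingular x y) (hx : v x = 1)
    (n : ℕ) (hn : v (n : L) = 1) (hP : n • (Point.some x y h : (W₀⁄L).Point) = 0) :
    σ • (Point.some x y h : (W₀⁄L).Point) = Point.some x y h := by
  set W : WeierstrassCurve L := W₀.map (algebraMap F L) with hW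
  have hW1 : W.a₁ = 0 := by rw [hW, WeierstrassCurve.map_a₁, h1, map_zero]
  have hW3 : W.a₃ = 0 := by rw [hW, WeierstrassCurve.map_a₃, h3, map_zero]
  have hW6 : W.a₆ = 0 := by rw [hW, WeierstrassCurve.map_a₆, h6, map_zero]
  have hW2 : W.a₂ = algebraMap F L W₀.a₂ := by rw [hW, WeierstrassCurve.map_a₂]
  have hW4 : W.a₄ = algebraMap F L W₀.a₄ := by rw [hW, WeierstrassCurve.map_a₄]
  have hns := nonsingular_reduction_of_v_x_eq_one v hW1 hW3 hW6 (by rw [hW2]; exact ha)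
    (by rw [hW4]; exact hb) hv2 h.1 hx
  rw [hW2, hW4] at hns
  exact smul_eq_self_of_nonsingular_reduction v W₀ σ hσv hσm h1 h3 ha.le hb.le
    (by rw [h6, map_zero, map_zero]; exact zero_le_one) hT h hx.le hns n hn hP

/-- **(iv)** bad case, points near `T = (0,0)`: a torsion point with `v x ≤ v b` is fixed. -/
theorem smul_eq_self_of_v_x_le_v_b
    (hσv : ∀ x, v (σ x) = v x) (hσm : ∀ x, v x ≤ 1 → v (σ x - x) < 1)
    (h1 : W₀.a₁ = 0) (h3 : W₀.a₃ = 0) (h6 : W₀.a₆ = 0) (ha : v (algebraMap F L W₀.a₂) = 1)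
    (hb : v (algebraMap F L W₀.a₄) < 1) (hb0 : algebraMap F L W₀.a₄ ≠ 0) (hv2 : v (2 : L) = 1)
    (hT : KernelTorsionFree v (W₀.map (algebraMap F L)))
    {x y : L} (h : (W₀⁄L).Nonsingular x y) (hx : v x ≤ v (algebraMap F L W₀.a₄))
    (n : ℕ) (hn : v (n : L) = 1) (hP : n • (Point.some x y h : (W₀⁄L).Point) = 0) :
    σ • (Point.some x y h : (W₀⁄L).Point) = Point.some x y h := by
  have hW1 : (W₀.map (algebraMap F L)).a₁ = 0 := by rw [WeierstrassCurve.map_a₁, h1, map_zero]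
  have hW3 : (W₀.map (algebraMap F L)).a₃ = 0 := by rw [WeierstrassCurve.map_a₃, h3, map_zero]
  have hW6 : (W₀.map (algebraMap F L)).a₆ = 0 := by rw [WeierstrassCurve.map_a₆, h6, map_zero]
  have hW4 : (W₀.map (algebraMap F L)).a₄ = algebraMap F L W₀.a₄ := WeierstrassCurve.map_a₄ _ _
  have hWb : (W₀.map (algebraMap F L)).a₄ ≠ 0 := by rw [hW4]; exact hb0
  have hT0 : (W₀⁄L).Nonsingular 0 0 := hb_nonsingular_T hW6 hWb
  have h2T : 2 • (Point.some 0 0 hT0 : (W₀⁄L).Point) = 0 := hb_two_nsmul_T hW3 hW6 hWb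
  -- `σ` fixes `T`
  have hσT : σ • (Point.some 0 0 hT0 : (W₀⁄L).Point) = Point.some 0 0 hT0 := by
    obtain ⟨h', e⟩ := smul_some_eq W₀ σ hT0
    rw [e]
    congr 1 <;> exact map_zero σ
  by_cases hx0 : x = 0
  · subst hx0
    have hy2 := hb_equation hW1 hW3 hW6 h.1
    have hy0 : y = 0 := by
      have : y ^ 2 = 0 := by rw [hy2]; ring
      exact pow_eq_zero_iff (two_ne_zero) |>.mp this
    subst hy0
    exact hσT
  · obtain ⟨y₃, h₃, hadd⟩ : ∃ (y₃ : L)
        (h₃ : (W₀⁄L).Nonsingular (algebraMap F L W₀.a₄ / x) y₃),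
        (Point.some x y h : (W₀⁄L).Point) + Point.some 0 0 hT0 = Point.some _ y₃ h₃ :=
      hb_add_T hW1 hW3 hW6 hWb h hx0
    have hxpos : 0 < v x := v.pos_iff.mpr hx0
    -- `(2n) • (P + T) = 0`
    have h2n : (2 * n) • (Point.some _ y₃ h₃ : (W₀⁄L).Point) = 0 := by
      rw [← hadd, nsmul_add, mul_nsmul', hP, mul_nsmul, h2T, smul_zero, smul_zero, add_zero]
    have hv2n : v ((2 * n : ℕ) : L) = 1 := by
      push_cast
      rw [map_mul, hv2, hn, one_mul]
    have hge : 1 ≤ v (algebraMap F L W₀.a₄ / x) := by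
      rw [map_div₀, one_le_div₀ hxpos]; exact hx
    have hle : v (algebraMap F L W₀.a₄ / x) ≤ 1 := by
      by_contra hlt
      push Not at hlt
      exact hT _ _ h₃ hlt (2 * n) hv2n h2n
    have hfix := smul_eq_self_of_v_x_eq_one v W₀ σ hσv hσm h1 h3 h6 ha hb hv2 hT h₃
      (le_antisymm hle hge) (2 * n) hv2n h2n
    rw [← hadd, hb_smul_add, hσT] at hfix
    exact add_right_cancel hfix

end bad3

section bad5

variable {F L : Type*} [Field F] [Field L] [Algebra F L] {Γ₀ : Type*}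
  [LinearOrderedCommGroupWithZero Γ₀] (v : Valuation L Γ₀) (W₀ : WeierstrassCurve F)
  (σ : L ≃ₐ[F] L)

/-- **(M2π)** If the value of `x` is an integral power of the value of an element of the base
field, then `σ x / x ≡ 1`. -/
theorem v_sub_lt_of_v_eq_zpow (hσm : ∀ x, v x ≤ 1 → v (σ x - x) < 1) {x : L} (hx0 : x ≠ 0)
    (π : F) (j : ℤ) (hj : v x = v (algebraMap F L π) ^ j) : v (σ x - x) < v x := by
  have hxpos : 0 < v x := v.pos_iff.mpr hx0
  set ϖ : L := algebraMap F L π with hϖ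
  have hϖj0 : ϖ ^ j ≠ 0 := by
    intro h0
    have : v (ϖ ^ j) = 0 := by rw [h0, map_zero]
    rw [map_zpow₀, ← hj] at this
    exact hxpos.ne' this
  have hσϖ : σ (ϖ ^ j) = ϖ ^ j := by
    rw [map_zpow₀, hϖ, σ.commutes]
  set u : L := x / ϖ ^ j with hu
  have hvu : v u = 1 := by
    rw [hu, map_div₀, map_zpow₀, ← hj, div_self hxpos.ne']
  have hxu : x = u * ϖ ^ j := by rw [hu]; field_simp
  have hσx : σ x - x = (σ u - u) * ϖ ^ j := by
    conv_lhs => rw [hxu]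
    rw [map_mul, hσϖ]; ring
  rw [hσx, map_mul, map_zpow₀, ← hj]
  calc v (σ u - u) * v x < 1 * v x := mul_lt_mul_of_pos_right (hσm u hvu.le) hxpos
    _ = v x := one_mul _

variable [DecidableEq L]

/-- **(M2σ)** bad case, intermediate type: a torsion point with `v b < v x < 1` and
`σ x / x ≡ 1` is fixed. -/
theorem smul_eq_self_of_intermediate
    (hσm : ∀ x, v x ≤ 1 → v (σ x - x) < 1)
    (h1 : W₀.a₁ = 0) (h3 : W₀.a₃ = 0) (h6 : W₀.a₆ = 0) (ha : v (algebraMap F L W₀.a₂) = 1)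
    (hv2 : v (2 : L) = 1)
    (hT : KernelTorsionFree v (W₀.map (algebraMap F L)))
    {x y : L} (h : (W₀⁄L).Nonsingular x y) (hxb : v (algebraMap F L W₀.a₄) < v x)
    (hx : v x < 1) (hσx : v (σ x - x) < v x)
    (n : ℕ) (hn : v (n : L) = 1) (hP : n • (Point.some x y h : (W₀⁄L).Point) = 0) :
    σ • (Point.some x y h : (W₀⁄L).Point) = Point.some x y h := by
  have hW1 : (W₀.map (algebraMap F L)).a₁ = 0 := by rw [WeierstrassCurve.map_a₁, h1, map_zero]
  have hW3 : (W₀.map (algebraMap F L)).a₃ = 0 := by rw [WeierstrassCurve.map_a₃, h3, map_zero]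
  have hW6 : (W₀.map (algebraMap F L)).a₆ = 0 := by rw [WeierstrassCurve.map_a₆, h6, map_zero]
  have hW2 : (W₀.map (algebraMap F L)).a₂ = algebraMap F L W₀.a₂ := WeierstrassCurve.map_a₂ _ _
  have hW4 : (W₀.map (algebraMap F L)).a₄ = algebraMap F L W₀.a₄ := WeierstrassCurve.map_a₄ _ _
  obtain ⟨h', hσP⟩ := smul_some_eq W₀ σ h
  have hμ₁ : v (y / x) = 1 :=
    v_mu_eq_one v hW1 hW3 hW6 (by rw [hW2]; exact ha) h.1 (by rw [hW4]; exact hxb) hx
  have hμ : v (y / x - σ y / σ x) < 1 := by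
    rw [← map_div₀ σ y x, Valuation.map_sub_swap]
    exact hσm _ hμ₁.le
  have hx' : v (x - σ x) < v x := by rw [Valuation.map_sub_swap]; exact hσx
  have hK : (Point.some x y h : (W₀⁄L).Point) = Point.some (σ x) (σ y) h' ∨
      ∃ (x₃ y₃ : L) (h₃ : (W₀⁄L).Nonsingular x₃ y₃),
        (Point.some x y h : (W₀⁄L).Point) - Point.some (σ x) (σ y) h' = Point.some x₃ y₃ h₃ ∧
          1 < v x₃ :=
    sub_mem_kernel_of_intermediate v hW1 hW3 hW6 (by rw [hW2]; exact ha) hv2 h h'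
      (by rw [hW4]; exact hxb) hx hx' hμ
  rcases hK with hK | ⟨x₃, y₃, h₃, hsub, hx₃⟩
  · rw [hσP]; exact hK.symm
  · exfalso
    have hQ : n • (σ • (Point.some x y h : (W₀⁄L).Point)) = 0 := by
      rw [← smul_nsmul, hP, smul_zero]
    rw [hσP] at hQ
    have hsub' : n • ((Point.some x y h : (W₀⁄L).Point) - Point.some (σ x) (σ y) h') = 0 := by
      rw [nsmul_sub, hP, hQ, sub_zero]
    have h0 : n • (Point.some x₃ y₃ h₃ : (W₀⁄L).Point) = 0 := by rw [← hsub]; exact hsub'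
    exact hT x₃ y₃ h₃ hx₃ n hn h0

end bad5

end Fermat.Agent.Lib.S05
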