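import Mathlib
import Fermat.Prelude.Def_FLTPrelim_GaloisRep
import Fermat.Agent.Lib.S05.Contracts
import Fermat.Agent.Lib.S05.ComponentProof
import Fermat.Agent.Lib.S05.ReductionBad
import Fermat.Agent.Lib.S05.GoodCaseProof

set_option autoImplicit false

open WeierstrassCurve WeierstrassCurve.Affine
open scoped WeierstrassCurve.Affine

namespace Fermat.Agent.Lib.S05

/-- Root extraction in the value group. -/
theorem hb_root_extraction {Γ₀ : Type*} [LinearOrderedCommGroupWithZero Γ₀] {g c w : Γ₀}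
    {p e : ℕ} (hp : p ≠ 0) {k : ℤ} (hg : g ^ p = c ^ (2 * k)) (hc : c = w ^ (p * e)) :
    g = w ^ (2 * (e : ℤ) * k) := by
  have h1 : g ^ p = (w ^ (2 * (e : ℤ) * k)) ^ p := by
    rw [hg, hc, ← zpow_natCast (w ^ (2 * (e : ℤ) * k)) p, ← zpow_mul, ← zpow_natCast w (p * e),
      ← zpow_mul]
    congr 1
    push_cast
    ring
  exact (pow_left_inj₀ zero_le' zero_le' hp).mp h1

theorem badCase_of_kernelTorsion (hT : KernelTorsionStatement) : BadCase := by
  intro F₀ L Γ₀ _ _ _ _ _ _ v σ hσv hσm a b π hb0 _hdisc hva hvb hv2 p hp _hp2 hvp hπ P hP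
  have hb0' : algebraMap F₀ L b ≠ 0 := by
    rw [Ne, map_eq_zero_iff _ (algebraMap F₀ L).injective]; exact hb0
  have hTW : KernelTorsionFree v
      ((⟨0, a, 0, b, 0⟩ : WeierstrassCurve F₀).map (algebraMap F₀ L)) :=
    hT v _ (by simp) (by simp) (by simpa using hva.le) (by simpa using hvb.le) (by simp) hv2
  rcases P with _ | ⟨x, y, h⟩
  · rfl
  · have hx1 : v x ≤ 1 := by
      by_contra hlt
      push Not at hlt
      exact hTW x y h hlt p hvp hP
    rcases lt_or_eq_of_le hx1 with hxlt | hxeq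
    · rcases le_or_gt (v x) (v (algebraMap F₀ L b)) with hxb | hxb
      · exact smul_eq_self_of_v_x_le_v_b v (⟨0, a, 0, b, 0⟩ : WeierstrassCurve F₀) σ hσv hσm
          rfl rfl rfl hva hvb hb0' hv2 hTW h hxb p hvp hP
      · obtain ⟨α, hα⟩ := IsAlgClosed.exists_pow_nat_eq (algebraMap F₀ L a) two_pos
        have hS : CompSetting v (algebraMap F₀ L a) (algebraMap F₀ L b) α :=
          ⟨hv2, hva, hα, hvb, hb0'⟩
        obtain ⟨k, hk⟩ := h2_componentTorsion_of_eq v (algebraMap F₀ L a) (algebraMap F₀ L b) α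
          hS ((⟨0, a, 0, b, 0⟩ : WeierstrassCurve F₀).map (algebraMap F₀ L))
          (by ext <;> simp [Wab]) x y h p hP hxb hxlt
        obtain ⟨e, he⟩ := hπ
        have hroot := hb_root_extraction hp.ne_zero hk he
        have hx0 : x ≠ 0 := by
          intro h0
          rw [h0, map_zero] at hxb
          exact not_lt_zero' hxb
        exact smul_eq_self_of_intermediate v (⟨0, a, 0, b, 0⟩ : WeierstrassCurve F₀) σ hσm
          rfl rfl rfl hva hv2 hTW h hxb hxlt (v_sub_lt_of_v_eq_zpow v σ hσm hx0 π _ hroot)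
          p hvp hP
    · exact smul_eq_self_of_v_x_eq_one v (⟨0, a, 0, b, 0⟩ : WeierstrassCurve F₀) σ hσv hσm
        rfl rfl rfl hva hvb hv2 hTW h hxeq p hvp hP

end Fermat.Agent.Lib.S05
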