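/-
S05 project (helper3): the two local contracts `GoodCase` and `BadCase` of `Contracts.lean`,
from (T) `kt_smul_ne_zero` (helper7), the reduction lemmas (helper3) and the component
analysis (M1) (helper2, helper4, helper5, helper6).
-/
import Mathlib
import Fermat.Agent.Lib.S05.KernelTorsion
import Fermat.Agent.Lib.S05.GoodCaseProof
import Fermat.Agent.Lib.S05.BadCaseProof

set_option autoImplicit false

namespace Fermat.Agent.Lib.S05

theorem kernelTorsionStatement_holds : KernelTorsionStatement := by
  intro L Γ₀ _ _ _ v W h1 h3 h2 h4 h6 _ x y h hx n hn
  exact kt_smul_ne_zero v W h1 h3 h2 h4 h6 h hx n hn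

theorem goodCase_holds : GoodCase := goodCase_of_kernelTorsion kernelTorsionStatement_holds

theorem badCase_holds : BadCase := badCase_of_kernelTorsion kernelTorsionStatement_holds

end Fermat.Agent.Lib.S05
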