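/-
S05 project, piece (M1): exact chord/tangent identities for Mathlib's addition law on
`Wab a b : Y² = X³ + a X² + b X` (helper2).  No valuations here.

For two affine points `(x₁, y₁)`, `(x₂, y₂)` with `¬ (x₁ = x₂ ∧ y₁ = -y₂)` let
`ℓ = slope`, `ν = y₁ - ℓ x₁`, `x₃ = addX`, `y₃ = addY`.  Then `y₂ = ℓ x₂ + ν`,
`x₁ + x₂ + x₃ = ℓ² - a`, `x₁x₂ + x₁x₃ + x₂x₃ = b - 2ℓν`, `x₁x₂x₃ = ν²`, `y₃ = -(ℓ x₃ + ν)`,
`ν (y₁x₂ + y₂x₁) = x₁x₂ (b - x₁x₂)`.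
-/
import Mathlib
import Fermat.Agent.Lib.S05.CompDefs

set_option autoImplicit false

namespace Fermat.Agent.Lib.S05

open WeierstrassCurve WeierstrassCurve.Affine

section

variable {L : Type*} [Field L] (a b : L)

theorem h2c_equation_iff (x y : L) :
    (Wab a b).toAffine.Equation x y ↔ y ^ 2 = x ^ 3 + a * x ^ 2 + b * x := by
  rw [Affine.equation_iff]
  simp [Wab]

theorem h2c_negY (x y : L) : (Wab a b).toAffine.negY x y = -y := by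
  simp [Affine.negY, Wab]

theorem h2c_nonsingular_T (hb : b ≠ 0) : (Wab a b).toAffine.Nonsingular 0 0 := by
  rw [Affine.nonsingular_zero]
  simp [Wab, hb]

variable [DecidableEq L] {a b} {x₁ y₁ x₂ y₂ : L}

/-- the slope in the chord case -/
theorem h2c_slope_of_ne (hx : x₁ ≠ x₂) :
    (Wab a b).toAffine.slope x₁ x₂ y₁ y₂ = (y₁ - y₂) / (x₁ - x₂) :=
  Affine.slope_of_X_ne hx

/-- the slope in the tangent case -/
theorem h2c_slope_of_eq (hy : y₁ ≠ -y₁) :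
    (Wab a b).toAffine.slope x₁ x₁ y₁ y₁ = (3 * x₁ ^ 2 + 2 * a * x₁ + b) / (y₁ - -y₁) := by
  rw [Affine.slope_of_Y_ne rfl (by rwa [h2c_negY])]
  simp [Wab, Affine.negY]

/-- The relations between two points `(x₁, y₁)`, `(x₂, y₂)`, the line `Y = ℓ X + ν` through them
and their sum `(x₃, y₃)`. -/
structure ChordData (a b x₁ y₁ x₂ y₂ ℓ ν x₃ y₃ : L) : Prop where
  line₁ : y₁ = ℓ * x₁ + ν
  line₂ : y₂ = ℓ * x₂ + ν
  line₃ : y₃ = -(ℓ * x₃ + ν)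
  e1 : x₁ + x₂ + x₃ = ℓ ^ 2 - a
  e2 : x₁ * x₂ + x₁ * x₃ + x₂ * x₃ = b - 2 * ℓ * ν
  e3 : x₁ * x₂ * x₃ = ν ^ 2

theorem h2c_chordData (h₁ : (Wab a b).toAffine.Equation x₁ y₁)
    (h₂ : (Wab a b).toAffine.Equation x₂ y₂) (hxy : ¬(x₁ = x₂ ∧ y₁ = -y₂)) :
    ChordData a b x₁ y₁ x₂ y₂ ((Wab a b).toAffine.slope x₁ x₂ y₁ y₂)
      (y₁ - (Wab a b).toAffine.slope x₁ x₂ y₁ y₂ * x₁)
      ((Wab a b).toAffine.addX x₁ x₂ ((Wab a b).toAffine.slope x₁ x₂ y₁ y₂))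
      ((Wab a b).toAffine.addY x₁ x₂ y₁ ((Wab a b).toAffine.slope x₁ x₂ y₁ y₂)) := by
  have hxy' : ¬(x₁ = x₂ ∧ y₁ = (Wab a b).toAffine.negY x₂ y₂) := by rwa [h2c_negY]
  have key := Affine.addPolynomial_slope h₁ h₂ hxy'
  rw [Affine.addPolynomial_eq, neg_inj, Cubic.prod_X_sub_C_eq, Cubic.toPoly_injective] at key
  have hb := congrArg Cubic.b key
  have hc := congrArg Cubic.c key
  have hd := congrArg Cubic.d key
  set ℓ := (Wab a b).toAffine.slope x₁ x₂ y₁ y₂ with hℓ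
  simp only [Wab, zero_mul, add_zero, sub_zero, neg_zero, zero_add] at hb hc hd
  have hline₂ : y₂ = ℓ * x₂ + (y₁ - ℓ * x₁) := by
    by_cases hx : x₁ = x₂
    · have hy : y₁ ≠ (Wab a b).toAffine.negY x₂ y₂ := fun h => hxy' ⟨hx, h⟩
      have := Affine.Y_eq_of_Y_ne h₁ h₂ hx hy
      rw [hx, this]; ring
    · rw [hℓ, h2c_slope_of_ne hx]
      have : x₁ - x₂ ≠ 0 := sub_ne_zero.mpr hx
      field_simp
      ring
  refine ⟨by ring, hline₂, ?_, ?_, ?_, ?_⟩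
  · simp only [Affine.addY, Affine.negAddY, h2c_negY]; ring
  · simp only [Affine.addX, Wab] at hb ⊢; ring
  · simp only [Affine.addX, Wab] at hc ⊢
    linear_combination -hc
  · simp only [Affine.addX, Wab] at hd ⊢
    linear_combination hd

omit [DecidableEq L] in
/-- `ν (y₁ x₂ + y₂ x₁) = x₁ x₂ (b - x₁ x₂)`, i.e. `ν (μ₁ + μ₂) = b - x₁ x₂` for `μ = y / x`. -/
theorem ChordData.nu_mul {ℓ ν x₃ y₃ : L} (h : ChordData a b x₁ y₁ x₂ y₂ ℓ ν x₃ y₃) :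
    ν * (y₁ * x₂ + y₂ * x₁) = x₁ * x₂ * (b - x₁ * x₂) := by
  rw [h.line₁, h.line₂]
  linear_combination (x₁ * x₂) * h.e2 - (x₁ + x₂) * h.e3

omit [DecidableEq L] in
theorem ChordData.x₃_ne_zero {ℓ ν x₃ y₃ : L} (h : ChordData a b x₁ y₁ x₂ y₂ ℓ ν x₃ y₃)
    (hν : ν ≠ 0) : x₃ ≠ 0 := by
  intro h0
  have := h.e3
  rw [h0, mul_zero] at this
  exact hν ((pow_eq_zero_iff (two_ne_zero)).mp this.symm)

omit [DecidableEq L] in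
/-- `ν / x₃ = x₁ x₂ / ν`. -/
theorem ChordData.nu_div_x₃ {ℓ ν x₃ y₃ : L} (h : ChordData a b x₁ y₁ x₂ y₂ ℓ ν x₃ y₃)
    (hν : ν ≠ 0) : ν / x₃ = x₁ * x₂ / ν := by
  rw [div_eq_div_iff (h.x₃_ne_zero hν) hν]
  linear_combination -h.e3

omit [DecidableEq L] in
/-- `μ₃ = y₃ / x₃ = -ℓ - ν / x₃`. -/
theorem ChordData.mu₃ {ℓ ν x₃ y₃ : L} (h : ChordData a b x₁ y₁ x₂ y₂ ℓ ν x₃ y₃)
    (hx₃ : x₃ ≠ 0) : y₃ / x₃ = -ℓ - ν / x₃ := by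
  rw [h.line₃]; field_simp; ring

omit [DecidableEq L] in
/-- `μ₁ = y₁ / x₁ = ℓ + ν / x₁`. -/
theorem ChordData.mu₁ {ℓ ν x₃ y₃ : L} (h : ChordData a b x₁ y₁ x₂ y₂ ℓ ν x₃ y₃)
    (hx₁ : x₁ ≠ 0) : y₁ / x₁ = ℓ + ν / x₁ := by
  rw [h.line₁]; field_simp

omit [DecidableEq L] in
/-- `μ₂ = y₂ / x₂ = ℓ + ν / x₂`. -/
theorem ChordData.mu₂ {ℓ ν x₃ y₃ : L} (h : ChordData a b x₁ y₁ x₂ y₂ ℓ ν x₃ y₃)
    (hx₂ : x₂ ≠ 0) : y₂ / x₂ = ℓ + ν / x₂ := by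
  rw [h.line₂]; field_simp

omit [DecidableEq L] in
/-- Second formula for `μ₃ = y₃ / x₃`: `μ₃ = -μ₁ + ν / x₁ - x₁ x₂ / ν`. -/
theorem ChordData.mu_formula₂ {ℓ ν x₃ y₃ : L} (h : ChordData a b x₁ y₁ x₂ y₂ ℓ ν x₃ y₃)
    (hx₁ : x₁ ≠ 0) (hν : ν ≠ 0) :
    y₃ / x₃ = -(y₁ / x₁) + ν / x₁ - x₁ * x₂ / ν := by
  rw [h.mu₃ (h.x₃_ne_zero hν), h.mu₁ hx₁, h.nu_div_x₃ hν]; ring

omit [DecidableEq L] in
/-- First formula for `μ₃ = y₃ / x₃`: `μ₃ = μ₂ + ν / x₁ - b / ν`. -/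
theorem ChordData.mu_formula₁ {ℓ ν x₃ y₃ : L} (h : ChordData a b x₁ y₁ x₂ y₂ ℓ ν x₃ y₃)
    (hx₁ : x₁ ≠ 0) (hx₂ : x₂ ≠ 0) (hν : ν ≠ 0) :
    y₃ / x₃ = y₂ / x₂ + ν / x₁ - b / ν := by
  rw [h.mu₃ (h.x₃_ne_zero hν), h.mu₂ hx₂, h.nu_div_x₃ hν]
  have key : b / ν = 2 * ℓ + ν / x₁ + ν / x₂ + x₁ * x₂ / ν := by
    have h12 : x₁ * x₂ ≠ 0 := mul_ne_zero hx₁ hx₂
    have e : x₃ = ν ^ 2 / (x₁ * x₂) := by
      rw [eq_div_iff h12]; linear_combination h.e3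
    have e2 := h.e2
    rw [e] at e2
    field_simp at e2 ⊢
    linear_combination -e2
  rw [key]; ring

/-- Point-level form: the sum of two affine points which are not opposite. -/
theorem h2c_add (h₁ : (Wab a b).toAffine.Nonsingular x₁ y₁)
    (h₂ : (Wab a b).toAffine.Nonsingular x₂ y₂) (hxy : ¬(x₁ = x₂ ∧ y₁ = -y₂)) :
    ∃ (ℓ ν x₃ y₃ : L) (h₃ : (Wab a b).toAffine.Nonsingular x₃ y₃),
      Affine.Point.some x₁ y₁ h₁ + Affine.Point.some x₂ y₂ h₂ = Affine.Point.some x₃ y₃ h₃ ∧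
        ChordData a b x₁ y₁ x₂ y₂ ℓ ν x₃ y₃ := by
  have hxy' : ¬(x₁ = x₂ ∧ y₁ = (Wab a b).toAffine.negY x₂ y₂) := by rwa [h2c_negY]
  exact ⟨_, _, _, _, Affine.nonsingular_add h₁ h₂ hxy', Affine.Point.add_some hxy',
    h2c_chordData h₁.1 h₂.1 hxy⟩

/-- Opposite points add up to zero. -/
theorem h2c_add_eq_zero (h₁ : (Wab a b).toAffine.Nonsingular x₁ y₁)
    (h₂ : (Wab a b).toAffine.Nonsingular x₂ y₂) (hx : x₁ = x₂) (hy : y₁ = -y₂) :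
    Affine.Point.some x₁ y₁ h₁ + Affine.Point.some x₂ y₂ h₂ = 0 :=
  Affine.Point.add_of_Y_eq hx (by rwa [h2c_negY])

/-- Translation by the `2`-torsion point `T = (0, 0)`. -/
theorem h2c_add_T (hb : b ≠ 0) {x y : L} (h : (Wab a b).toAffine.Nonsingular x y) (hx : x ≠ 0) :
    ∃ (x₃ y₃ : L) (h₃ : (Wab a b).toAffine.Nonsingular x₃ y₃),
      Affine.Point.some x y h + Affine.Point.some 0 0 (h2c_nonsingular_T a b hb)
        = Affine.Point.some x₃ y₃ h₃ ∧ x₃ = b / x ∧ y₃ = -(b * y) / x ^ 2 := by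
  obtain ⟨ℓ, ν, x₃, y₃, h₃, hadd, hc⟩ :=
    h2c_add h (h2c_nonsingular_T a b hb) (fun hh => hx hh.1)
  have hν : ν = 0 := by have := hc.line₂; simpa using this.symm
  have hℓ : ℓ * x = y := by
    have := hc.line₁; rw [hν, add_zero] at this
    exact this.symm
  have heq := (h2c_equation_iff a b x y).mp h.1
  have hx3 : x₃ * x = b := by
    have e1 := hc.e1
    have : x * (x₃ * x) = x * b := by
      have h2 : (ℓ * x) ^ 2 = y ^ 2 := by rw [hℓ]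
      linear_combination (x ^ 2) * e1 + h2 + heq
    exact mul_left_cancel₀ hx this
  refine ⟨x₃, y₃, h₃, hadd, ?_, ?_⟩
  · rw [eq_div_iff hx]; exact hx3
  · rw [eq_div_iff (pow_ne_zero 2 hx), hc.line₃, hν]
    linear_combination (-(x * x₃)) * hℓ - y * hx3

end

end Fermat.Agent.Lib.S05
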