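/-
S05 project, piece (S0): models of the Frey curve (helper1).

The Frey curve `y² + xy = x³ + ((B-1-A)/4) x² - (AB/16) x` (`A = a^p`, `B = b^p`, `C = c^p = A + B`)
is isomorphic over `ℚ`, by explicit changes of variables, to the Legendre-type models
`Y² = X³ + (B - A) X² - A B X`  (= `X (X - A) (X + B)`) and
`Y² = X³ + (A + C) X² + A C X`  (= `X (X + A) (X + C)`),
together with the integer facts needed at a prime `q ≠ 2`.
-/
import Mathlib
import Fermat.Prelude.Def_FLTPrelim_FreyPackage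

set_option autoImplicit false

namespace Fermat.Agent.Lib.S05

open WeierstrassCurve

/-- The curve `Y² = X³ + a X² + b X`. -/
def legendreCurve {F : Type*} [CommRing F] (a b : F) : WeierstrassCurve F := ⟨0, a, 0, b, 0⟩

section Legendre

variable {F : Type*} [CommRing F] (a b : F)

@[simp] lemma legendreCurve_a₁ : (legendreCurve a b).a₁ = 0 := rfl
@[simp] lemma legendreCurve_a₂ : (legendreCurve a b).a₂ = a := rfl
@[simp] lemma legendreCurve_a₃ : (legendreCurve a b).a₃ = 0 := rfl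
@[simp] lemma legendreCurve_a₄ : (legendreCurve a b).a₄ = b := rfl
@[simp] lemma legendreCurve_a₆ : (legendreCurve a b).a₆ = 0 := rfl

lemma legendreCurve_Δ : (legendreCurve a b).Δ = 16 * b ^ 2 * (a ^ 2 - 4 * b) := by
  simp only [Δ, b₂, b₄, b₆, b₈, legendreCurve_a₁, legendreCurve_a₂, legendreCurve_a₃,
    legendreCurve_a₄, legendreCurve_a₆]
  ring

lemma legendreCurve_c₄ : (legendreCurve a b).c₄ = 16 * (a ^ 2 - 3 * b) := by
  simp only [c₄, b₂, b₄, legendreCurve_a₁, legendreCurve_a₂, legendreCurve_a₃,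
    legendreCurve_a₄]
  ring

lemma legendreCurve_map {G : Type*} [CommRing G] (φ : F →+* G) :
    (legendreCurve a b).map φ = legendreCurve (φ a) (φ b) := by
  ext <;> simp [legendreCurve, WeierstrassCurve.map]

end Legendre

/-- `1/2` as a unit of `ℚ`. -/
def halfUnit : ℚˣ := Units.mk0 (1 / 2) (by norm_num)

@[simp] lemma halfUnit_val : (halfUnit : ℚ) = 1 / 2 := rfl

lemma halfUnit_inv_val : ((halfUnit⁻¹ : ℚˣ) : ℚ) = 2 := by
  rw [Units.val_inv_eq_inv_val, halfUnit_val]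
  norm_num

/-- The change of variables `x = X/4`, `y = Y/8 - X/8` (i.e. `X = 4x`, `Y = 8y + 4x`). -/
def freyVC1 : VariableChange ℚ := ⟨halfUnit, 0, -1 / 2, 0⟩

/-- The change of variables `x = (X + A)/4`, `y = Y/8 - (X + A)/8`. -/
def freyVC2 (P : FreyPackage) : VariableChange ℚ :=
  ⟨halfUnit, (P.a : ℚ) ^ P.p / 4, -1 / 2, -((P.a : ℚ) ^ P.p) / 8⟩

/-- First Legendre model: `Y² = X (X - A) (X + B)`. -/
theorem freyVC1_smul (P : FreyPackage) :
    freyVC1 • P.freyCurve =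
      legendreCurve ((P.b : ℚ) ^ P.p - (P.a : ℚ) ^ P.p) (-((P.a : ℚ) ^ P.p * (P.b : ℚ) ^ P.p)) := by
  ext
  · simp only [variableChange_a₁, freyVC1, FreyPackage.freyCurve, legendreCurve_a₁,
      halfUnit_inv_val]
    ring
  · simp only [variableChange_a₂, freyVC1, FreyPackage.freyCurve, legendreCurve_a₂,
      halfUnit_inv_val]
    ring
  · simp only [variableChange_a₃, freyVC1, FreyPackage.freyCurve, legendreCurve_a₃,
      halfUnit_inv_val]
    ring
  · simp only [variableChange_a₄, freyVC1, FreyPackage.freyCurve, legendreCurve_a₄,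
      halfUnit_inv_val]
    ring
  · simp only [variableChange_a₆, freyVC1, FreyPackage.freyCurve, legendreCurve_a₆,
      halfUnit_inv_val]
    ring

/-- Second Legendre model: `Y² = X (X + A) (X + C)`. -/
theorem freyVC2_smul (P : FreyPackage) :
    freyVC2 P • P.freyCurve =
      legendreCurve ((P.a : ℚ) ^ P.p + (P.c : ℚ) ^ P.p) ((P.a : ℚ) ^ P.p * (P.c : ℚ) ^ P.p) := by
  have hC : (P.c : ℚ) ^ P.p = (P.a : ℚ) ^ P.p + (P.b : ℚ) ^ P.p := by
    have := P.hFLT
    exact_mod_cast this.symm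
  ext
  · simp only [variableChange_a₁, freyVC2, FreyPackage.freyCurve, legendreCurve_a₁,
      halfUnit_inv_val]
    ring
  · simp only [variableChange_a₂, freyVC2, FreyPackage.freyCurve, legendreCurve_a₂,
      halfUnit_inv_val, hC]
    ring
  · simp only [variableChange_a₃, freyVC2, FreyPackage.freyCurve, legendreCurve_a₃,
      halfUnit_inv_val]
    ring
  · simp only [variableChange_a₄, freyVC2, FreyPackage.freyCurve, legendreCurve_a₄,
      halfUnit_inv_val, hC]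
    ring
  · simp only [variableChange_a₆, freyVC2, FreyPackage.freyCurve, legendreCurve_a₆,
      halfUnit_inv_val]
    ring


/-- First Legendre model over an extension field. -/
theorem freyVC1_smul_map (P : FreyPackage) {K : Type*} [Field K] [Algebra ℚ K] :
    (freyVC1.map (algebraMap ℚ K)) • (P.freyCurve.map (algebraMap ℚ K)) =
      legendreCurve ((P.b : K) ^ P.p - (P.a : K) ^ P.p) (-((P.a : K) ^ P.p * (P.b : K) ^ P.p)) := by
  rw [map_variableChange, freyVC1_smul, legendreCurve_map]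
  simp only [map_sub, map_neg, map_mul, map_pow, map_intCast]

/-- Second Legendre model over an extension field. -/
theorem freyVC2_smul_map (P : FreyPackage) {K : Type*} [Field K] [Algebra ℚ K] :
    ((freyVC2 P).map (algebraMap ℚ K)) • (P.freyCurve.map (algebraMap ℚ K)) =
      legendreCurve ((P.a : K) ^ P.p + (P.c : K) ^ P.p) ((P.a : K) ^ P.p * (P.c : K) ^ P.p) := by
  rw [map_variableChange, freyVC2_smul, legendreCurve_map]
  simp only [map_add, map_mul, map_pow, map_intCast]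

/-! ### Integer facts -/

section Integers

variable (P : FreyPackage)

lemma frey_isCoprime_ab : IsCoprime P.a P.b := by
  rw [Int.isCoprime_iff_gcd_eq_one]
  have : ((Int.gcd P.a P.b : ℕ) : ℤ) = 1 := by rw [Int.coe_gcd]; exact P.hgcdab
  exact_mod_cast this

lemma frey_isCoprime_ac : IsCoprime P.a P.c := by
  rw [Int.isCoprime_iff_gcd_eq_one]
  have : ((Int.gcd P.a P.c : ℕ) : ℤ) = 1 := by rw [Int.coe_gcd]; exact P.hgcdac
  exact_mod_cast this

lemma frey_isCoprime_bc : IsCoprime P.b P.c := by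
  rw [Int.isCoprime_iff_gcd_eq_one]
  have : ((Int.gcd P.b P.c : ℕ) : ℤ) = 1 := by rw [Int.coe_gcd]; exact P.hgcdbc
  exact_mod_cast this

/-- A prime not dividing `x` is coprime to `x`. -/
lemma isCoprime_of_prime_not_dvd {q : ℕ} (hq : q.Prime) {x : ℤ} (h : ¬ (q : ℤ) ∣ x) :
    IsCoprime x (q : ℤ) :=
  ((Nat.prime_iff_prime_int.mp hq).coprime_iff_not_dvd.mpr h).symm

lemma not_dvd_of_isCoprime_of_dvd {q : ℕ} (hq : q.Prime) {x y : ℤ} (hxy : IsCoprime x y)
    (hx : (q : ℤ) ∣ x) : ¬ (q : ℤ) ∣ y := fun hy =>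
  (Nat.prime_iff_prime_int.mp hq).not_isUnit (hxy.isUnit_of_dvd' hx hy)

/-- Generic: `q ∣ x`, `x ≠ 0`, `x` coprime to `y`: then `x^p * y^p = q^(p e) m` with `m` prime
to `q` and `e > 0`. -/
lemma exists_pow_mul_of_dvd {q : ℕ} (hq : q.Prime) {x y : ℤ} (hx0 : x ≠ 0) (hxy : IsCoprime x y)
    (hx : (q : ℤ) ∣ x) (p : ℕ) :
    ∃ (e : ℕ) (m : ℤ), 0 < e ∧ IsCoprime m (q : ℤ) ∧ x ^ p * y ^ p = (q : ℤ) ^ (p * e) * m := by
  have hqprime : Prime (q : ℤ) := Nat.prime_iff_prime_int.mp hq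
  have hfin : FiniteMultiplicity (q : ℤ) x :=
    Int.finiteMultiplicity_iff.mpr ⟨by
      simpa using hq.ne_one, hx0⟩
  obtain ⟨x', hx', hnd⟩ := hfin.exists_eq_pow_mul_and_not_dvd
  set e := multiplicity (q : ℤ) x with he
  have hepos : 0 < e := by
    rcases Nat.eq_zero_or_pos e with h0 | h0
    · exfalso
      rw [h0, pow_zero, one_mul] at hx'
      exact hnd (hx' ▸ hx)
    · exact h0
  have hy : ¬ (q : ℤ) ∣ y := not_dvd_of_isCoprime_of_dvd hq hxy hx
  refine ⟨e, x' ^ p * y ^ p, hepos, ?_, ?_⟩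
  · have h1 : IsCoprime x' (q : ℤ) := isCoprime_of_prime_not_dvd hq hnd
    have h2 : IsCoprime y (q : ℤ) := isCoprime_of_prime_not_dvd hq hy
    exact (h1.pow_left).mul_left (h2.pow_left)
  · rw [hx']
    ring

/-- Good case: the discriminant `16 (ABC)²` of the first model is prime to `q`. -/
theorem frey_good {q : ℕ} (hq : q.Prime) (hq2 : q ≠ 2) (h : ¬ (q : ℤ) ∣ P.a * P.b * P.c) :
    IsCoprime (16 * (P.a ^ P.p * P.b ^ P.p * P.c ^ P.p) ^ 2) (q : ℤ) := by
  have hqprime : Prime (q : ℤ) := Nat.prime_iff_prime_int.mp hq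
  apply isCoprime_of_prime_not_dvd hq
  intro hdvd
  rcases hqprime.dvd_or_dvd hdvd with h16 | h2
  · have : (q : ℤ) ∣ 2 ^ 4 := by norm_num; exact h16
    have h2' := hqprime.dvd_of_dvd_pow this
    have : q ∣ 2 := by exact_mod_cast h2'
    exact hq2 ((Nat.prime_dvd_prime_iff_eq hq Nat.prime_two).mp this)
  · have h3 := hqprime.dvd_of_dvd_pow h2
    apply h
    rcases hqprime.dvd_or_dvd h3 with h4 | h4
    · rcases hqprime.dvd_or_dvd h4 with h5 | h5
      · exact dvd_mul_of_dvd_left (dvd_mul_of_dvd_left (hqprime.dvd_of_dvd_pow h5) _) _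
      · exact dvd_mul_of_dvd_left (dvd_mul_of_dvd_right (hqprime.dvd_of_dvd_pow h5) _) _
    · exact dvd_mul_of_dvd_right (hqprime.dvd_of_dvd_pow h4) _

/-- The discriminant of the first model. -/
theorem frey_model1_Δ :
    (legendreCurve (P.b ^ P.p - P.a ^ P.p) (-(P.a ^ P.p * P.b ^ P.p)) : WeierstrassCurve ℤ).Δ =
      16 * (P.a ^ P.p * P.b ^ P.p * P.c ^ P.p) ^ 2 := by
  rw [legendreCurve_Δ, ← P.hFLT]
  ring

/-- Bad case `q ∣ a b`: in the first model `a₂ = B - A` and `a₂² - 4 a₄ = C²` are prime to `q`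
and `a₄ = -(A B)` with `A B = q^(p e) m`, `m` prime to `q`, `e > 0`. -/
theorem frey_bad_ab {q : ℕ} (hq : q.Prime) (h : (q : ℤ) ∣ P.a * P.b) :
    IsCoprime (P.b ^ P.p - P.a ^ P.p) (q : ℤ) ∧ IsCoprime (P.c ^ P.p) (q : ℤ) ∧
      ∃ (e : ℕ) (m : ℤ), 0 < e ∧ IsCoprime m (q : ℤ) ∧
        P.a ^ P.p * P.b ^ P.p = (q : ℤ) ^ (P.p * e) * m := by
  have hqprime : Prime (q : ℤ) := Nat.prime_iff_prime_int.mp hq
  have hp0 : P.p ≠ 0 := P.hp0
  rcases hqprime.dvd_or_dvd h with ha | hb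
  · have hb : ¬ (q : ℤ) ∣ P.b := not_dvd_of_isCoprime_of_dvd hq (frey_isCoprime_ab P) ha
    have hc : ¬ (q : ℤ) ∣ P.c := not_dvd_of_isCoprime_of_dvd hq (frey_isCoprime_ac P) ha
    refine ⟨?_, ?_, exists_pow_mul_of_dvd hq P.ha0 (frey_isCoprime_ab P) ha P.p⟩
    · apply isCoprime_of_prime_not_dvd hq
      intro hd
      have : (q : ℤ) ∣ P.b ^ P.p := by
        have h2 : (q : ℤ) ∣ P.a ^ P.p := dvd_pow ha hp0
        have := dvd_add hd h2
        simpa using this
      exact hb (hqprime.dvd_of_dvd_pow this)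
    · exact (isCoprime_of_prime_not_dvd hq hc).pow_left
  · have ha : ¬ (q : ℤ) ∣ P.a := not_dvd_of_isCoprime_of_dvd hq (frey_isCoprime_ab P).symm hb
    have hc : ¬ (q : ℤ) ∣ P.c := not_dvd_of_isCoprime_of_dvd hq (frey_isCoprime_bc P) hb
    refine ⟨?_, ?_, ?_⟩
    · apply isCoprime_of_prime_not_dvd hq
      intro hd
      have : (q : ℤ) ∣ P.a ^ P.p := by
        have h2 : (q : ℤ) ∣ P.b ^ P.p := dvd_pow hb hp0
        have := dvd_sub h2 hd
        simpa using this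
      exact ha (hqprime.dvd_of_dvd_pow this)
    · exact (isCoprime_of_prime_not_dvd hq hc).pow_left
    · obtain ⟨e, m, he, hm, heq⟩ :=
        exists_pow_mul_of_dvd hq P.hb0 (frey_isCoprime_ab P).symm hb P.p
      exact ⟨e, m, he, hm, by rw [mul_comm, heq]⟩

/-- Bad case `q ∣ c`: in the second model `a₂ = A + C` and `a₂² - 4 a₄ = B²` are prime to `q`
and `a₄ = A C = q^(p e) m`, `m` prime to `q`, `e > 0`. -/
theorem frey_bad_c {q : ℕ} (hq : q.Prime) (h : (q : ℤ) ∣ P.c) :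
    IsCoprime (P.a ^ P.p + P.c ^ P.p) (q : ℤ) ∧ IsCoprime (P.b ^ P.p) (q : ℤ) ∧
      ∃ (e : ℕ) (m : ℤ), 0 < e ∧ IsCoprime m (q : ℤ) ∧
        P.a ^ P.p * P.c ^ P.p = (q : ℤ) ^ (P.p * e) * m := by
  have hqprime : Prime (q : ℤ) := Nat.prime_iff_prime_int.mp hq
  have hp0 : P.p ≠ 0 := P.hp0
  have ha : ¬ (q : ℤ) ∣ P.a := not_dvd_of_isCoprime_of_dvd hq (frey_isCoprime_ac P).symm h
  have hb : ¬ (q : ℤ) ∣ P.b := not_dvd_of_isCoprime_of_dvd hq (frey_isCoprime_bc P).symm h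
  refine ⟨?_, (isCoprime_of_prime_not_dvd hq hb).pow_left, ?_⟩
  · apply isCoprime_of_prime_not_dvd hq
    intro hd
    have : (q : ℤ) ∣ P.a ^ P.p := by
      have h2 : (q : ℤ) ∣ P.c ^ P.p := dvd_pow h hp0
      have := dvd_sub hd h2
      simpa using this
    exact ha (hqprime.dvd_of_dvd_pow this)
  · obtain ⟨e, m, he, hm, heq⟩ :=
      exists_pow_mul_of_dvd hq P.hc0 (frey_isCoprime_ac P).symm h P.p
    exact ⟨e, m, he, hm, by rw [mul_comm, heq]⟩

/-- `a₂² - 4 a₄` in the two models. -/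
theorem frey_model1_disc :
    (P.b ^ P.p - P.a ^ P.p) ^ 2 - 4 * (-(P.a ^ P.p * P.b ^ P.p)) = (P.c ^ P.p) ^ 2 := by
  rw [← P.hFLT]; ring

theorem frey_model2_disc :
    (P.a ^ P.p + P.c ^ P.p) ^ 2 - 4 * (P.a ^ P.p * P.c ^ P.p) = (P.b ^ P.p) ^ 2 := by
  rw [← P.hFLT]; ring

end Integers

end Fermat.Agent.Lib.S05
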