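/-
S05 project: root extraction in the value group (helper2).
-/
import Mathlib

set_option autoImplicit false

namespace Fermat.Agent.Lib.S05

/-- Root extraction in a linearly ordered group with zero:
`g ^ p = (π ^ (p e)) ^ (2k)` implies `g = π ^ (2 e k)`. -/
theorem h2_root_extraction {Γ₀ : Type*} [LinearOrderedCommGroupWithZero Γ₀] (g π : Γ₀)
    (p e : ℕ) (hp : p ≠ 0) (k : ℤ) (h : g ^ p = (π ^ (p * e)) ^ (2 * k)) :
    g = π ^ (2 * (e : ℤ) * k) := by
  have h2 : (π ^ (2 * (e : ℤ) * k)) ^ p = (π ^ (p * e)) ^ (2 * k) := by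
    rw [← zpow_natCast (π ^ (2 * (e : ℤ) * k)) p, ← zpow_mul, ← zpow_natCast π (p * e), ← zpow_mul]
    congr 1
    push_cast
    ring
  exact (pow_left_inj₀ zero_le zero_le hp).mp (by rw [h, h2])

end Fermat.Agent.Lib.S05
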